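/-
ONE MACHINE / block [D] PATCH (architect helper25).  Namespace `Fermat.Agent.TW`, prefix `twd_`.

Two-system (unipotent / `χ`) patching in MATRIX form, Mathlib only.

* `twd_Level`  : the level-`n` datum (`M_n = (S/𝔟)^d` after the choice of a basis):
    ring homs `α¹ : R¹ → Mat_d(S/𝔟)`, `α^χ : R^χ → Mat_d(S/𝔟)`, `σ^? : S → R^?` with
    `α^? ∘ σ^? = scalars`, an intertwiner `P` of `α¹` and `α^χ` modulo `λ`
    (along `q¹ : R¹ → R̄ ← R^χ : q^χ`, the common special fibre), and `π : R¹ → T₀` with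
    `α¹ mod 𝔞 = j ∘ π`, `π (ν i j) = β i j`.
* `twd_Limit`  : the same over `S` itself (the patched datum `M_∞ = S^d`).
-/
import Mathlib

set_option autoImplicit false

namespace Fermat.Agent.TW

open IsLocalRing

universe uO uS uR1 uRχ uRb uT

variable (O : Type uO) [CommRing O] (lam : O)
  (S : Type uS) [CommRing S] [Algebra O S]
  (R1 : Type uR1) [CommRing R1] [Algebra O R1]
  (Rχ : Type uRχ) [CommRing Rχ] [Algebra O Rχ]
  (Rb : Type uRb) [CommRing Rb]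
  (T0 : Type uT) [CommRing T0] [Algebra O T0]
  (d : ℕ)

/-- entrywise congruence of matrices modulo an ideal. -/
def twd_MatCong {A : Type*} [CommRing A] {d : ℕ} (I : Ideal A) (X Y : Matrix (Fin d) (Fin d) A) :
    Prop := ∀ i j, X i j - Y i j ∈ I

/-- **level datum** of a two-system patching problem, over `S ⧸ 𝔟` (`𝔟 ≤ 𝔞`). -/
structure twd_Level (𝔞 𝔟 : Ideal S) (h𝔟𝔞 : 𝔟 ≤ 𝔞) (q1 : R1 →+* Rb) (qχ : Rχ →+* Rb)
    (j : T0 →+* Matrix (Fin d) (Fin d) (S ⧸ 𝔞)) (ν : Fin 2 → Fin 2 → R1)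
    (β : Fin 2 → Fin 2 → T0) where
  /-- the action of `R¹_∞` on `M¹_n = (S/𝔟)^d` -/
  α1 : R1 →+* Matrix (Fin d) (Fin d) (S ⧸ 𝔟)
  /-- the action of `R^χ_∞` on `M^χ_n = (S/𝔟)^d` -/
  αχ : Rχ →+* Matrix (Fin d) (Fin d) (S ⧸ 𝔟)
  /-- the `S_∞`-structure of `R¹_∞` (a lift of `S_∞ → R^□_{Q_n}`) -/
  σ1 : S →+* R1
  /-- the `S_∞`-structure of `R^χ_∞` -/
  σχ : S →+* Rχ
  σ1_algebraMap : ∀ a : O, σ1 (algebraMap O S a) = algebraMap O R1 a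
  σχ_algebraMap : ∀ a : O, σχ (algebraMap O S a) = algebraMap O Rχ a
  α1_σ1 : ∀ s : S, α1 (σ1 s) = Matrix.scalar (Fin d) (Ideal.Quotient.mk 𝔟 s)
  αχ_σχ : ∀ s : S, αχ (σχ s) = Matrix.scalar (Fin d) (Ideal.Quotient.mk 𝔟 s)
  /-- the intertwiner of the two systems modulo `λ` (any lift to `S/𝔟`) -/
  P : Matrix (Fin d) (Fin d) (S ⧸ 𝔟)
  /-- its inverse modulo `λ` -/
  Pinv : Matrix (Fin d) (Fin d) (S ⧸ 𝔟)
  P_mul_Pinv : twd_MatCong (Ideal.span {Ideal.Quotient.mk 𝔟 (algebraMap O S lam)}) (P * Pinv) 1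
  Pinv_mul_P : twd_MatCong (Ideal.span {Ideal.Quotient.mk 𝔟 (algebraMap O S lam)}) (Pinv * P) 1
  intertwine : ∀ (f : R1) (g : Rχ), q1 f = qχ g →
    twd_MatCong (Ideal.span {Ideal.Quotient.mk 𝔟 (algebraMap O S lam)}) (P * α1 f) (αχ g * P)
  /-- `R¹_∞ → R^□_{Q_n} → R_∅ → T_∅` -/
  π : R1 →+* T0
  π_algebraMap : ∀ a : O, π (algebraMap O R1 a) = algebraMap O T0 a
  /-- `M_n / 𝔞 M_n = M_∅` compatibly with the actions -/
  α1_mod : ∀ f : R1, (α1 f).map (Ideal.Quotient.factor h𝔟𝔞) = j (π f)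
  /-- the image of the universal `Σ_q - 1` in `T_∅` does not depend on `n` -/
  π_ν : ∀ i k, π (ν i k) = β i k

/-- **patched datum** (`M_∞ = S^d`). -/
structure twd_Limit (𝔞 : Ideal S) (q1 : R1 →+* Rb) (qχ : Rχ →+* Rb)
    (j : T0 →+* Matrix (Fin d) (Fin d) (S ⧸ 𝔞)) (ν : Fin 2 → Fin 2 → R1)
    (β : Fin 2 → Fin 2 → T0) where
  α1 : R1 →+* Matrix (Fin d) (Fin d) S
  αχ : Rχ →+* Matrix (Fin d) (Fin d) S
  σ1 : S →+* R1
  σχ : S →+* Rχ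
  σ1_algebraMap : ∀ a : O, σ1 (algebraMap O S a) = algebraMap O R1 a
  σχ_algebraMap : ∀ a : O, σχ (algebraMap O S a) = algebraMap O Rχ a
  α1_σ1 : ∀ s : S, α1 (σ1 s) = Matrix.scalar (Fin d) s
  αχ_σχ : ∀ s : S, αχ (σχ s) = Matrix.scalar (Fin d) s
  P : Matrix (Fin d) (Fin d) S
  Pinv : Matrix (Fin d) (Fin d) S
  P_mul_Pinv : twd_MatCong (Ideal.span {algebraMap O S lam}) (P * Pinv) 1
  Pinv_mul_P : twd_MatCong (Ideal.span {algebraMap O S lam}) (Pinv * P) 1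
  intertwine : ∀ (f : R1) (g : Rχ), q1 f = qχ g →
    twd_MatCong (Ideal.span {algebraMap O S lam}) (P * α1 f) (αχ g * P)
  π : R1 →+* T0
  π_algebraMap : ∀ a : O, π (algebraMap O R1 a) = algebraMap O T0 a
  α1_mod : ∀ f : R1, (α1 f).map (Ideal.Quotient.mk 𝔞) = j (π f)
  π_ν : ∀ i k, π (ν i k) = β i k

end Fermat.Agent.TW
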