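/-
ONE MACHINE / block [D] PATCH, cell D/SRing, part 1 (helper25).  Prefix `twds_`.

The ring `S_∞ = O[[y_1, …, y_r]]` and the ideals `𝔟 = ((1 + y_i) ^ N - 1)_i`:

`twds_span` : if `O` is a complete local ring and `p ∈ 𝔪_O` is a prime number, every element of
`O[[y_1, …, y_r]]` is congruent modulo `((1 + y_i) ^ p ^ n - 1)_i` to an `O`-linear combination of
the monomials `∏ (1 + y_i) ^ k_i`, `k_i < p ^ n`
(so `S_∞ ⧸ 𝔟_n` is a quotient of the group algebra `O[(ℤ/p^n)^r]`).

Proof: Weierstrass division (Mathlib, one variable) by the distinguished polynomial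
`(1 + X) ^ p ^ n - 1`, one variable at a time through `MvPowerSeries.finSuccEquiv`; completeness of
the coefficient rings `O[[y_1, …, y_j]]` is helper28's `twb_cpl_fin`.
-/
import Mathlib
import Fermat.Agent.TW.Loc.Complete

set_option autoImplicit false
set_option linter.style.haveILetI false

namespace Fermat.Agent.TW

open IsLocalRing

/-- Taylor shift: a polynomial of degree `< m` is a combination of `(1 + X) ^ k`, `k < m`. -/
theorem twds_poly_shift {A : Type*} [CommRing A] (P : Polynomial A) (m : ℕ)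
    (h : P.natDegree < m) :
    ∃ b : Fin m → A, P = ∑ k : Fin m, Polynomial.C (b k) * (1 + Polynomial.X) ^ (k : ℕ) := by
  set Q : Polynomial A := P.comp (Polynomial.X - 1) with hQ
  have hQdeg : Q.natDegree < m := by
    refine lt_of_le_of_lt (Polynomial.natDegree_comp_le) ?_
    have : (Polynomial.X - 1 : Polynomial A).natDegree ≤ 1 := by
      have := Polynomial.natDegree_X_sub_C_le (1 : A)
      simpa using this
    calc P.natDegree * (Polynomial.X - 1 : Polynomial A).natDegree
        ≤ P.natDegree * 1 := Nat.mul_le_mul_left _ this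
      _ = P.natDegree := mul_one _
      _ < m := h
  have hP : P = Q.comp (1 + Polynomial.X) := by
    rw [hQ, Polynomial.comp_assoc]
    simp
  refine ⟨fun k => Q.coeff k, ?_⟩
  rw [hP, Polynomial.comp_eq_sum_left, Polynomial.sum_over_range' _ _ m hQdeg, Finset.sum_range]
  intro n
  simp

/-- one variable: Weierstrass division by `(1 + X) ^ p ^ n - 1`, remainder written in the basis
`(1 + X) ^ k`. -/
theorem twds_one_var {A : Type*} [CommRing A] [IsLocalRing A]
    [IsAdicComplete (maximalIdeal A) A]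
    (p : ℕ) [Fact p.Prime] (hp : (p : A) ∈ maximalIdeal A) (n : ℕ) (f : PowerSeries A) :
    ∃ (q : PowerSeries A) (a : Fin (p ^ n) → A),
      f = ((1 + PowerSeries.X) ^ p ^ n - 1) * q +
        ∑ k : Fin (p ^ n), PowerSeries.C (a k) * (1 + PowerSeries.X) ^ (k : ℕ) := by
  classical
  set g : PowerSeries A := (1 + PowerSeries.X) ^ p ^ n - 1 with hg
  haveI : CharP (ResidueField A) p := by
    rw [CharP.charP_iff_prime_eq_zero (Fact.out : p.Prime)]
    have : residue A (p : A) = 0 := (residue_eq_zero_iff _).2 hp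
    simpa using this
  haveI : CharP (PowerSeries (ResidueField A)) p := by
    rw [CharP.charP_iff_prime_eq_zero (Fact.out : p.Prime)]
    have h0 : ((p : ResidueField A)) = 0 := CharP.cast_eq_zero _ p
    rw [← map_natCast (PowerSeries.C (R := ResidueField A)), h0, map_zero]
  have hmap : PowerSeries.map (residue A) g = PowerSeries.X ^ p ^ n := by
    rw [hg, map_sub, map_pow, map_add, map_one, PowerSeries.map_X, add_pow_char_pow, one_pow,
      add_sub_cancel_left]
  have hne : PowerSeries.map (residue A) g ≠ 0 := by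
    rw [hmap]; exact pow_ne_zero _ PowerSeries.X_ne_zero
  have hdeg : (f %ʷ g).degree < (p ^ n : ℕ) := by
    have := PowerSeries.degree_weierstrassMod_lt f g
    rw [hmap, PowerSeries.order_X_pow, ENat.toNat_natCast] at this
    exact this
  have hnat : (f %ʷ g).natDegree < p ^ n := by
    by_cases h0 : f %ʷ g = 0
    · rw [h0, Polynomial.natDegree_zero]
      exact pow_pos (Fact.out : p.Prime).pos n
    · exact (Polynomial.natDegree_lt_iff_degree_lt h0).2 hdeg
  obtain ⟨b, hb⟩ := twds_poly_shift (f %ʷ g) (p ^ n) hnat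
  refine ⟨f /ʷ g, b, ?_⟩
  have h1 := PowerSeries.eq_mul_weierstrassDiv_add_weierstrassMod f hne
  have h2 : ((f %ʷ g : Polynomial A) : PowerSeries A) =
      ∑ k : Fin (p ^ n), PowerSeries.C (b k) * (1 + PowerSeries.X) ^ (k : ℕ) := by
    conv_lhs => rw [hb]
    rw [← Polynomial.coeToPowerSeries.ringHom_apply, map_sum]
    refine Finset.sum_congr rfl fun k _ => ?_
    simp [Polynomial.coeToPowerSeries.ringHom_apply]
  rw [← h2]
  exact h1

variable (O : Type*) [CommRing O]

/-- the ideal `((1 + y_i) ^ N - 1)_i` of `O[[y_1, …, y_r]]`. -/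
noncomputable def twds_b (r N : ℕ) : Ideal (MvPowerSeries (Fin r) O) :=
  Ideal.span (Set.range fun i : Fin r => (1 + MvPowerSeries.X i) ^ N - 1)

variable {O}

theorem twds_natCast_mem [IsLocalRing O] (r : ℕ) {p : ℕ} (hp : (p : O) ∈ maximalIdeal O) :
    (p : MvPowerSeries (Fin r) O) ∈ maximalIdeal (MvPowerSeries (Fin r) O) := by
  rw [mem_maximalIdeal, mem_nonunits_iff, MvPowerSeries.isUnit_iff_constantCoeff, map_natCast]
  exact hp

/-- spanning by the monomials `∏ (1 + y_i) ^ k_i`, `k_i < p ^ n`, modulo `twds_b`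
(`C`-multiplication form). -/
theorem twds_span_C [IsLocalRing O] [IsAdicComplete (maximalIdeal O) O]
    (p : ℕ) [Fact p.Prime] (hp : (p : O) ∈ maximalIdeal O) (n : ℕ) :
    ∀ (r : ℕ) (s : MvPowerSeries (Fin r) O), ∃ c : (Fin r → Fin (p ^ n)) → O,
      s - ∑ κ : Fin r → Fin (p ^ n),
        MvPowerSeries.C (c κ) * ∏ i, (1 + MvPowerSeries.X i) ^ (κ i : ℕ) ∈
          twds_b O r (p ^ n) := by
  intro r
  induction r with
  | zero =>
    intro s
    refine ⟨fun _ => MvPowerSeries.constantCoeff s, ?_⟩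
    have hs : s = MvPowerSeries.C (MvPowerSeries.constantCoeff s) := by
      ext e
      have he : e = 0 := Subsingleton.elim _ _
      subst he
      simp
    rw [Fintype.sum_unique]
    simp only [Finset.univ_eq_empty, Finset.prod_empty, mul_one]
    rw [← hs, sub_self]
    exact Ideal.zero_mem _
  | succ r ih =>
    intro s
    haveI := twb_cpl_fin O r
    set e := MvPowerSeries.finSuccEquiv O r with he
    obtain ⟨q, a, hqa⟩ :=
      twds_one_var (A := MvPowerSeries (Fin r) O) p (twds_natCast_mem r hp) n (e s)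
    choose c hc using fun k => ih (a k)
    set ι : MvPowerSeries (Fin r) O →+* MvPowerSeries (Fin (r + 1)) O :=
      (e.symm : PowerSeries (MvPowerSeries (Fin r) O) →+* MvPowerSeries (Fin (r + 1)) O).comp
        PowerSeries.C with hι
    have hιX : ∀ j : Fin r, ι (MvPowerSeries.X j) = MvPowerSeries.X j.succ := by
      intro j
      rw [hι, RingHom.comp_apply, ← MvPowerSeries.finSuccEquiv_X_succ]
      exact e.symm_apply_apply _
    have hιC : ∀ x : O, ι (MvPowerSeries.C x) = MvPowerSeries.C x := by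
      intro x
      rw [hι, RingHom.comp_apply, ← MvPowerSeries.finSuccEquiv_C]
      exact e.symm_apply_apply _
    have hX0 : e.symm PowerSeries.X = MvPowerSeries.X 0 := by
      rw [← MvPowerSeries.finSuccEquiv_X_zero]
      exact e.symm_apply_apply _
    have hs : s = ((1 + MvPowerSeries.X 0) ^ p ^ n - 1) * e.symm q +
        ∑ k : Fin (p ^ n), ι (a k) * (1 + MvPowerSeries.X 0) ^ (k : ℕ) := by
      have := congrArg e.symm hqa
      rw [e.symm_apply_apply] at this
      rw [this, map_add, map_mul, map_sub, map_pow, map_add, map_one, hX0, map_sum]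
      congr 1
      refine Finset.sum_congr rfl fun k _ => ?_
      rw [map_mul, map_pow, map_add, map_one, hX0]
      rfl
    have hmap : (twds_b O r (p ^ n)).map ι ≤ twds_b O (r + 1) (p ^ n) := by
      rw [twds_b, Ideal.map_span, Ideal.span_le]
      rintro _ ⟨_, ⟨i, rfl⟩, rfl⟩
      rw [map_sub, map_pow, map_add, map_one, hιX]
      exact Ideal.subset_span ⟨i.succ, rfl⟩
    refine ⟨fun κ' => c (κ' 0) (fun i => κ' i.succ), ?_⟩
    have hsum : ∑ κ' : Fin (r + 1) → Fin (p ^ n),
        MvPowerSeries.C (c (κ' 0) (fun i => κ' i.succ)) *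
          ∏ i, (1 + MvPowerSeries.X i : MvPowerSeries (Fin (r + 1)) O) ^ (κ' i : ℕ) =
        ∑ k : Fin (p ^ n), (∑ κ : Fin r → Fin (p ^ n), ι (MvPowerSeries.C (c k κ) *
          ∏ i, (1 + MvPowerSeries.X i) ^ (κ i : ℕ))) * (1 + MvPowerSeries.X 0) ^ (k : ℕ) := by
      rw [← (Fin.consEquiv (fun _ : Fin (r + 1) => Fin (p ^ n))).sum_comp, Fintype.sum_prod_type]
      refine Finset.sum_congr rfl fun k _ => ?_
      rw [Finset.sum_mul]
      refine Finset.sum_congr rfl fun κ _ => ?_
      rw [Fin.prod_univ_succ, map_mul, hιC, map_prod]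
      simp only [Fin.consEquiv_apply, Fin.cons_zero, Fin.cons_succ, map_pow, map_add, map_one, hιX]
      ring
    rw [hsum]
    nth_rewrite 1 [hs]
    rw [add_sub_assoc, ← Finset.sum_sub_distrib]
    refine Ideal.add_mem _ (Ideal.mul_mem_right _ _ (Ideal.subset_span ⟨0, rfl⟩)) ?_
    refine Ideal.sum_mem _ fun k _ => ?_
    rw [← sub_mul, ← map_sum, ← map_sub]
    exact Ideal.mul_mem_right _ _ (hmap (Ideal.mem_map_of_mem ι (hc k)))

/-- **spanning**: every element of `O[[y_1, …, y_r]]` is congruent modulo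
`((1 + y_i) ^ p ^ n - 1)_i` to an `O`-linear combination of the monomials `∏ (1 + y_i) ^ k_i`,
`k_i < p ^ n`. -/
theorem twds_span [IsLocalRing O] [IsAdicComplete (maximalIdeal O) O]
    (p : ℕ) [Fact p.Prime] (hp : (p : O) ∈ maximalIdeal O) (n r : ℕ)
    (s : MvPowerSeries (Fin r) O) : ∃ c : (Fin r → Fin (p ^ n)) → O,
      s - ∑ κ : Fin r → Fin (p ^ n), c κ • ∏ i, (1 + MvPowerSeries.X i) ^ (κ i : ℕ) ∈
        twds_b O r (p ^ n) := by
  obtain ⟨c, hc⟩ := twds_span_C p hp n r s
  refine ⟨c, ?_⟩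
  simpa only [MvPowerSeries.smul_eq_C_mul] using hc

/-- the same in the quotient ring. -/
theorem twds_span_quot [IsLocalRing O] [IsAdicComplete (maximalIdeal O) O]
    (p : ℕ) [Fact p.Prime] (hp : (p : O) ∈ maximalIdeal O) (n r : ℕ)
    (x : MvPowerSeries (Fin r) O ⧸ twds_b O r (p ^ n)) : ∃ c : (Fin r → Fin (p ^ n)) → O,
      x = ∑ κ : Fin r → Fin (p ^ n), c κ •
        ∏ i, (Ideal.Quotient.mk (twds_b O r (p ^ n)) (1 + MvPowerSeries.X i)) ^ (κ i : ℕ) := by
  obtain ⟨s, rfl⟩ := Ideal.Quotient.mk_surjective x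
  obtain ⟨c, hc⟩ := twds_span p hp n r s
  refine ⟨c, ?_⟩
  have h := (Ideal.Quotient.eq).2 hc
  rw [h]
  change Ideal.Quotient.mkₐ O (twds_b O r (p ^ n)) _ = _
  rw [map_sum]
  refine Finset.sum_congr rfl fun κ _ => ?_
  rw [map_smul, map_prod]
  simp only [map_pow]
  rfl

end Fermat.Agent.TW
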