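/-
ONE MACHINE / block [D] PATCH, cell D/SRing, part 2 (helper25).  Prefix `twds_`.

THE RING `S_∞ = O[[y_1, …, y_r]]` AS A PACKAGE: every `S`-side hypothesis of `twd_main_supp`.

* `twds_a O r`  = `(y_1, …, y_r)` = kernel of the constant coefficient: prime (`O` a domain),
  `S ⧸ 𝔞 ≃+* O` (`twds_quotEquiv`), `λ ∉ 𝔞` for `λ ≠ 0`;
* `twds_b O r N` = `((1 + y_i) ^ N - 1)_i` (defined in `SRingSpan.lean`): `twds_b_le_a`,
  `twds_b_le_pow : twds_b O r (p ^ n) ≤ 𝔪_S ^ n` when `p ∈ 𝔪_O` (even `≤ 𝔪_S ^ (n + 1)`);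
* `twds_finite_quot` : `S ⧸ 𝔪_S ^ k` is finite when the residue field of `O` is finite
  (`twds_finite_quot_pow`: the same for every noetherian local ring with finite residue field);
* `λ ∈ 𝔪_O ⟹ λ ∈ 𝔪_S`, `λ ≠ 0 ⟹ λ ≠ 0` in `S`;
* domain / noetherian / local are Mathlib instances, completeness is helper28's
  `twb_mvps_isAdicComplete`; the spanning of `S ⧸ twds_b` by monomials is `twds_span`.
-/
import Mathlib
import Fermat.Agent.TW.Patch.SRingSpan

set_option autoImplicit false
set_option linter.style.haveILetI false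

namespace Fermat.Agent.TW

open IsLocalRing

/-- `(1 + x) ^ p ^ n ≡ 1` modulo `I ^ (n + 1)` when `p, x ∈ I`. -/
theorem twds_pow_sub_one_mem {R : Type*} [CommRing R] (I : Ideal R) (p : ℕ) (hp : (p : R) ∈ I)
    {x : R} (hx : x ∈ I) (n : ℕ) : (1 + x) ^ p ^ n - 1 ∈ I ^ (n + 1) := by
  induction n with
  | zero => simpa using hx
  | succ n ih =>
    set a := (1 + x) ^ p ^ n with ha
    have h1 : (1 + x) ^ p ^ (n + 1) - 1 = (∑ j ∈ Finset.range p, a ^ j) * (a - 1) := by
      rw [geom_sum_mul, ha, ← pow_mul, ← pow_succ]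
    have ha1 : a - 1 ∈ I := Ideal.pow_le_self (Nat.succ_ne_zero n) ih
    have h2 : ∑ j ∈ Finset.range p, a ^ j ∈ I := by
      rw [← Ideal.Quotient.eq_zero_iff_mem, map_sum]
      have hmk : Ideal.Quotient.mk I a = 1 := by
        have := (Ideal.Quotient.eq_zero_iff_mem).2 ha1
        rw [map_sub, map_one, sub_eq_zero] at this
        exact this
      simp only [map_pow, hmk, one_pow, Finset.sum_const, Finset.card_range, nsmul_eq_mul, mul_one]
      rw [← map_natCast (Ideal.Quotient.mk I)]
      exact (Ideal.Quotient.eq_zero_iff_mem).2 hp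
    rw [h1, pow_succ' I (n + 1)]
    exact Ideal.mul_mem_mul h2 ih

/-- a noetherian local ring with finite residue field has finite quotients `R ⧸ 𝔪 ^ k`. -/
theorem twds_finite_quot_pow (R : Type*) [CommRing R] [IsLocalRing R] [IsNoetherianRing R]
    [Finite (ResidueField R)] (k : ℕ) : Finite (R ⧸ maximalIdeal R ^ k) := by
  haveI : Finite (R ⧸ maximalIdeal R) := ‹Finite (ResidueField R)›
  exact Ideal.finite_quotient_pow (IsNoetherian.noetherian _) k

variable (O : Type*) [CommRing O] (r : ℕ)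

/-- `𝔞 = (y_1, …, y_r)`: the kernel of the constant coefficient. -/
noncomputable def twds_a : Ideal (MvPowerSeries (Fin r) O) :=
  RingHom.ker (MvPowerSeries.constantCoeff (σ := Fin r) (R := O))

theorem twds_mem_a {s : MvPowerSeries (Fin r) O} :
    s ∈ twds_a O r ↔ MvPowerSeries.constantCoeff s = 0 := RingHom.mem_ker

theorem twds_a_isPrime [IsDomain O] : (twds_a O r).IsPrime := RingHom.ker_isPrime _

theorem twds_constantCoeff_surjective :
    Function.Surjective (MvPowerSeries.constantCoeff (σ := Fin r) (R := O)) :=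
  fun x => ⟨MvPowerSeries.C x, by simp⟩

/-- `S ⧸ 𝔞 ≃ O`. -/
noncomputable def twds_quotEquiv : (MvPowerSeries (Fin r) O ⧸ twds_a O r) ≃+* O :=
  RingHom.quotientKerEquivOfSurjective (twds_constantCoeff_surjective O r)

theorem twds_quotEquiv_mk (s : MvPowerSeries (Fin r) O) :
    twds_quotEquiv O r (Ideal.Quotient.mk _ s) = MvPowerSeries.constantCoeff s := rfl

theorem twds_quotEquiv_symm (x : O) :
    (twds_quotEquiv O r).symm x = Ideal.Quotient.mk _ (algebraMap O _ x) := by
  rw [RingEquiv.symm_apply_eq, twds_quotEquiv_mk]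
  simp [MvPowerSeries.algebraMap_apply]

variable {O}

theorem twds_algebraMap_notMem {lam : O} (h : lam ≠ 0) :
    algebraMap O (MvPowerSeries (Fin r) O) lam ∉ twds_a O r := by
  rw [twds_mem_a]
  simpa [MvPowerSeries.algebraMap_apply] using h

theorem twds_algebraMap_ne_zero {lam : O} (h : lam ≠ 0) :
    algebraMap O (MvPowerSeries (Fin r) O) lam ≠ 0 := fun h0 =>
  twds_algebraMap_notMem r h (h0 ▸ Ideal.zero_mem _)

theorem twds_mem_maximalIdeal_iff [IsLocalRing O] {s : MvPowerSeries (Fin r) O} :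
    s ∈ maximalIdeal (MvPowerSeries (Fin r) O) ↔
      MvPowerSeries.constantCoeff s ∈ maximalIdeal O := by
  rw [mem_maximalIdeal, mem_nonunits_iff, MvPowerSeries.isUnit_iff_constantCoeff,
    mem_maximalIdeal, mem_nonunits_iff]

theorem twds_algebraMap_mem_maximalIdeal [IsLocalRing O] {lam : O} (h : lam ∈ maximalIdeal O) :
    algebraMap O (MvPowerSeries (Fin r) O) lam ∈ maximalIdeal (MvPowerSeries (Fin r) O) := by
  rw [twds_mem_maximalIdeal_iff]
  simpa [MvPowerSeries.algebraMap_apply] using h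

theorem twds_a_le_maximalIdeal [IsLocalRing O] :
    twds_a O r ≤ maximalIdeal (MvPowerSeries (Fin r) O) := by
  intro s hs
  rw [twds_mem_maximalIdeal_iff, (twds_mem_a O r).1 hs]
  exact Ideal.zero_mem _

theorem twds_b_le_a (N : ℕ) : twds_b O r N ≤ twds_a O r := by
  rw [twds_b, Ideal.span_le]
  rintro _ ⟨i, rfl⟩
  rw [SetLike.mem_coe, twds_mem_a]
  simp

theorem twds_b_le_pow_succ [IsLocalRing O] {p : ℕ} (hp : (p : O) ∈ maximalIdeal O) (n : ℕ) :
    twds_b O r (p ^ n) ≤ maximalIdeal (MvPowerSeries (Fin r) O) ^ (n + 1) := by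
  rw [twds_b, Ideal.span_le]
  rintro _ ⟨i, rfl⟩
  refine twds_pow_sub_one_mem _ p (twds_natCast_mem r hp) ?_ n
  rw [twds_mem_maximalIdeal_iff]
  simp

theorem twds_b_le_pow [IsLocalRing O] {p : ℕ} (hp : (p : O) ∈ maximalIdeal O) (n : ℕ) :
    twds_b O r (p ^ n) ≤ maximalIdeal (MvPowerSeries (Fin r) O) ^ n :=
  (twds_b_le_pow_succ r hp n).trans (Ideal.pow_le_pow_right n.le_succ)

/-- the residue field of `O[[y]]` is finite when that of `O` is. -/
theorem twds_finite_residueField [IsLocalRing O] [Finite (ResidueField O)] :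
    Finite (ResidueField (MvPowerSeries (Fin r) O)) := by
  set f : MvPowerSeries (Fin r) O →+* ResidueField O :=
    (residue O).comp MvPowerSeries.constantCoeff with hf
  have hsurj : Function.Surjective f :=
    (residue_surjective).comp (twds_constantCoeff_surjective O r)
  have hker : RingHom.ker f = maximalIdeal (MvPowerSeries (Fin r) O) := by
    ext s
    rw [RingHom.mem_ker, hf, RingHom.comp_apply, residue_eq_zero_iff,
      twds_mem_maximalIdeal_iff]
  have e := RingHom.quotientKerEquivOfSurjective hsurj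
  have q := Ideal.quotEquivOfEq hker
  exact Finite.of_equiv (ResidueField O) (e.symm.trans q).toEquiv

/-- `S ⧸ 𝔪_S ^ k` is finite. -/
theorem twds_finite_quot [IsLocalRing O] [IsNoetherianRing O] [Finite (ResidueField O)] (k : ℕ) :
    Finite (MvPowerSeries (Fin r) O ⧸ maximalIdeal (MvPowerSeries (Fin r) O) ^ k) := by
  haveI := twds_finite_residueField (O := O) r
  exact twds_finite_quot_pow _ k

end Fermat.Agent.TW
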