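/-
ONE MACHINE / block [D] PATCH, cell D/MatCong (helper10): API of the entrywise congruence of matrices
`twd_MatCong I X Y` (landed in Patch/Defs.lean).  Mathlib only.  Prefix `twd_matCong_`.
-/
import Fermat.Agent.TW.Patch.Defs

set_option autoImplicit false

namespace Fermat.Agent.TW

variable {A : Type*} [CommRing A] {d : ℕ} {I : Ideal A}

/-- congruence modulo `I` is equality in `A ⧸ I`. -/
theorem twd_matCong_iff_map {X Y : Matrix (Fin d) (Fin d) A} :
    twd_MatCong I X Y ↔ X.map (Ideal.Quotient.mk I) = Y.map (Ideal.Quotient.mk I) := by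
  constructor
  · intro h
    ext i j
    rw [Matrix.map_apply, Matrix.map_apply]
    exact Ideal.Quotient.eq.2 (h i j)
  · intro h i j
    have := congrFun (congrFun h i) j
    rw [Matrix.map_apply, Matrix.map_apply] at this
    exact Ideal.Quotient.eq.1 this

theorem twd_matCong_iff_sub {X Y : Matrix (Fin d) (Fin d) A} :
    twd_MatCong I X Y ↔ ∀ i j, (X - Y) i j ∈ I := Iff.rfl

theorem twd_matCong_refl (X : Matrix (Fin d) (Fin d) A) : twd_MatCong I X X := fun i j => by
  rw [sub_self]
  exact I.zero_mem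

theorem twd_matCong_of_eq {X Y : Matrix (Fin d) (Fin d) A} (h : X = Y) : twd_MatCong I X Y :=
  h ▸ twd_matCong_refl X

theorem twd_matCong_symm {X Y : Matrix (Fin d) (Fin d) A} (h : twd_MatCong I X Y) :
    twd_MatCong I Y X :=
  twd_matCong_iff_map.2 (twd_matCong_iff_map.1 h).symm

theorem twd_matCong_trans {X Y Z : Matrix (Fin d) (Fin d) A} (h : twd_MatCong I X Y)
    (h' : twd_MatCong I Y Z) : twd_MatCong I X Z :=
  twd_matCong_iff_map.2 ((twd_matCong_iff_map.1 h).trans (twd_matCong_iff_map.1 h'))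

theorem twd_matCong_add {X Y X' Y' : Matrix (Fin d) (Fin d) A} (h : twd_MatCong I X Y)
    (h' : twd_MatCong I X' Y') : twd_MatCong I (X + X') (Y + Y') := fun i j => by
  have : (X + X') i j - (Y + Y') i j = (X i j - Y i j) + (X' i j - Y' i j) := by
    simp only [Matrix.add_apply]
    ring
  rw [this]
  exact I.add_mem (h i j) (h' i j)

theorem twd_matCong_neg {X Y : Matrix (Fin d) (Fin d) A} (h : twd_MatCong I X Y) :
    twd_MatCong I (-X) (-Y) := fun i j => by
  have : (-X) i j - (-Y) i j = -(X i j - Y i j) := by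
    simp only [Matrix.neg_apply]
    ring
  rw [this]
  exact I.neg_mem (h i j)

theorem twd_matCong_sub {X Y X' Y' : Matrix (Fin d) (Fin d) A} (h : twd_MatCong I X Y)
    (h' : twd_MatCong I X' Y') : twd_MatCong I (X - X') (Y - Y') := by
  rw [sub_eq_add_neg, sub_eq_add_neg]
  exact twd_matCong_add h (twd_matCong_neg h')

theorem twd_matCong_smul (a : A) {X Y : Matrix (Fin d) (Fin d) A} (h : twd_MatCong I X Y) :
    twd_MatCong I (a • X) (a • Y) := fun i j => by
  have : (a • X) i j - (a • Y) i j = a * (X i j - Y i j) := by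
    simp only [Matrix.smul_apply, smul_eq_mul]
    ring
  rw [this]
  exact I.mul_mem_left a (h i j)

theorem twd_matCong_mul {X Y X' Y' : Matrix (Fin d) (Fin d) A} (h : twd_MatCong I X Y)
    (h' : twd_MatCong I X' Y') : twd_MatCong I (X * X') (Y * Y') := by
  rw [twd_matCong_iff_map] at h h' ⊢
  rw [Matrix.map_mul, Matrix.map_mul, h, h']

theorem twd_matCong_mul_left (Z : Matrix (Fin d) (Fin d) A) {X Y : Matrix (Fin d) (Fin d) A}
    (h : twd_MatCong I X Y) : twd_MatCong I (Z * X) (Z * Y) :=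
  twd_matCong_mul (twd_matCong_refl Z) h

theorem twd_matCong_mul_right (Z : Matrix (Fin d) (Fin d) A) {X Y : Matrix (Fin d) (Fin d) A}
    (h : twd_MatCong I X Y) : twd_MatCong I (X * Z) (Y * Z) :=
  twd_matCong_mul h (twd_matCong_refl Z)

theorem twd_matCong_pow {X Y : Matrix (Fin d) (Fin d) A} (h : twd_MatCong I X Y) (n : ℕ) :
    twd_MatCong I (X ^ n) (Y ^ n) := by
  induction n with
  | zero => rw [pow_zero, pow_zero]; exact twd_matCong_refl 1
  | succ n ih => rw [pow_succ, pow_succ]; exact twd_matCong_mul ih h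

theorem twd_matCong_mono {I' : Ideal A} (hII' : I ≤ I') {X Y : Matrix (Fin d) (Fin d) A}
    (h : twd_MatCong I X Y) : twd_MatCong I' X Y := fun i j => hII' (h i j)

theorem twd_matCong_bot_iff {X Y : Matrix (Fin d) (Fin d) A} :
    twd_MatCong (⊥ : Ideal A) X Y ↔ X = Y := by
  constructor
  · intro h
    ext i j
    have := h i j
    rwa [Ideal.mem_bot, sub_eq_zero] at this
  · intro h
    exact twd_matCong_of_eq h

/-- transport along a ring homomorphism. -/
theorem twd_matCong_map {B : Type*} [CommRing B] (f : A →+* B) {I' : Ideal B}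
    (hf : I.map f ≤ I') {X Y : Matrix (Fin d) (Fin d) A} (h : twd_MatCong I X Y) :
    twd_MatCong I' (X.map f) (Y.map f) := fun i j => by
  rw [Matrix.map_apply, Matrix.map_apply, ← map_sub]
  exact hf (Ideal.mem_map_of_mem f (h i j))

/-- a congruence modulo every member of a family holds modulo the intersection. -/
theorem twd_matCong_iInf {ι : Sort*} {J : ι → Ideal A} {X Y : Matrix (Fin d) (Fin d) A}
    (h : ∀ k, twd_MatCong (J k) X Y) : twd_MatCong (⨅ k, J k) X Y := fun i j =>
  (Ideal.mem_iInf).2 fun k => h k i j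

/-- cancellation of a matrix invertible modulo `I`:  `X P ≡ Y P`, `P P' ≡ 1` ⟹ `X ≡ Y`. -/
theorem twd_matCong_of_mul_right {X Y P P' : Matrix (Fin d) (Fin d) A}
    (hXP : twd_MatCong I (X * P) (Y * P)) (hP : twd_MatCong I (P * P') 1) : twd_MatCong I X Y := by
  rw [twd_matCong_iff_map] at hXP hP ⊢
  rw [Matrix.map_mul, Matrix.map_mul] at hXP
  rw [Matrix.map_mul] at hP
  have h1 : (1 : Matrix (Fin d) (Fin d) A).map (Ideal.Quotient.mk I) = 1 := by
    rw [Matrix.map_one] <;> simp
  rw [h1] at hP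
  calc X.map (Ideal.Quotient.mk I)
      = X.map (Ideal.Quotient.mk I) * (P.map (Ideal.Quotient.mk I) * P'.map (Ideal.Quotient.mk I)) := by
        rw [hP, mul_one]
    _ = Y.map (Ideal.Quotient.mk I) * (P.map (Ideal.Quotient.mk I) * P'.map (Ideal.Quotient.mk I)) := by
        rw [← mul_assoc, hXP, mul_assoc]
    _ = Y.map (Ideal.Quotient.mk I) := by rw [hP, mul_one]

/-- `A P ≡ 0`, `P P' ≡ 1` ⟹ `A ≡ 0`. -/
theorem twd_matCong_zero_of_mul {X P P' : Matrix (Fin d) (Fin d) A}
    (hXP : twd_MatCong I (X * P) 0) (hP : twd_MatCong I (P * P') 1) : twd_MatCong I X 0 := by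
  refine twd_matCong_of_mul_right (P := P) (P' := P') ?_ hP
  rw [zero_mul]
  exact hXP

/-- cancellation on the left:  `P X ≡ P Y`, `P' P ≡ 1` ⟹ `X ≡ Y`. -/
theorem twd_matCong_of_mul_left {X Y P P' : Matrix (Fin d) (Fin d) A}
    (hPX : twd_MatCong I (P * X) (P * Y)) (hP : twd_MatCong I (P' * P) 1) : twd_MatCong I X Y := by
  rw [twd_matCong_iff_map] at hPX hP ⊢
  rw [Matrix.map_mul, Matrix.map_mul] at hPX
  rw [Matrix.map_mul] at hP
  have h1 : (1 : Matrix (Fin d) (Fin d) A).map (Ideal.Quotient.mk I) = 1 := by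
    rw [Matrix.map_one] <;> simp
  rw [h1] at hP
  calc X.map (Ideal.Quotient.mk I)
      = (P'.map (Ideal.Quotient.mk I) * P.map (Ideal.Quotient.mk I)) * X.map (Ideal.Quotient.mk I) := by
        rw [hP, one_mul]
    _ = (P'.map (Ideal.Quotient.mk I) * P.map (Ideal.Quotient.mk I)) * Y.map (Ideal.Quotient.mk I) := by
        rw [mul_assoc, hPX, ← mul_assoc]
    _ = Y.map (Ideal.Quotient.mk I) := by rw [hP, one_mul]

/-- scalar matrices: `scalar a ≡ scalar b` iff `a - b ∈ I` (for `0 < d`). -/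
theorem twd_matCong_scalar {a b : A} (h : a - b ∈ I) :
    twd_MatCong I (Matrix.scalar (Fin d) a) (Matrix.scalar (Fin d) b) := fun i j => by
  by_cases hij : i = j
  · subst hij
    simpa using h
  · simp [Matrix.scalar_apply, Matrix.diagonal_apply_ne _ hij]

end Fermat.Agent.TW
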