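/-
Project ONE MACHINE (S43): the BRIDGE CELL (chief's seam note, (5)); helper2; prefix `twib_`.

From a statement about the ONE element `ρ(σ_ℓ)` (`σ_ℓ = td.gσ ℓ` the tame generator at a hard prime
`ℓ ≡ 1 mod p`) to the statement about ALL inertia groups above `ℓ`:

* `twib_InertiaGen td` : the tame datum `td` has the property "`f(I_ℓ)` consists of powers of
  `f(σ_ℓ)`" for every finite-level `f` which is a `p`-group on inertia.  (The abstract
  `twc_TameData` only has the generation of `f(D_ℓ)`; this clause does not follow from its fields.)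
* `twib_td`, `twib_td_inertiaGen`, `twib_td_phi_cyc`, `twib_tameData` : the datum of `twc_tg_main`
  re-exported as a definition, with the extra clause.
* `twib_redEnd`, `twib_red` : reduction of endomorphisms / of a `GaloisRepAdic` modulo an ideal.
* `twib_approx` : `ρ τ ≡ ρ(σ_ℓ) ^ m mod 𝔪 ^ n` for `τ ∈ I_ℓ`.
* `twib_small_of_gen` : for ANY ideal `𝔓`: `ρ(σ_ℓ) ≡ 1 mod 𝔓` ⟹ `ρ τ ≡ 1 mod 𝔓` for all `τ ∈ I_ℓ`.
* `twib_out_hI` (`twib_out_hI'`) : the same at every place above `ℓ` = hypothesis `hI` of `twt_out`.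
* `twib_unip_of_gen` (`'`) : `charpoly ρ(σ_ℓ) = (X - 1)²` ⟹ `ρ.IsUnipotentOnInertiaAt ℓ`;
  `twib_gen_not_unip` : the contrapositive (A4, hard prime).
* `twib_framed` : the matrix-entry form for a `FramedRep` (entries of `r(σ_ℓ) - 1` in `𝔓` ⟹ entries
  of `r σ - 1` in `𝔓` for all `σ` in all inertia groups above `ℓ`).
The primed versions take the residual hypothesis as `ρ τ ≡ 1 mod 𝔪` for `τ ∈ I_ℓ` (at
`primeLocalPlace ℓ` only); the unprimed ones as `ρ.residual.IsUnramifiedAt ℓ`.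
-/
import Mathlib
import Fermat.Agent.TW.Def.TameGenMain
import Fermat.Agent.TW.LG.Transfer
import Fermat.Agent.S55.Places.Basic
import Fermat.Agent.S55.LevelFields
import Fermat.Agent.FF.Car.Lift

set_option autoImplicit false
set_option linter.unusedSectionVars false
set_option linter.unusedVariables false
set_option linter.style.haveILetI false

noncomputable section

namespace Fermat.Agent.TW

open IsLocalRing Polynomial ExtCitation Fermat.Agent.JT3 Fermat.Agent.SS Fermat.Agent.S55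
  Fermat.Agent.S56 Fermat.Agent.DS Fermat.Agent.S53
open scoped TensorProduct Pointwise

local notation "GQ" => (AlgebraicClosure ℚ ≃ₐ[ℚ] AlgebraicClosure ℚ)
local notation "Qbar" => AlgebraicClosure ℚ

/-! ### The tame datum with inertia generation -/

/-- `f(I_ℓ)` consists of powers of `f(σ_ℓ)`, for every finite-level `f` which is a `p`-group on
inertia. -/
def twib_InertiaGen {p : ℕ} {Th : Finset Nat.Primes} (td : twc_TameData p Th) : Prop :=
  ∀ ℓ ∈ Th, ∀ (M : Type) [Monoid M] (f : GQ →* M),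
    (∃ L : IntermediateField ℚ Qbar, FiniteDimensional ℚ L ∧
      ∀ s : GQ, (∀ x ∈ L, s x = x) → f s = 1) →
    (∀ τ ∈ (primeLocalPlace ℓ).inertiaSubgroupIn ℚ, ∃ n : ℕ, f τ ^ p ^ n = 1) →
    ∀ τ ∈ (primeLocalPlace ℓ).inertiaSubgroupIn ℚ, ∃ m : ℕ, f τ = f (td.gσ ℓ) ^ m

/-- the tame datum of `twc_tg_main`, as a definition. -/
def twib_td (p : ℕ) [hp : Fact p.Prime] (Th : Finset Nat.Primes)
    (hTh : ∀ ℓ ∈ Th, (ℓ : ℕ) ≠ p ∧ p ∣ (ℓ : ℕ) - 1) : twc_TameData p Th where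
  gφ := twc_tg_gphi
  gσ := twc_tg_gsigma
  φ_mem := fun ℓ _ => by
    haveI : Fact (ℓ : ℕ).Prime := ⟨ℓ.2⟩
    exact twc_tg_phi_mem (ℓ : ℕ) (primeLocalPlace ℓ) (s56ld_liesOver ℓ)
  φ_frob := fun ℓ _ => by
    haveI : Fact (ℓ : ℕ).Prime := ⟨ℓ.2⟩
    exact twc_tg_phi_isFrobeniusAt (ℓ : ℕ) (primeLocalPlace ℓ) (s56ld_liesOver ℓ)
  σ_mem := fun ℓ _ => by
    haveI : Fact (ℓ : ℕ).Prime := ⟨ℓ.2⟩
    exact twc_tg_sigma_mem (ℓ : ℕ) (primeLocalPlace ℓ) (s56ld_liesOver ℓ)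
  rel := fun ℓ hℓ M _ f hfin hpg => by
    haveI : Fact (ℓ : ℕ).Prime := ⟨ℓ.2⟩
    obtain ⟨L, hL, hLf⟩ := twc_tg_finiteLevel_conv f hfin
    haveI := hL
    exact twc_tg_conj (ℓ : ℕ) (primeLocalPlace ℓ) (s56ld_liesOver ℓ) hp.out (hTh ℓ hℓ).2 f L hLf hpg
  gen := fun ℓ hℓ M _ f hfin hpg τ hτ => by
    haveI : Fact (ℓ : ℕ).Prime := ⟨ℓ.2⟩
    obtain ⟨L, hL, hLf⟩ := twc_tg_finiteLevel_conv f hfin
    haveI := hL
    obtain ⟨n, m, h⟩ := twc_tg_decomp_gen (ℓ : ℕ) (primeLocalPlace ℓ) (s56ld_liesOver ℓ) hp.out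
      (hTh ℓ hℓ).2 f L hLf hpg hτ
    rw [h, map_mul, map_pow]
    refine mul_mem (twc_tg_zpow_mem f _ _ ?_ ?_ n) (pow_mem ?_ m)
    · exact Submonoid.subset_closure (by simp [twc_tg_gphi])
    · exact Submonoid.subset_closure (by simp [twc_tg_gphi])
    · exact Submonoid.subset_closure (by simp [twc_tg_gsigma])
  σ_cyclo := fun ℓ hℓ hF u => by
    intro heq
    have hq : (ℓ : ℕ).Prime := ℓ.2
    have hgen : ∀ v : (ZMod (ℓ : ℕ))ˣ,
        v ∈ Subgroup.zpowers (dspk_cyc (ℓ : ℕ) (twc_tg_gsigma ℓ)) :=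
      twc_tg_sigma_gen (ℓ : ℕ) (primeLocalPlace ℓ) (s56ld_liesOver ℓ)
    have hc : dspk_cyc (ℓ : ℕ) (twc_tg_gsigma ℓ) = u ^ p := by
      rw [← twc_tg_cycloChar_eq]; exact heq
    have hord : orderOf (dspk_cyc (ℓ : ℕ) (twc_tg_gsigma ℓ)) = (ℓ : ℕ) - 1 := by
      rw [orderOf_eq_card_of_forall_mem_zpowers hgen, Nat.card_eq_fintype_card,
        ZMod.card_units_eq_totient, Nat.totient_prime hq]
    obtain ⟨e, he⟩ := (hTh ℓ hℓ).2
    have h2 := hq.two_le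
    have he0 : 0 < e := by
      rcases Nat.eq_zero_or_pos e with h | h
      · rw [h, mul_zero] at he; omega
      · exact h
    have hlt : e < orderOf (dspk_cyc (ℓ : ℕ) (twc_tg_gsigma ℓ)) := by
      rw [hord, he]
      calc e = 1 * e := (one_mul e).symm
        _ < p * e := Nat.mul_lt_mul_of_pos_right hp.out.one_lt he0
    apply pow_ne_one_of_lt_orderOf he0.ne' hlt
    rw [hc, ← pow_mul, ← he]
    exact ZMod.units_pow_card_sub_one_eq_one (ℓ : ℕ) u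

theorem twib_td_gσ (p : ℕ) [Fact p.Prime] (Th : Finset Nat.Primes)
    (hTh : ∀ ℓ ∈ Th, (ℓ : ℕ) ≠ p ∧ p ∣ (ℓ : ℕ) - 1) (ℓ : Nat.Primes) :
    (twib_td p Th hTh).gσ ℓ = twc_tg_gsigma ℓ := rfl

theorem twib_td_gφ (p : ℕ) [Fact p.Prime] (Th : Finset Nat.Primes)
    (hTh : ∀ ℓ ∈ Th, (ℓ : ℕ) ≠ p ∧ p ∣ (ℓ : ℕ) - 1) (ℓ : Nat.Primes) :
    (twib_td p Th hTh).gφ ℓ = twc_tg_gphi ℓ := rfl

/-- the datum of `twc_tg_main` has inertia generation. -/
theorem twib_td_inertiaGen (p : ℕ) [hp : Fact p.Prime] (Th : Finset Nat.Primes)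
    (hTh : ∀ ℓ ∈ Th, (ℓ : ℕ) ≠ p ∧ p ∣ (ℓ : ℕ) - 1) : twib_InertiaGen (twib_td p Th hTh) := by
  intro ℓ hℓ M _ f hfin hpg τ hτ
  haveI : Fact (ℓ : ℕ).Prime := ⟨ℓ.2⟩
  obtain ⟨L, hL, hLf⟩ := twc_tg_finiteLevel_conv f hfin
  haveI := hL
  exact twc_tg_inertia_gen (ℓ : ℕ) (primeLocalPlace ℓ) (s56ld_liesOver ℓ) hp.out (hTh ℓ hℓ).2 f L hLf
    hpg hτ

/-- for the datum of `twc_tg_main`, the Frobenius `gφ ℓ` fixes the `ℓ`-th roots of unity. -/
theorem twib_td_phi_cyc (p : ℕ) [Fact p.Prime] (Th : Finset Nat.Primes)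
    (hTh : ∀ ℓ ∈ Th, (ℓ : ℕ) ≠ p ∧ p ∣ (ℓ : ℕ) - 1) (ℓ : Nat.Primes) :
    haveI : Fact (ℓ : ℕ).Prime := ⟨ℓ.2⟩
    cycloChar (ℓ : ℕ) ((twib_td p Th hTh).gφ ℓ) = 1 :=
  twc_tg_gphi_cyc ℓ

/-- **the strengthened C/TameGen**: a tame datum with inertia generation. -/
theorem twib_tameData (p : ℕ) [Fact p.Prime] (Th : Finset Nat.Primes)
    (hTh : ∀ ℓ ∈ Th, (ℓ : ℕ) ≠ p ∧ p ∣ (ℓ : ℕ) - 1) :
    ∃ td : twc_TameData p Th, twib_InertiaGen td ∧
      ∀ (ℓ : Nat.Primes) (_ : Fact (ℓ : ℕ).Prime), cycloChar (ℓ : ℕ) (td.gφ ℓ) = 1 :=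
  ⟨twib_td p Th hTh, twib_td_inertiaGen p Th hTh, fun ℓ _ => twc_tg_gphi_cyc ℓ⟩

/-! ### Small endomorphisms -/

section small

variable {T : Type*} [CommRing T] {V : Type*} [AddCommGroup V] [Module T V]

/-- the product of an `I`-small and a `J`-small endomorphism is `I * J`-small. -/
theorem twib_small_mul {I J : Ideal T} {f g : Module.End T V} (hf : gcl_Small I f)
    (hg : gcl_Small J g) : gcl_Small (I * J) (f * g) := by
  intro v
  rw [Module.End.mul_apply]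
  have h := hg v
  refine Submodule.smul_induction_on h (fun r hr n _ => ?_) (fun x y hx hy => ?_)
  · rw [map_smul]
    have h1 := hf n
    have h2 : r • f n ∈ J • (I • (⊤ : Submodule T V)) := Submodule.smul_mem_smul hr h1
    rw [← mul_smul, mul_comm] at h2
    exact h2
  · rw [map_add]
    exact Submodule.add_mem _ hx hy

/-- a scalar of `J` times an `I`-small endomorphism is `J * I`-small. -/
theorem twib_small_smul {I J : Ideal T} {c : T} (hc : c ∈ J) {f : Module.End T V}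
    (hf : gcl_Small I f) : gcl_Small (J * I) (c • f) := by
  intro v
  rw [LinearMap.smul_apply, mul_smul]
  exact Submodule.smul_mem_smul hc (hf v)

/-- `a ≡ 1 mod I` ⟹ `a ^ k ≡ 1 mod I`. -/
theorem twib_small_pow_sub_one {I : Ideal T} {a : Module.End T V} (ha : gcl_Small I (a - 1))
    (k : ℕ) : gcl_Small I (a ^ k - 1) := by
  induction k with
  | zero => rw [pow_zero, sub_self]; exact gcl_Small.zero
  | succ k ih =>
    have h : a ^ (k + 1) - 1 = a ^ k * (a - 1) + (a ^ k - 1) := by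
      rw [pow_succ, mul_sub, mul_one]; abel
    rw [h]
    exact (ha.mul_left _).add ih

/-- `a ≡ 1 mod I`, `(p : T) ∈ J`, `I ≤ J` ⟹ `a ^ p ≡ 1 mod J * I`. -/
theorem twib_small_pow_p {I J : Ideal T} (hIJ : I ≤ J) {p : ℕ} (hp : (p : T) ∈ J)
    {a : Module.End T V} (ha : gcl_Small I (a - 1)) : gcl_Small (J * I) (a ^ p - 1) := by
  -- `a ^ p - 1 = (∑_{i<p} a^i) (a - 1)`, and `∑_{i<p} a^i ≡ p mod I`
  have h1 : a ^ p - 1 = (∑ i ∈ Finset.range p, a ^ i) * (a - 1) := (geom_sum_mul a p).symm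
  have h2 : gcl_Small I ((∑ i ∈ Finset.range p, a ^ i) - (p : T) • (1 : Module.End T V)) := by
    have : (∑ i ∈ Finset.range p, a ^ i) - (p : T) • (1 : Module.End T V) =
        ∑ i ∈ Finset.range p, (a ^ i - 1) := by
      rw [Finset.sum_sub_distrib, Finset.sum_const, Finset.card_range, Nat.cast_smul_eq_nsmul]
    rw [this]
    intro v
    rw [LinearMap.sum_apply]
    exact Submodule.sum_mem _ fun i _ => twib_small_pow_sub_one ha i v
  have h3 : a ^ p - 1 = ((∑ i ∈ Finset.range p, a ^ i) - (p : T) • (1 : Module.End T V)) * (a - 1) +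
      (p : T) • (a - 1) := by
    rw [h1, sub_mul, smul_mul_assoc, one_mul]; abel
  rw [h3]
  refine gcl_Small.add ?_ (twib_small_smul hp ha)
  exact (twib_small_mul h2 ha).mono (Ideal.mul_mono_left hIJ)

/-- `a ≡ 1 mod J`, `(p : T) ∈ J` ⟹ `a ^ (p ^ k) ≡ 1 mod J ^ (k + 1)`. -/
theorem twib_small_pow_p_pow {J : Ideal T} {p : ℕ} (hp : (p : T) ∈ J)
    {a : Module.End T V} (ha : gcl_Small J (a - 1)) (k : ℕ) :
    gcl_Small (J ^ (k + 1)) (a ^ (p ^ k) - 1) := by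
  induction k with
  | zero => simpa using ha
  | succ k ih =>
    have h := twib_small_pow_p (I := J ^ (k + 1)) (J := J) (Ideal.pow_le_self (by omega)) hp ih
    rw [← pow_mul, ← pow_succ, ← pow_succ'] at h
    exact h

/-- reduction of endomorphisms modulo `I`. -/
def twib_redEnd (I : Ideal T) :
    Module.End T V →* Module.End T (V ⧸ (I • ⊤ : Submodule T V)) where
  toFun a := (I • ⊤ : Submodule T V).mapQ (I • ⊤ : Submodule T V) a
    (fun v hv => gcl_map_mem a hv)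
  map_one' := by
    ext v
    simp
  map_mul' a b := by
    ext v
    simp

theorem twib_redEnd_mk (I : Ideal T) (a : Module.End T V) (v : V) :
    twib_redEnd I a (Submodule.Quotient.mk v) = Submodule.Quotient.mk (a v) := rfl

theorem twib_redEnd_eq_iff (I : Ideal T) (a b : Module.End T V) :
    twib_redEnd I a = twib_redEnd I b ↔ gcl_Small I (a - b) := by
  constructor
  · intro h v
    have h1 := LinearMap.congr_fun h (Submodule.Quotient.mk v)
    rw [twib_redEnd_mk, twib_redEnd_mk, Submodule.Quotient.eq] at h1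
    rwa [LinearMap.sub_apply]
  · intro h
    apply LinearMap.ext
    intro x
    obtain ⟨v, rfl⟩ := Submodule.Quotient.mk_surjective _ x
    rw [twib_redEnd_mk, twib_redEnd_mk, Submodule.Quotient.eq]
    have := h v
    rwa [LinearMap.sub_apply] at this

/-- Krull: an element of a finite module over a noetherian local ring which lies in
`𝔓 V + 𝔪 ^ n V` for all `n` lies in `𝔓 V`. -/
theorem twib_krull [IsLocalRing T] [IsNoetherianRing T] [Module.Finite T V] (P : Ideal T) (x : V)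
    (h : ∀ n : ℕ, x ∈ (P • ⊤ : Submodule T V) ⊔ (maximalIdeal T ^ n) • (⊤ : Submodule T V)) :
    x ∈ (P • ⊤ : Submodule T V) := by
  have hK := Ideal.iInf_pow_smul_eq_bot_of_isLocalRing (R := T)
    (M := V ⧸ (P • ⊤ : Submodule T V)) (maximalIdeal T) Ideal.IsPrime.ne_top'
  have hx : (Submodule.Quotient.mk x : V ⧸ (P • ⊤ : Submodule T V)) ∈
      (⨅ i : ℕ, maximalIdeal T ^ i • ⊤ : Submodule T (V ⧸ (P • ⊤ : Submodule T V))) := by
    rw [Submodule.mem_iInf]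
    intro n
    obtain ⟨y, hy, z, hz, rfl⟩ := Submodule.mem_sup.1 (h n)
    have h1 : (Submodule.Quotient.mk (y + z) : V ⧸ (P • ⊤ : Submodule T V)) =
        Submodule.Quotient.mk z := by
      rw [Submodule.Quotient.mk_add, (Submodule.Quotient.mk_eq_zero _).2 hy, zero_add]
    rw [h1]
    have h2 : (Submodule.Quotient.mk z : V ⧸ (P • ⊤ : Submodule T V)) ∈
        Submodule.map (P • ⊤ : Submodule T V).mkQ ((maximalIdeal T ^ n) • (⊤ : Submodule T V)) :=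
      ⟨z, hz, rfl⟩
    rw [Submodule.map_smul'', Submodule.map_top, Submodule.range_mkQ] at h2
    exact h2
  rw [hK] at hx
  exact (Submodule.Quotient.mk_eq_zero _).1 ((Submodule.mem_bot T).1 hx)

end small

/-! ### Approximation by powers of the tame generator -/

section approx

variable {T : Type} [CommRing T] [IsLocalRing T]

/-- the reduction of `ρ` modulo `I`. -/
def twib_red (ρ : GaloisRepAdic T) (I : Ideal T) :
    GQ →* Module.End T (ρ.V ⧸ (I • ⊤ : Submodule T ρ.V)) :=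
  (twib_redEnd I).comp ρ.ρ

/-- **approximation**: modulo `𝔪 ^ n`, every `ρ τ`, `τ ∈ I_ℓ`, is a power of `ρ(σ_ℓ)`. -/
theorem twib_approx {p : ℕ} {Th : Finset Nat.Primes} (td : twc_TameData p Th)
    (hgen : twib_InertiaGen td) {ℓ : Nat.Primes} (hℓ : ℓ ∈ Th) (ρ : GaloisRepAdic T)
    (hp : (p : T) ∈ maximalIdeal T)
    (hres : ∀ τ ∈ (primeLocalPlace ℓ).inertiaSubgroupIn ℚ,
      gcl_Small (maximalIdeal T) (ρ.ρ τ - 1))
    (n : ℕ) {τ : GQ} (hτ : τ ∈ (primeLocalPlace ℓ).inertiaSubgroupIn ℚ) :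
    ∃ m : ℕ, gcl_Small (maximalIdeal T ^ n) (ρ.ρ τ - ρ.ρ (td.gσ ℓ) ^ m) := by
  obtain ⟨L, hL, hLρ⟩ := ρ.isAdicContinuous n
  have hfin : ∃ L : IntermediateField ℚ Qbar, FiniteDimensional ℚ L ∧
      ∀ s : GQ, (∀ x ∈ L, s x = x) → twib_red ρ (maximalIdeal T ^ n) s = 1 := by
    refine ⟨L, hL, fun s hs => ?_⟩
    rw [twib_red, MonoidHom.comp_apply, ← map_one (twib_redEnd (maximalIdeal T ^ n)),
      twib_redEnd_eq_iff]
    intro v
    simpa using hLρ s hs v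
  have hpg : ∀ τ ∈ (primeLocalPlace ℓ).inertiaSubgroupIn ℚ,
      ∃ k : ℕ, twib_red ρ (maximalIdeal T ^ n) τ ^ p ^ k = 1 := by
    intro τ hτ
    refine ⟨n, ?_⟩
    rw [twib_red, MonoidHom.comp_apply, ← map_pow,
      ← map_one (twib_redEnd (maximalIdeal T ^ n)), twib_redEnd_eq_iff]
    exact (twib_small_pow_p_pow hp (hres τ hτ) n).mono (Ideal.pow_le_pow_right (by omega))
  obtain ⟨m, hm⟩ := hgen ℓ hℓ _ (twib_red ρ (maximalIdeal T ^ n)) hfin hpg τ hτ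
  refine ⟨m, ?_⟩
  rw [twib_red, MonoidHom.comp_apply, MonoidHom.comp_apply, ← map_pow, twib_redEnd_eq_iff] at hm
  exact hm

/-- **the bridge, at the place `primeLocalPlace ℓ`**: for ANY ideal `𝔓`, `ρ(σ_ℓ) ≡ 1 mod 𝔓` implies
`ρ τ ≡ 1 mod 𝔓` for every `τ ∈ I_ℓ`. -/
theorem twib_small_of_gen [IsNoetherianRing T] {p : ℕ} {Th : Finset Nat.Primes}
    (td : twc_TameData p Th)
    (hgen : twib_InertiaGen td) {ℓ : Nat.Primes} (hℓ : ℓ ∈ Th) (ρ : GaloisRepAdic T)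
    (hp : (p : T) ∈ maximalIdeal T)
    (hres : ∀ τ ∈ (primeLocalPlace ℓ).inertiaSubgroupIn ℚ,
      gcl_Small (maximalIdeal T) (ρ.ρ τ - 1))
    (P : Ideal T) (hσ : gcl_Small P (ρ.ρ (td.gσ ℓ) - 1))
    {τ : GQ} (hτ : τ ∈ (primeLocalPlace ℓ).inertiaSubgroupIn ℚ) :
    gcl_Small P (ρ.ρ τ - 1) := by
  intro v
  apply twib_krull P
  intro n
  obtain ⟨m, hm⟩ := twib_approx td hgen hℓ ρ hp hres n hτ
  have h1 : (ρ.ρ τ - 1) v = (ρ.ρ (td.gσ ℓ) ^ m - 1) v + (ρ.ρ τ - ρ.ρ (td.gσ ℓ) ^ m) v := by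
    simp only [LinearMap.sub_apply]; abel
  rw [h1]
  exact Submodule.add_mem_sup (twib_small_pow_sub_one hσ m v) (hm v)

/-- a residual representation which is unramified at `ℓ` makes `ρ ≡ 1 mod 𝔪` on the inertia
groups above `ℓ`. -/
theorem twib_hres_of_residual (ρ : GaloisRepAdic T) {q : ℕ} (h : ρ.residual.IsUnramifiedAt q)
    (A : ValuationSubring Qbar) (hA : A.LiesOverPrime q) {τ : GQ}
    (hτ : τ ∈ A.inertiaSubgroupIn ℚ) : gcl_Small (maximalIdeal T) (ρ.ρ τ - 1) := by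
  intro v
  have h1 : ρ.residual.ρ τ = 1 := h A hA τ hτ
  have h2 : (ρ.ρ τ).baseChange (ResidueField T) = 1 := h1
  have h3 : (1 : ResidueField T) ⊗ₜ[T] ((ρ.ρ τ - 1) v) = 0 := by
    have := LinearMap.congr_fun h2 ((1 : ResidueField T) ⊗ₜ[T] v)
    rw [LinearMap.baseChange_tmul, Module.End.one_apply] at this
    rw [LinearMap.sub_apply, Module.End.one_apply, TensorProduct.tmul_sub, this, sub_self]
  have h4 := Fermat.Agent.FF.ffc_ker_one_tmul (B := T) (Bbar := ResidueField T)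
    (C := ρ.V) IsLocalRing.residue_surjective h3
  have h5 : RingHom.ker (algebraMap T (ResidueField T)) = maximalIdeal T :=
    IsLocalRing.ker_residue
  rwa [h5] at h4

/-- conjugating back: `σ ∈ I_{τ • A}` ⟹ `τ⁻¹ σ τ ∈ I_A`. -/
theorem twib_mem_inertia_smul (A : ValuationSubring Qbar) (τ σ : GQ)
    (h : σ ∈ (τ • A).inertiaSubgroupIn ℚ) : τ⁻¹ * σ * τ ∈ A.inertiaSubgroupIn ℚ := by
  have h1 := tl_inertia_conj (τ • A) τ⁻¹ σ h
  rwa [inv_smul_smul, inv_inv] at h1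

/-- **the bridge**, with the residual hypothesis in the form `ρ ≡ 1 mod 𝔪` on `I_ℓ`: for ANY ideal
`𝔓`, if `ρ(σ_ℓ) ≡ 1 mod 𝔓` then every inertia group above `ℓ` acts trivially modulo `𝔓`. -/
theorem twib_out_hI' [IsNoetherianRing T] {p : ℕ} {Th : Finset Nat.Primes}
    (td : twc_TameData p Th)
    (hgen : twib_InertiaGen td) {ℓ : Nat.Primes} (hℓ : ℓ ∈ Th) (ρ : GaloisRepAdic T)
    (hp : (p : T) ∈ maximalIdeal T)
    (hres : ∀ τ ∈ (primeLocalPlace ℓ).inertiaSubgroupIn ℚ,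
      gcl_Small (maximalIdeal T) (ρ.ρ τ - 1))
    (P : Ideal T) (hσ : ∀ v : ρ.V, ρ.ρ (td.gσ ℓ) v - v ∈ P • (⊤ : Submodule T ρ.V)) :
    ∀ A : ValuationSubring Qbar, A.LiesOverPrime (ℓ : ℕ) → ∀ σ ∈ A.inertiaSubgroupIn ℚ,
      ∀ v : ρ.V, ρ.ρ σ v - v ∈ P • (⊤ : Submodule T ρ.V) := by
  intro A hA σ hσA v
  obtain ⟨τ, rfl⟩ := pl_exists_smul_eq ℓ.2 (s56ld_liesOver ℓ) hA
  have h1 := twib_mem_inertia_smul _ τ σ hσA
  have h2 : gcl_Small P (ρ.ρ (τ⁻¹ * σ * τ) - 1) :=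
    twib_small_of_gen td hgen hℓ ρ hp hres P (fun v => by simpa using hσ v) h1
  have h3 : ρ.ρ σ - 1 = ρ.ρ τ * (ρ.ρ (τ⁻¹ * σ * τ) - 1) * ρ.ρ τ⁻¹ := by
    rw [mul_sub, sub_mul, mul_one, ← map_mul, ← map_mul, ← map_mul, ← map_one ρ.ρ]
    congr 2 <;> group
  have h4 := (h2.mul_left (ρ.ρ τ)).mul_right (ρ.ρ τ⁻¹) v
  rw [← h3] at h4
  simpa using h4

/-- **the bridge = hypothesis `hI` of `twt_out`**: for ANY ideal `𝔓`, if `ρ(σ_ℓ) ≡ 1 mod 𝔓` then
every inertia group above `ℓ` acts trivially modulo `𝔓`. -/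
theorem twib_out_hI [IsNoetherianRing T] {p : ℕ} {Th : Finset Nat.Primes}
    (td : twc_TameData p Th)
    (hgen : twib_InertiaGen td) {ℓ : Nat.Primes} (hℓ : ℓ ∈ Th) (ρ : GaloisRepAdic T)
    (hp : (p : T) ∈ maximalIdeal T) (hres : ρ.residual.IsUnramifiedAt (ℓ : ℕ))
    (P : Ideal T) (hσ : ∀ v : ρ.V, ρ.ρ (td.gσ ℓ) v - v ∈ P • (⊤ : Submodule T ρ.V)) :
    ∀ A : ValuationSubring Qbar, A.LiesOverPrime (ℓ : ℕ) → ∀ σ ∈ A.inertiaSubgroupIn ℚ,
      ∀ v : ρ.V, ρ.ρ σ v - v ∈ P • (⊤ : Submodule T ρ.V) :=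
  twib_out_hI' td hgen hℓ ρ hp
    (fun s hs => twib_hres_of_residual ρ hres _ (s56ld_liesOver ℓ) hs) P hσ

/-- `charpoly f = (X - 1)²` in rank two gives trace `2` and determinant `1`. -/
theorem twib_trace_det_of_charpoly {R : Type*} [CommRing R] [Nontrivial R] {V : Type*}
    [AddCommGroup V] [Module R V] [Module.Free R V] [Module.Finite R V]
    (hrk : Module.finrank R V = 2) (f : Module.End R V)
    (hchar : LinearMap.charpoly f = (X - 1 : R[X]) ^ 2) :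
    LinearMap.trace R V f = 2 ∧ LinearMap.det f = 1 := by
  rw [sst_charpoly_rank_two hrk] at hchar
  have e2 : ((X - 1) ^ 2 : R[X]) = X ^ 2 - C (2 : R) * X + C (1 : R) := by
    simp only [map_ofNat, map_one]; ring
  rw [e2] at hchar
  have c1 := congrArg (fun q : R[X] => q.coeff 1) hchar
  have c0 := congrArg (fun q : R[X] => q.coeff 0) hchar
  simp only [coeff_add, coeff_sub, coeff_X_pow, coeff_C_mul, coeff_C, coeff_X] at c0 c1
  constructor
  · simpa using c1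
  · simpa using c0

/-- trace and determinant of `ρ τ`, `τ ∈ I_ℓ`, when `ρ(σ_ℓ)` has trace `2` and determinant `1`. -/
theorem twib_trace_det_of_gen [IsNoetherianRing T] {p : ℕ} {Th : Finset Nat.Primes}
    (td : twc_TameData p Th)
    (hgen : twib_InertiaGen td) {ℓ : Nat.Primes} (hℓ : ℓ ∈ Th) (ρ : GaloisRepAdic T)
    (hp : (p : T) ∈ maximalIdeal T)
    (hres : ∀ τ ∈ (primeLocalPlace ℓ).inertiaSubgroupIn ℚ,
      gcl_Small (maximalIdeal T) (ρ.ρ τ - 1))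
    (htr : LinearMap.trace T ρ.V (ρ.ρ (td.gσ ℓ)) = 2)
    (hdet : LinearMap.det (ρ.ρ (td.gσ ℓ)) = 1)
    {τ : GQ} (hτ : τ ∈ (primeLocalPlace ℓ).inertiaSubgroupIn ℚ) :
    LinearMap.trace T ρ.V (ρ.ρ τ) = 2 ∧ LinearMap.det (ρ.ρ τ) = 1 := by
  have hK : ∀ x : T, (∀ n : ℕ, x ∈ maximalIdeal T ^ n) → x = 0 := by
    intro x hx
    have h := Ideal.iInf_pow_eq_bot_of_isLocalRing (maximalIdeal T) Ideal.IsPrime.ne_top'
    have hx' : x ∈ ⨅ i : ℕ, maximalIdeal T ^ i := by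
      rw [Ideal.mem_iInf]; exact hx
    rw [h] at hx'
    exact hx'
  set s := td.gσ ℓ with hs
  have hpow : ∀ m : ℕ, LinearMap.trace T ρ.V (ρ.ρ s ^ m) = 2 ∧ LinearMap.det (ρ.ρ s ^ m) = 1 := by
    intro m
    have h1 := twlg_tr_trace_det_pow_eq ρ.finrank_eq ρ.finrank_eq (ρ.ρ s) (1 : Module.End T ρ.V)
      (by rw [htr, LinearMap.trace_one, ρ.finrank_eq]; norm_num)
      (by rw [hdet, map_one]) m
    rw [one_pow, LinearMap.trace_one, ρ.finrank_eq, map_one] at h1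
    refine ⟨?_, h1.2⟩
    rw [h1.1]; norm_num
  constructor
  · rw [← sub_eq_zero]
    apply hK
    intro n
    obtain ⟨m, hm⟩ := twib_approx td hgen hℓ ρ hp hres n hτ
    have h1 := twlg_tr_trace_mem _ _ hm
    rwa [map_sub, (hpow m).1] at h1
  · rw [← sub_eq_zero]
    apply hK
    intro n
    obtain ⟨m, hm⟩ := twib_approx td hgen hℓ ρ hp hres n hτ
    -- `ρ (s⁻¹ ^ m * τ) - 1 = ρ (s⁻¹ ^ m) (ρ τ - ρ s ^ m)`
    have h1 : ρ.ρ (s⁻¹ ^ m * τ) - 1 = ρ.ρ (s⁻¹ ^ m) * (ρ.ρ τ - ρ.ρ s ^ m) := by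
      rw [mul_sub, ← map_pow, ← map_mul, ← map_mul, ← map_one ρ.ρ]
      congr 2
      rw [inv_pow, inv_mul_cancel]
    have h2 : gcl_Small (maximalIdeal T ^ n) (ρ.ρ (s⁻¹ ^ m * τ) - 1) := by
      rw [h1]; exact hm.mul_left _
    have h3 := sst_det_sub_one_mem _ _ h2
    have h4 : LinearMap.det (ρ.ρ τ) = LinearMap.det (ρ.ρ s ^ m) * LinearMap.det (ρ.ρ (s⁻¹ ^ m * τ)) := by
      rw [← map_mul, ← map_pow, ← map_mul]
      congr 2
      rw [inv_pow, mul_inv_cancel_left]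
    rw [h4, (hpow m).2, one_mul]
    exact h3

/-- **A4-hard**, with the residual hypothesis in the form `ρ ≡ 1 mod 𝔪` on `I_ℓ`: if `ρ(σ_ℓ)` is
unipotent then `ρ` is unipotent on every inertia group above `ℓ`. -/
theorem twib_unip_of_gen' [IsNoetherianRing T] {p : ℕ} {Th : Finset Nat.Primes}
    (td : twc_TameData p Th)
    (hgen : twib_InertiaGen td) {ℓ : Nat.Primes} (hℓ : ℓ ∈ Th) (ρ : GaloisRepAdic T)
    (hp : (p : T) ∈ maximalIdeal T)
    (hres : ∀ τ ∈ (primeLocalPlace ℓ).inertiaSubgroupIn ℚ,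
      gcl_Small (maximalIdeal T) (ρ.ρ τ - 1))
    (hσ : LinearMap.charpoly (ρ.ρ (td.gσ ℓ)) = (X - 1) ^ 2) :
    ρ.IsUnipotentOnInertiaAt (ℓ : ℕ) := by
  intro A hA σ hσA
  obtain ⟨τ, rfl⟩ := pl_exists_smul_eq ℓ.2 (s56ld_liesOver ℓ) hA
  have h1 := twib_mem_inertia_smul _ τ σ hσA
  have h0 := twib_trace_det_of_charpoly ρ.finrank_eq _ hσ
  obtain ⟨h2, h3⟩ := twib_trace_det_of_gen td hgen hℓ ρ hp hres h0.1 h0.2 h1
  have h4 : ρ.ρ σ = ρ.ρ τ * (ρ.ρ (τ⁻¹ * σ * τ) * ρ.ρ τ⁻¹) := by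
    rw [← map_mul, ← map_mul]
    congr 1
    group
  have h5 : LinearMap.trace T ρ.V (ρ.ρ σ) = 2 := by
    rw [h4, LinearMap.trace_mul_comm, mul_assoc, ← map_mul, inv_mul_cancel, map_one, mul_one, h2]
  have h6 : LinearMap.det (ρ.ρ σ) = 1 := by
    rw [h4, map_mul, map_mul, h3, one_mul, ← map_mul, ← map_mul, mul_inv_cancel, map_one, map_one]
  rw [sst_charpoly_rank_two ρ.finrank_eq, h5, h6]
  simp only [map_ofNat, map_one]
  ring

/-- **A4-hard**: if `ρ(σ_ℓ)` is unipotent then `ρ` is unipotent on every inertia group above `ℓ`. -/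
theorem twib_unip_of_gen [IsNoetherianRing T] {p : ℕ} {Th : Finset Nat.Primes}
    (td : twc_TameData p Th)
    (hgen : twib_InertiaGen td) {ℓ : Nat.Primes} (hℓ : ℓ ∈ Th) (ρ : GaloisRepAdic T)
    (hp : (p : T) ∈ maximalIdeal T) (hres : ρ.residual.IsUnramifiedAt (ℓ : ℕ))
    (hσ : LinearMap.charpoly (ρ.ρ (td.gσ ℓ)) = (X - 1) ^ 2) :
    ρ.IsUnipotentOnInertiaAt (ℓ : ℕ) :=
  twib_unip_of_gen' td hgen hℓ ρ hp
    (fun s hs => twib_hres_of_residual ρ hres _ (s56ld_liesOver ℓ) hs) hσ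

/-- the contrapositive consumed by A4: a representation which is NOT unipotent on inertia at `ℓ` has
`charpoly ρ(σ_ℓ) ≠ (X - 1)²`. -/
theorem twib_gen_not_unip [IsNoetherianRing T] {p : ℕ} {Th : Finset Nat.Primes}
    (td : twc_TameData p Th)
    (hgen : twib_InertiaGen td) {ℓ : Nat.Primes} (hℓ : ℓ ∈ Th) (ρ : GaloisRepAdic T)
    (hp : (p : T) ∈ maximalIdeal T) (hres : ρ.residual.IsUnramifiedAt (ℓ : ℕ))
    (h : ¬ ρ.IsUnipotentOnInertiaAt (ℓ : ℕ)) :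
    LinearMap.charpoly (ρ.ρ (td.gσ ℓ)) ≠ (X - 1) ^ 2 :=
  fun hσ => h (twib_unip_of_gen td hgen hℓ ρ hp hres hσ)

end approx

/-! ### The framed form -/

section framed

variable {T : Type} [CommRing T] [IsLocalRing T]

/-- entries of `r σ - 1` in `P` ⟺ `r σ ≡ 1 mod P` as an endomorphism of `Fin 2 → T`. -/
theorem twib_framed_small_iff (r : FramedRep T) (P : Ideal T) (σ : GQ) :
    gcl_Small P (r.toGaloisRepAdic.ρ σ - 1) ↔ ∀ i j : Fin 2, (r σ - 1) i j ∈ P := by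
  have key : ∀ v : r.toGaloisRepAdic.V, (r.toGaloisRepAdic.ρ σ - 1) v =
      ((r σ - 1).mulVec (show Fin 2 → T from v) : Fin 2 → T) := by
    intro v
    rw [LinearMap.sub_apply, Module.End.one_apply, Matrix.sub_mulVec, Matrix.one_mulVec]
    rfl
  constructor
  · intro h i j
    have h1 := h (show r.toGaloisRepAdic.V from (Pi.single j 1 : Fin 2 → T))
    rw [key] at h1
    have h2 := repr_mem_of_mem_smul_top (Pi.basisFun T (Fin 2)) P h1 i
    simpa using h2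
  · intro h v
    rw [key]
    apply pi_mem_smul_top
    intro i
    simp only [Matrix.mulVec, dotProduct]
    exact Ideal.sum_mem _ fun j _ => Ideal.mul_mem_right _ _ (h i j)

/-- **the bridge, framed form**: if the entries of `r(σ_ℓ) - 1` lie in `𝔓` then so do the entries of
`r σ - 1` for every `σ` in every inertia group above `ℓ`. -/
theorem twib_framed [IsNoetherianRing T] {p : ℕ} {Th : Finset Nat.Primes}
    (td : twc_TameData p Th)
    (hgen : twib_InertiaGen td) {ℓ : Nat.Primes} (hℓ : ℓ ∈ Th) (r : FramedRep T)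
    (hp : (p : T) ∈ maximalIdeal T)
    (hres : ∀ τ ∈ (primeLocalPlace ℓ).inertiaSubgroupIn ℚ, ∀ i j : Fin 2,
      (r τ - 1) i j ∈ maximalIdeal T)
    (P : Ideal T) (hσ : ∀ i j : Fin 2, (r (td.gσ ℓ) - 1) i j ∈ P) :
    ∀ A : ValuationSubring Qbar, A.LiesOverPrime (ℓ : ℕ) → ∀ σ ∈ A.inertiaSubgroupIn ℚ,
      ∀ i j : Fin 2, (r σ - 1) i j ∈ P := by
  intro A hA σ hσA
  rw [← twib_framed_small_iff]
  intro v
  have := twib_out_hI' td hgen hℓ r.toGaloisRepAdic hp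
    (fun τ hτ => (twib_framed_small_iff r _ τ).2 (hres τ hτ)) P
    (fun v => by simpa using (twib_framed_small_iff r P (td.gσ ℓ)).2 hσ v) A hA σ hσA v
  simpa using this

end framed

end Fermat.Agent.TW
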