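/-
ONE MACHINE / block [D] PATCH, leaf D/DimIrred (helper14).  Prefix `twd_`.

In a ring whose nilradical is prime (irreducible spectrum), a quotient by an ideal which is not
nilpotent drops the Krull dimension: every chain of primes above `K` is prolonged by the
nilradical.
-/
import Mathlib

set_option autoImplicit false

namespace Fermat.Agent.TW

/-- **D/DimIrred.** -/
theorem twd_dim_quot_add_one_le {R : Type*} [CommRing R] (hirr : (nilradical R).IsPrime)
    (K : Ideal R) (hK : ¬ K ≤ nilradical R) :
    ringKrullDim (R ⧸ K) + 1 ≤ ringKrullDim R := by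
  rcases isEmpty_or_nonempty (PrimeSpectrum (R ⧸ K)) with hE | hN
  · have : ringKrullDim (R ⧸ K) = ⊥ := by
      unfold ringKrullDim
      exact Order.krullDim_eq_bot
    rw [this, WithBot.bot_add]
    exact bot_le
  · unfold ringKrullDim
    rw [← Order.krullDim_withBot]
    let g : WithBot (PrimeSpectrum (R ⧸ K)) → PrimeSpectrum R := fun x =>
      WithBot.recBotCoe ⟨nilradical R, hirr⟩
        (fun P => PrimeSpectrum.comap (Ideal.Quotient.mk K) P) x
    refine Order.krullDim_le_of_strictMono g ?_
    rw [WithBot.strictMono_iff]
    constructor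
    · intro P Q hPQ
      change PrimeSpectrum.comap (Ideal.Quotient.mk K) P < PrimeSpectrum.comap (Ideal.Quotient.mk K) Q
      refine lt_of_le_of_ne ?_ ?_
      · exact Ideal.comap_mono (f := Ideal.Quotient.mk K) (le_of_lt hPQ)
      · intro h
        exact (ne_of_lt hPQ)
          (PrimeSpectrum.comap_injective_of_surjective _ Ideal.Quotient.mk_surjective h)
    · intro P
      change (⟨nilradical R, hirr⟩ : PrimeSpectrum R) < PrimeSpectrum.comap (Ideal.Quotient.mk K) P
      refine lt_of_le_of_ne ?_ ?_
      · exact nilradical_le_prime _
      · intro h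
        apply hK
        intro x hx
        have h1 : x ∈ (PrimeSpectrum.comap (Ideal.Quotient.mk K) P).asIdeal := by
          change Ideal.Quotient.mk K x ∈ P.asIdeal
          rw [Ideal.Quotient.eq_zero_iff_mem.2 hx]
          exact Ideal.zero_mem _
        rw [← h] at h1
        exact h1

end Fermat.Agent.TW
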