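/-
ONE MACHINE / block [D] PATCH, leaf D/CayleyHamilton (helper25).  Prefix `twd_`.

`α : R →+* Mat_d(S)`, `σ : S →+* R` with `α (σ s) = scalar s`  (an `R`-module which is free of rank
`d` over `S`, the `S`-action factoring through `R`).

* `twd_charpoly_coeff_mem` : entries of `A` in `I` ⟹ the lower coefficients of `charpoly A` are in `I`;
* `twd_eval_charpoly_mem_ker` : `(charpoly (α f)).map σ` evaluated at `f` lies in `ker α`;
* `twd_pow_mem_of_entries_mem` : entries of `α f` in `I` ⟹ `f ^ d ∈ ker α ⊔ I.map σ`;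
* `twd_exists_monic_eval_mem_ker` : `R ⧸ ker α` is integral over `S`.
-/
import Mathlib

set_option autoImplicit false

namespace Fermat.Agent.TW

open Polynomial Matrix

variable {R S : Type*} [CommRing R] [CommRing S] {d : ℕ}

/-- the lower coefficients of the characteristic polynomial of a matrix with entries in `I` are
in `I`. -/
theorem twd_charpoly_coeff_mem {I : Ideal S} (A : Matrix (Fin d) (Fin d) S)
    (hA : ∀ i k, A i k ∈ I) {m : ℕ} (hm : m < d) : A.charpoly.coeff m ∈ I := by
  have h0 : A.map (Ideal.Quotient.mk I) = 0 := by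
    ext i k
    simp only [Matrix.map_apply, Matrix.zero_apply]
    exact Ideal.Quotient.eq_zero_iff_mem.2 (hA i k)
  have h1 : (A.charpoly.map (Ideal.Quotient.mk I)) = (X : (S ⧸ I)[X]) ^ d := by
    rw [← Matrix.charpoly_map, h0, Matrix.charpoly_zero, Fintype.card_fin]
  have h2 := congrArg (fun p => Polynomial.coeff p m) h1
  simp only [Polynomial.coeff_map, Polynomial.coeff_X_pow] at h2
  rw [if_neg (Nat.ne_of_lt hm)] at h2
  exact Ideal.Quotient.eq_zero_iff_mem.1 h2

variable (α : R →+* Matrix (Fin d) (Fin d) S) (σ : S →+* R)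
  (hασ : ∀ s : S, α (σ s) = Matrix.scalar (Fin d) s)

include hασ in
/-- `α (p(f)) = p(α f)` for `p ∈ S[X]`. -/
theorem twd_alpha_eval_map (p : S[X]) (f : R) :
    α ((p.map σ).eval f) = Polynomial.aeval (α f) p := by
  induction p using Polynomial.induction_on' with
  | add p q hp hq => simp only [Polynomial.map_add, Polynomial.eval_add, map_add, hp, hq]
  | monomial n a =>
    simp only [Polynomial.map_monomial, Polynomial.eval_monomial, map_mul, map_pow, hασ,
      Polynomial.aeval_monomial]
    rfl

include hασ in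
/-- Cayley–Hamilton: the characteristic polynomial of `α f`, evaluated at `f`, acts as zero. -/
theorem twd_eval_charpoly_mem_ker (f : R) :
    (((α f).charpoly).map σ).eval f ∈ RingHom.ker α := by
  rw [RingHom.mem_ker, twd_alpha_eval_map α σ hασ, Matrix.aeval_self_charpoly]

include hασ in
/-- `R ⧸ ker α` is integral over `S`. -/
theorem twd_exists_monic_eval_mem_ker (f : R) :
    ∃ p : S[X], p.Monic ∧ (p.map σ).eval f ∈ RingHom.ker α :=
  ⟨(α f).charpoly, Matrix.charpoly_monic _, twd_eval_charpoly_mem_ker α σ hασ f⟩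

include hασ in
/-- entries of `α f` in `I` ⟹ `f ^ d ∈ ker α ⊔ I.map σ`. -/
theorem twd_pow_mem_of_entries_mem {I : Ideal S} (f : R) (hf : ∀ i k, α f i k ∈ I) :
    f ^ d ∈ RingHom.ker α ⊔ I.map σ := by
  classical
  rcases subsingleton_or_nontrivial S with hS | hS
  · -- `S = 0`: `ker α = ⊤`
    have : RingHom.ker α = ⊤ := by
      rw [Ideal.eq_top_iff_one, RingHom.mem_ker]
      exact Subsingleton.elim _ _
    rw [this, top_sup_eq]
    trivial
  set p := (α f).charpoly with hp
  have hmonic : p.Monic := Matrix.charpoly_monic _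
  have hdeg : p.natDegree = d := by
    rw [hp, Matrix.charpoly_natDegree_eq_dim, Fintype.card_fin]
  have hker := twd_eval_charpoly_mem_ker α σ hασ f
  rw [← hp] at hker
  have hsum : (p.map σ).eval f = f ^ d + ∑ m ∈ Finset.range d, σ (p.coeff m) * f ^ m := by
    rw [Polynomial.eval_map, Polynomial.eval₂_eq_sum_range, hdeg, Finset.sum_range_succ,
      add_comm]
    congr 1
    have : p.coeff d = 1 := by
      rw [← hdeg]; exact hmonic.coeff_natDegree
    rw [this, map_one, one_mul]
  have hlow : ∑ m ∈ Finset.range d, σ (p.coeff m) * f ^ m ∈ I.map σ := by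
    refine Ideal.sum_mem _ fun m hm => ?_
    refine Ideal.mul_mem_right _ _ (Ideal.mem_map_of_mem σ ?_)
    exact twd_charpoly_coeff_mem (α f) hf (Finset.mem_range.1 hm)
  have : f ^ d = (p.map σ).eval f - ∑ m ∈ Finset.range d, σ (p.coeff m) * f ^ m := by
    rw [hsum]; ring
  rw [this]
  exact Submodule.sub_mem _ (Ideal.mem_sup_left hker) (Ideal.mem_sup_right hlow)

end Fermat.Agent.TW
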