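/-
ONE MACHINE / block [D] PATCH, leaf D/FullSupport = theorem (D2) (helper14).  Prefix `twd_`.

`αχ : Rχ → Mat_d(S)` with `αχ ∘ σχ = scalars`, `d > 0`: the image `𝕋 = Rχ ⧸ ker αχ` contains `S`
and is integral over it (Cayley–Hamilton), so `dim S ≤ dim 𝕋`; if `Spec Rχ` is irreducible of
dimension `≤ dim S`, the kernel must be nilpotent (otherwise `dim 𝕋 + 1 ≤ dim Rχ`):
the patched module has FULL SUPPORT.
-/
import Fermat.Agent.TW.Patch.CayleyHamilton
import Fermat.Agent.TW.Patch.DimIntegral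
import Fermat.Agent.TW.Patch.DimIrred

set_option autoImplicit false

namespace Fermat.Agent.TW

open Polynomial

variable {S : Type*} [CommRing S] {Rχ : Type*} [CommRing Rχ] {d : ℕ}

/-- `S → Rχ ⧸ ker αχ` is injective when `d > 0`. -/
theorem twd_quot_ker_injective (hd : 0 < d) (αχ : Rχ →+* Matrix (Fin d) (Fin d) S)
    (σχ : S →+* Rχ) (hασ : ∀ s, αχ (σχ s) = Matrix.scalar (Fin d) s) :
    Function.Injective ((Ideal.Quotient.mk (RingHom.ker αχ)).comp σχ) := by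
  rw [injective_iff_map_eq_zero]
  intro s hs
  rw [RingHom.comp_apply, Ideal.Quotient.eq_zero_iff_mem, RingHom.mem_ker, hασ] at hs
  have h00 := congrFun (congrFun hs ⟨0, hd⟩) ⟨0, hd⟩
  simpa using h00

/-- `S → Rχ ⧸ ker αχ` is integral. -/
theorem twd_quot_ker_isIntegral (αχ : Rχ →+* Matrix (Fin d) (Fin d) S)
    (σχ : S →+* Rχ) (hασ : ∀ s, αχ (σχ s) = Matrix.scalar (Fin d) s) :
    ((Ideal.Quotient.mk (RingHom.ker αχ)).comp σχ).IsIntegral := by
  intro y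
  obtain ⟨f, rfl⟩ := Ideal.Quotient.mk_surjective y
  obtain ⟨p, hp, hpk⟩ := twd_exists_monic_eval_mem_ker αχ σχ hασ f
  refine ⟨p, hp, ?_⟩
  rw [← Polynomial.eval_map, ← Polynomial.map_map, Polynomial.eval_map,
    Polynomial.eval₂_hom]
  exact Ideal.Quotient.eq_zero_iff_mem.2 hpk

/-- **(D2)**: full support of the patched `χ`-module. -/
theorem twd_ker_le_nilradical [IsNoetherianRing S] [IsLocalRing S] [IsNoetherianRing Rχ]
    [IsLocalRing Rχ] (hd : 0 < d) (αχ : Rχ →+* Matrix (Fin d) (Fin d) S) (σχ : S →+* Rχ)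
    (hασ : ∀ s, αχ (σχ s) = Matrix.scalar (Fin d) s) (hirr : (nilradical Rχ).IsPrime)
    (hdim : ringKrullDim Rχ ≤ ringKrullDim S) : RingHom.ker αχ ≤ nilradical Rχ := by
  by_contra hK
  have h1 : ringKrullDim S ≤ ringKrullDim (Rχ ⧸ RingHom.ker αχ) :=
    twd_dim_le_of_integral _ (twd_quot_ker_injective hd αχ σχ hασ)
      (twd_quot_ker_isIntegral αχ σχ hασ)
  have h2 : ringKrullDim (Rχ ⧸ RingHom.ker αχ) + 1 ≤ ringKrullDim Rχ :=
    twd_dim_quot_add_one_le hirr _ hK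
  have h3 : ringKrullDim (Rχ ⧸ RingHom.ker αχ) + 1 ≤ ringKrullDim (Rχ ⧸ RingHom.ker αχ) :=
    h2.trans (hdim.trans h1)
  have hbot : ringKrullDim (Rχ ⧸ RingHom.ker αχ) ≠ ⊥ := by
    intro hb
    rw [hb, le_bot_iff] at h1
    exact ringKrullDim_ne_bot h1
  have htop : ringKrullDim (Rχ ⧸ RingHom.ker αχ) ≠ ⊤ := by
    intro ht
    have := ringKrullDim_quotient_le (RingHom.ker αχ)
    rw [ht, top_le_iff] at this
    exact ringKrullDim_ne_top this
  -- `x + 1 ≤ x` is impossible for a finite `x`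
  obtain ⟨x, hx⟩ := WithBot.ne_bot_iff_exists.1 hbot
  rw [← hx] at h3 htop
  have hxt : x ≠ ⊤ := fun h => htop (by rw [h]; rfl)
  obtain ⟨n, rfl⟩ := ENat.ne_top_iff_exists.1 hxt
  have : ((n + 1 : ℕ) : WithBot ℕ∞) ≤ ((n : ℕ) : WithBot ℕ∞) := by
    have e : (((n : ℕ∞) : WithBot ℕ∞) + 1) = ((n + 1 : ℕ) : WithBot ℕ∞) := by
      push_cast
      rfl
    rw [← e]
    exact h3
  have : n + 1 ≤ n := by exact_mod_cast this
  omega

end Fermat.Agent.TW
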