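/-
ONE MACHINE / block [D] PATCH, leaf D/MinPrimeSupport = theorem (D2') (helper12).  Prefix `twd_`.

Variant of D/FullSupport WITHOUT irreducibility of `Spec Rχ` (needed for the `χ`-side ring
`R^# = ⋃_c R^{χ^c}`, which has several minimal primes when `p ≥ 5`):

`αχ : Rχ → Mat_d(S)` with `αχ ∘ σχ = scalars`, `d > 0`, `dim Rχ ≤ dim S`, both noetherian local.
Then `ker αχ` is contained in a MINIMAL prime of `Rχ`: the support of the patched `χ`-module
contains an irreducible component of `Spec Rχ`.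

Proof: `𝕋 = Rχ ⧸ ker αχ` contains `S` and is integral over it (Cayley–Hamilton), so
`dim S ≤ dim 𝕋 =: n < ∞`; a chain of primes of length `n` in `𝕋` starts at a prime whose pull-back
`𝔮 ⊇ ker αχ` carries a chain of length `n` above it; a prime strictly below `𝔮` would give a chain
of length `n + 1 > dim S ≥ dim Rχ`.
-/
import Fermat.Agent.TW.Patch.FullSupport

set_option autoImplicit false
set_option linter.style.haveILetI false

namespace Fermat.Agent.TW

variable {S : Type*} [CommRing S] {Rχ : Type*} [CommRing Rχ] {d : ℕ}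

/-- a prime `𝔮 ⊇ K` such that `R ⧸ K` has a chain of primes of length `n` starting at the image
of `𝔮`, in a ring of dimension `≤ n`, is a minimal prime. -/
theorem twd_minimal_of_chain {R : Type*} [CommRing R] (K : Ideal R) {n : ℕ}
    (hdim : ringKrullDim R ≤ (n : WithBot ℕ∞))
    (l : LTSeries (PrimeSpectrum (R ⧸ K))) (hl : l.length = n) :
    (l.head.asIdeal.comap (Ideal.Quotient.mk K)) ∈ minimalPrimes R := by
  classical
  set 𝔮 : Ideal R := l.head.asIdeal.comap (Ideal.Quotient.mk K) with h𝔮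
  haveI h𝔮prime : 𝔮.IsPrime := Ideal.comap_isPrime _ _
  obtain ⟨𝔭, h𝔭min, h𝔭le⟩ := Ideal.exists_minimalPrimes_le (bot_le : (⊥ : Ideal R) ≤ 𝔮)
  haveI h𝔭prime : 𝔭.IsPrime := h𝔭min.1.1
  by_cases hEq : 𝔭 = 𝔮
  · rw [← hEq]; exact h𝔭min
  · exfalso
    -- the chain `𝔭 < comap l 0 < … < comap l n` of length `n + 1` in `Spec R`
    let g : PrimeSpectrum (R ⧸ K) → PrimeSpectrum R :=
      fun P => PrimeSpectrum.comap (Ideal.Quotient.mk K) P
    have hg : StrictMono g := by
      intro P Q hPQ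
      refine lt_of_le_of_ne ?_ ?_
      · exact Ideal.comap_mono (f := Ideal.Quotient.mk K) (le_of_lt hPQ)
      · intro h
        exact (ne_of_lt hPQ)
          (PrimeSpectrum.comap_injective_of_surjective _ Ideal.Quotient.mk_surjective h)
    let l' : LTSeries (PrimeSpectrum R) := l.map g hg
    have hhead : l'.head = ⟨𝔮, h𝔮prime⟩ := by
      rw [LTSeries.head_map]
      rfl
    have hlt : (⟨𝔭, h𝔭prime⟩ : PrimeSpectrum R) < l'.head := by
      rw [hhead]
      exact lt_of_le_of_ne h𝔭le (fun h => hEq (by simpa using congrArg PrimeSpectrum.asIdeal h))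
    let l'' : LTSeries (PrimeSpectrum R) := l'.cons ⟨𝔭, h𝔭prime⟩ hlt
    have hlen : l''.length = n + 1 := by
      simp [l'', l', hl]
    have h1 : ((n + 1 : ℕ) : WithBot ℕ∞) ≤ ringKrullDim R := by
      rw [← hlen]
      exact Order.LTSeries.length_le_krullDim l''
    have h2 : ((n + 1 : ℕ) : WithBot ℕ∞) ≤ ((n : ℕ) : WithBot ℕ∞) := h1.trans hdim
    have : n + 1 ≤ n := by exact_mod_cast h2
    omega

/-- **(D2')**: the patched `χ`-module is supported on an irreducible component: `ker αχ` lies in a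
minimal prime of `Rχ`.  No irreducibility hypothesis. -/
theorem twd_exists_minimalPrimes_ker_le [IsNoetherianRing S] [IsLocalRing S]
    [IsNoetherianRing Rχ] [IsLocalRing Rχ] (hd : 0 < d)
    (αχ : Rχ →+* Matrix (Fin d) (Fin d) S) (σχ : S →+* Rχ)
    (hασ : ∀ s, αχ (σχ s) = Matrix.scalar (Fin d) s)
    (hdim : ringKrullDim Rχ ≤ ringKrullDim S) :
    ∃ 𝔭 : Ideal Rχ, 𝔭 ∈ minimalPrimes Rχ ∧ RingHom.ker αχ ≤ 𝔭 := by
  classical
  have h1 : ringKrullDim S ≤ ringKrullDim (Rχ ⧸ RingHom.ker αχ) :=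
    twd_dim_le_of_integral _ (twd_quot_ker_injective hd αχ σχ hασ)
      (twd_quot_ker_isIntegral αχ σχ hασ)
  have hq : ringKrullDim (Rχ ⧸ RingHom.ker αχ) ≤ ringKrullDim Rχ :=
    ringKrullDim_quotient_le (RingHom.ker αχ)
  have hbot : ringKrullDim (Rχ ⧸ RingHom.ker αχ) ≠ ⊥ := by
    intro hb
    rw [hb, le_bot_iff] at h1
    exact ringKrullDim_ne_bot h1
  have htop : ringKrullDim (Rχ ⧸ RingHom.ker αχ) ≠ ⊤ := by
    intro ht
    rw [ht, top_le_iff] at hq
    exact ringKrullDim_ne_top hq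
  obtain ⟨x, hx⟩ := WithBot.ne_bot_iff_exists.1 hbot
  have hxt : x ≠ ⊤ := fun h => htop (by rw [← hx, h]; rfl)
  obtain ⟨n, rfl⟩ := ENat.ne_top_iff_exists.1 hxt
  have hn : ((n : ℕ) : WithBot ℕ∞) = ringKrullDim (Rχ ⧸ RingHom.ker αχ) := by
    rw [← hx]; rfl
  -- a chain of length `n` in the quotient
  have hle : ((n : ℕ) : WithBot ℕ∞) ≤ Order.krullDim (PrimeSpectrum (Rχ ⧸ RingHom.ker αχ)) := by
    rw [hn]; rfl
  obtain ⟨l, hl⟩ := (Order.le_krullDim_iff).1 hle
  have hdimn : ringKrullDim Rχ ≤ ((n : ℕ) : WithBot ℕ∞) := by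
    rw [hn]; exact hdim.trans h1
  refine ⟨_, twd_minimal_of_chain (RingHom.ker αχ) hdimn l hl, ?_⟩
  intro x hx
  rw [Ideal.mem_comap, Ideal.Quotient.eq_zero_iff_mem.2 hx]
  exact Ideal.zero_mem _

end Fermat.Agent.TW
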