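/-
ONE MACHINE / block [D] PATCH, leaf D/EndgameKer = theorems (D4'), (D4'') (helper12).  Prefix `twd_`.

The landed `twd_endgame_of` (Patch/Endgame.lean, helper25) uses its hypothesis
`hfull : ker L.αχ ≤ nilradical Rχ` in ONE line only (`ker L.αχ ≤ ηb.comap qχ`).  For `p ≥ 5` the
`χ`-side ring of the machine is `R^# = ⋃_c R^{χ^c}` (the soft local-global statement (A-X) only
gives `Φ_p(ρ(σ_q)) = 0`), which is NOT irreducible, so `hfull` is not available.  Here: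

* `twd_endgame_of_ker_le` : the endgame with `hfull` replaced by `hker : ker L.αχ ≤ ηb.comap qχ`
                            (same proof);
* `twd_endgame_of_dim`    : the endgame from `dim Rχ ≤ dim S` (no irreducibility) and, FOR EVERY
                            minimal prime `𝔭` of `Rχ`, a prime `ηb ⊇ qχ(𝔭)` of the common special
                            fibre with `τ ∉ ηb` (cell D/MinPrimeSupport picks the component).
-/
import Mathlib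
import Fermat.Agent.TW.Patch.Endgame
import Fermat.Agent.TW.Patch.MinPrimeSupport

set_option autoImplicit false
set_option linter.style.haveILetI false

namespace Fermat.Agent.TW

open IsLocalRing

universe uO uS uR1 uRχ uRb uT

variable {O : Type uO} [CommRing O] {lam : O}
  {S : Type uS} [CommRing S] [Algebra O S]
  {R1 : Type uR1} [CommRing R1] [Algebra O R1]
  {Rχ : Type uRχ} [CommRing Rχ] [Algebra O Rχ]
  {Rb : Type uRb} [CommRing Rb]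
  {T0 : Type uT} [CommRing T0] [Algebra O T0]
  {d : ℕ}

/-- **the endgame**, from ONE prime `ηb` of the common special fibre which lies in the support of
the `χ`-side (`ker L.αχ ≤ ηb.comap qχ`) and on which `τ` does not vanish.  (The landed
`twd_endgame_of` is the special case `ker L.αχ ≤ nilradical Rχ`.) -/
theorem twd_endgame_of_ker_le [IsDomain S] [Module.Finite O T0]
    (hlamS : algebraMap O S lam ≠ 0)
    {𝔞 : Ideal S} (h𝔞 : 𝔞.IsPrime) (hlam𝔞 : algebraMap O S lam ∉ 𝔞)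
    {q1 : R1 →+* Rb} {qχ : Rχ →+* Rb} (hqχ : Function.Surjective qχ)
    (hkerχ : RingHom.ker qχ = Ideal.span {algebraMap O Rχ lam})
    {j : T0 →+* Matrix (Fin d) (Fin d) (S ⧸ 𝔞)}
    {ν : Fin 2 → Fin 2 → R1} {β : Fin 2 → Fin 2 → T0}
    (L : twd_Limit O lam S R1 Rχ Rb T0 d 𝔞 q1 qχ j ν β)
    (τ : R1)
    (hU : ∀ 𝔭 : Ideal R1, 𝔭.IsPrime → algebraMap O R1 lam ∉ 𝔭 → (∃ i k, ν i k ∉ 𝔭) → τ ∈ 𝔭)
    (ηb : Ideal Rb) (hηb : ηb.IsPrime) (hker : RingHom.ker L.αχ ≤ ηb.comap qχ)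
    (hτη : q1 τ ∉ ηb) :
    ∃ 𝔓 : Ideal T0, 𝔓.IsPrime ∧ algebraMap O T0 lam ∉ 𝔓 ∧ ∀ i k, β i k ∈ 𝔓 := by
  classical
  haveI := hηb
  haveI := h𝔞
  -- Step A: `ker α¹ ≤ η' := ηb.comap q1`
  have hA : RingHom.ker L.α1 ≤ ηb.comap q1 := by
    intro f hf
    rw [RingHom.mem_ker] at hf
    obtain ⟨g, hg⟩ := hqχ (q1 f)
    have hint := L.intertwine f g hg.symm
    rw [hf, Matrix.mul_zero] at hint
    have hYP : ∀ i k, (L.αχ g * L.P) i k ∈ Ideal.span {algebraMap O S lam} := by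
      intro i k
      have := hint i k
      rw [Matrix.zero_apply, zero_sub] at this
      simpa using Ideal.neg_mem_iff _ |>.1 this
    have hI := twd_entries_of_mul_inv hYP L.P_mul_Pinv
    have hpow := twd_pow_mem_of_entries_mem L.αχ L.σχ L.αχ_σχ g hI
    have hmap : (Ideal.span {algebraMap O S lam}).map L.σχ ≤ ηb.comap qχ := by
      rw [Ideal.map_span, Set.image_singleton, L.σχ_algebraMap, ← hkerχ]
      intro x hx
      rw [Ideal.mem_comap, RingHom.mem_ker.1 hx]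
      exact zero_mem _
    have hgd : g ^ d ∈ ηb.comap qχ := (sup_le hker hmap) hpow
    have hgη : g ∈ ηb.comap qχ := Ideal.IsPrime.mem_of_pow_mem inferInstance d hgd
    rw [Ideal.mem_comap] at hgη ⊢
    rwa [← hg]
  -- Step B: a minimal prime `𝔭₁` over `ker α¹` inside `η'`
  obtain ⟨𝔭₁, h𝔭₁, h𝔭₁η⟩ := Ideal.exists_minimalPrimes_le hA
  haveI h𝔭₁prime : 𝔭₁.IsPrime := h𝔭₁.1.1
  have hk𝔭₁ : RingHom.ker L.α1 ≤ 𝔭₁ := h𝔭₁.1.2
  -- Step C: `𝔭₁ ∩ S = 0`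
  have hC : ∀ s : S, L.σ1 s ∈ 𝔭₁ → s = 0 := by
    intro s hs
    obtain ⟨y, hy, hxy⟩ := Ideal.exists_mul_mem_of_mem_minimalPrimes h𝔭₁ hs
    rw [RingHom.mem_ker] at hy hxy
    rw [map_mul, L.α1_σ1] at hxy
    by_contra hs0
    apply hy
    ext i k
    have := congrFun (congrFun hxy i) k
    rw [Matrix.zero_apply] at this ⊢
    have h2 : (Matrix.scalar (Fin d) s * L.α1 y) i k = s * L.α1 y i k := by
      rw [Matrix.scalar_apply, Matrix.diagonal_mul]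
    rw [h2] at this
    exact (mul_eq_zero.1 this).resolve_left hs0
  -- `λ ∉ 𝔭₁`, hence `Σ_q - 1 ∈ 𝔭₁`
  have hlam𝔭₁ : algebraMap O R1 lam ∉ 𝔭₁ := by
    intro h
    rw [← L.σ1_algebraMap] at h
    exact hlamS (hC _ h)
  have hτ𝔭₁ : τ ∉ 𝔭₁ := fun h => hτη (h𝔭₁η h)
  have hν𝔭₁ : ∀ i k, ν i k ∈ 𝔭₁ := by
    intro i k
    by_contra h
    exact hτ𝔭₁ (hU 𝔭₁ h𝔭₁prime hlam𝔭₁ ⟨i, k, h⟩)
  -- Step D: lying over `𝔞` in `R¹ ⧸ ker α¹`
  let 𝕋 := R1 ⧸ RingHom.ker L.α1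
  let φ : S →+* 𝕋 := (Ideal.Quotient.mk (RingHom.ker L.α1)).comp L.σ1
  letI : Algebra S 𝕋 := φ.toAlgebra
  haveI : Algebra.IsIntegral S 𝕋 := by
    refine ⟨fun x => ?_⟩
    obtain ⟨f, rfl⟩ := Ideal.Quotient.mk_surjective x
    obtain ⟨p, hp, hpf⟩ := twd_exists_monic_eval_mem_ker L.α1 L.σ1 L.α1_σ1 f
    refine ⟨p, hp, ?_⟩
    have h1 : Polynomial.eval₂ (algebraMap S 𝕋) (Ideal.Quotient.mk (RingHom.ker L.α1) f) p =
        Ideal.Quotient.mk (RingHom.ker L.α1) ((p.map L.σ1).eval f) := by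
      rw [Polynomial.eval_map, Polynomial.hom_eval₂]
      rfl
    rw [h1]
    exact Ideal.Quotient.eq_zero_iff_mem.2 hpf
  have hcomap : (𝔭₁.map (Ideal.Quotient.mk (RingHom.ker L.α1))).comap (algebraMap S 𝕋) ≤ 𝔞 := by
    intro s hs
    rw [Ideal.mem_comap] at hs
    have h1 : (algebraMap S 𝕋) s = Ideal.Quotient.mk (RingHom.ker L.α1) (L.σ1 s) := rfl
    rw [h1, Ideal.mem_map_iff_of_surjective _ Ideal.Quotient.mk_surjective] at hs
    obtain ⟨x, hx, hxs⟩ := hs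
    have h2 : x - L.σ1 s ∈ RingHom.ker L.α1 := Ideal.Quotient.eq.1 hxs
    have h3 : L.σ1 s ∈ 𝔭₁ := by
      have := Ideal.sub_mem _ hx (hk𝔭₁ h2)
      simpa using this
    rw [hC s h3]
    exact zero_mem _
  obtain ⟨Q, hQge, hQprime, hQcomap⟩ :=
    Ideal.exists_ideal_over_prime_of_isIntegral 𝔞
      (𝔭₁.map (Ideal.Quotient.mk (RingHom.ker L.α1))) hcomap
  -- `𝔮' := Q.comap mk`
  set 𝔮' : Ideal R1 := Q.comap (Ideal.Quotient.mk (RingHom.ker L.α1)) with h𝔮'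
  haveI h𝔮'prime : 𝔮'.IsPrime := Ideal.comap_isPrime _ _
  have h𝔭₁𝔮' : 𝔭₁ ≤ 𝔮' := by
    intro x hx
    exact hQge (Ideal.mem_map_of_mem _ hx)
  have hσ𝔮' : ∀ s : S, L.σ1 s ∈ 𝔮' ↔ s ∈ 𝔞 := by
    intro s
    have h1 : s ∈ Q.comap (algebraMap S 𝕋) ↔ s ∈ 𝔞 := by rw [hQcomap]
    exact h1
  have hlam𝔮' : algebraMap O R1 lam ∉ 𝔮' := by
    rw [← L.σ1_algebraMap, hσ𝔮']
    exact hlam𝔞
  -- Step E: `ker π ≤ 𝔮'`
  have hE : RingHom.ker L.π ≤ 𝔮' := by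
    intro f hf
    rw [RingHom.mem_ker] at hf
    have h1 : ∀ i k, L.α1 f i k ∈ 𝔞 := by
      intro i k
      have := congrFun (congrFun (L.α1_mod f) i) k
      rw [hf, map_zero, Matrix.zero_apply, Matrix.map_apply] at this
      exact Ideal.Quotient.eq_zero_iff_mem.1 this
    have hpow := twd_pow_mem_of_entries_mem L.α1 L.σ1 L.α1_σ1 f h1
    have hmap : 𝔞.map L.σ1 ≤ 𝔮' := by
      rw [Ideal.map_le_iff_le_comap]
      intro s hs
      exact (hσ𝔮' s).2 hs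
    have hfd : f ^ d ∈ 𝔮' := (sup_le (hk𝔭₁.trans h𝔭₁𝔮') hmap) hpow
    exact Ideal.IsPrime.mem_of_pow_mem inferInstance d hfd
  -- Step F: lying over `𝔮'` in `T₀`
  letI : Algebra R1 T0 := L.π.toAlgebra
  haveI : IsScalarTower O R1 T0 := IsScalarTower.of_algebraMap_eq fun a => (L.π_algebraMap a).symm
  haveI : Algebra.IsIntegral O T0 := Algebra.IsIntegral.of_finite O T0
  haveI : Algebra.IsIntegral R1 T0 := Algebra.IsIntegral.tower_top (R := O)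
  obtain ⟨𝔓, -, h𝔓prime, h𝔓comap⟩ :=
    Ideal.exists_ideal_over_prime_of_isIntegral 𝔮' (⊥ : Ideal T0)
      (by rw [← RingHom.ker_eq_comap_bot]; exact hE)
  refine ⟨𝔓, h𝔓prime, ?_, ?_⟩
  · intro h
    apply hlam𝔮'
    rw [← h𝔓comap, Ideal.mem_comap]
    have : algebraMap R1 T0 (algebraMap O R1 lam) = algebraMap O T0 lam := L.π_algebraMap lam
    rw [this]
    exact h
  · intro i k
    have h1 : ν i k ∈ 𝔮' := h𝔭₁𝔮' (hν𝔭₁ i k)
    rw [← h𝔓comap, Ideal.mem_comap] at h1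
    have : algebraMap R1 T0 (ν i k) = β i k := L.π_ν i k
    rwa [this] at h1

/-- **the endgame without irreducibility**: `dim Rχ ≤ dim S` and, for every minimal prime `𝔭` of
`Rχ`, a prime `ηb` of the common special fibre containing `qχ 𝔭` on which `τ` does not vanish. -/
theorem twd_endgame_of_dim [IsDomain S] [Module.Finite O T0]
    [IsNoetherianRing S] [IsLocalRing S] [IsNoetherianRing Rχ] [IsLocalRing Rχ] (hd : 0 < d)
    (hlamS : algebraMap O S lam ≠ 0)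
    {𝔞 : Ideal S} (h𝔞 : 𝔞.IsPrime) (hlam𝔞 : algebraMap O S lam ∉ 𝔞)
    {q1 : R1 →+* Rb} {qχ : Rχ →+* Rb} (hqχ : Function.Surjective qχ)
    (hkerχ : RingHom.ker qχ = Ideal.span {algebraMap O Rχ lam})
    {j : T0 →+* Matrix (Fin d) (Fin d) (S ⧸ 𝔞)}
    {ν : Fin 2 → Fin 2 → R1} {β : Fin 2 → Fin 2 → T0}
    (L : twd_Limit O lam S R1 Rχ Rb T0 d 𝔞 q1 qχ j ν β)
    (hdim : ringKrullDim Rχ ≤ ringKrullDim S)
    (τ : R1)
    (hU : ∀ 𝔭 : Ideal R1, 𝔭.IsPrime → algebraMap O R1 lam ∉ 𝔭 → (∃ i k, ν i k ∉ 𝔭) → τ ∈ 𝔭)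
    (hη : ∀ 𝔭 : Ideal Rχ, 𝔭 ∈ minimalPrimes Rχ →
      ∃ ηb : Ideal Rb, ηb.IsPrime ∧ 𝔭 ≤ ηb.comap qχ ∧ q1 τ ∉ ηb) :
    ∃ 𝔓 : Ideal T0, 𝔓.IsPrime ∧ algebraMap O T0 lam ∉ 𝔓 ∧ ∀ i k, β i k ∈ 𝔓 := by
  obtain ⟨𝔭, h𝔭min, h𝔭ker⟩ :=
    twd_exists_minimalPrimes_ker_le hd L.αχ L.σχ L.αχ_σχ hdim
  obtain ⟨ηb, hηb, h𝔭η, hτη⟩ := hη 𝔭 h𝔭min
  exact twd_endgame_of_ker_le hlamS h𝔞 hlam𝔞 hqχ hkerχ L τ hU ηb hηb (h𝔭ker.trans h𝔭η) hτη

end Fermat.Agent.TW
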