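/-
ONE MACHINE / block [D] PATCH, leaf D/EndgameSupp = theorem (D4''') (helper12).  Prefix `twd_`.

The endgame in the form which fits the IMAGE-RING design of block [B] (helper26): NO hypothesis on
the ring `Rχ` at all (not irreducible, not of bounded dimension, not even noetherian; e.g. the
big unrestricted ring `A_other[[S_q, F_q]][[x]]` modulo the naive relations which hold in
`End(M^χ)`).  The local input is asked only at the primes `𝔭` of `Rχ` MINIMAL OVER `ker αχ`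
(= the generic points of the support of the patched module `M^χ_∞`), and for these the theorem
hands over what [B] needs:

* `𝔭 ∩ S = 0` (so `𝔭` has characteristic zero: `λ ∉ 𝔭`), and
* `dim S ≤ dim (Rχ ⧸ 𝔭)`  (so a domain of dimension `≤ dim S` surjecting onto `Rχ ⧸ 𝔭` is
  isomorphic to it).

Statements:
* `twd_minimalPrimes_ker_props` : the two properties above for every `𝔭 ∈ (ker αχ).minimalPrimes`;
* `twd_endgame_of_supp`         : the endgame from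
    `hη : ∀ 𝔭 ∈ (ker L.αχ).minimalPrimes, (𝔭 ∩ S = 0) → dim S ≤ dim (Rχ ⧸ 𝔭) →
            ∃ ηb prime of Rb, 𝔭 ≤ ηb.comap qχ ∧ q1 τ ∉ ηb`.
-/
import Mathlib
import Fermat.Agent.TW.Patch.EndgameKer

set_option autoImplicit false
set_option linter.style.haveILetI false

namespace Fermat.Agent.TW

open IsLocalRing

universe uO uS uR1 uRχ uRb uT

section props

variable {S : Type*} [CommRing S] {Rχ : Type*} [CommRing Rχ] {d : ℕ}

/-- a prime minimal over `ker αχ` meets `S` in `0`. -/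
theorem twd_minimalPrimes_ker_inter [IsDomain S]
    (αχ : Rχ →+* Matrix (Fin d) (Fin d) S) (σχ : S →+* Rχ)
    (hασ : ∀ s, αχ (σχ s) = Matrix.scalar (Fin d) s)
    {𝔭 : Ideal Rχ} (h𝔭 : 𝔭 ∈ (RingHom.ker αχ).minimalPrimes) :
    ∀ s : S, σχ s ∈ 𝔭 → s = 0 := by
  intro s hs
  obtain ⟨y, hy, hxy⟩ := Ideal.exists_mul_mem_of_mem_minimalPrimes h𝔭 hs
  rw [RingHom.mem_ker] at hy hxy
  rw [map_mul, hασ] at hxy
  by_contra hs0
  apply hy
  ext i k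
  have := congrFun (congrFun hxy i) k
  rw [Matrix.zero_apply] at this ⊢
  have h2 : (Matrix.scalar (Fin d) s * αχ y) i k = s * αχ y i k := by
    rw [Matrix.scalar_apply, Matrix.diagonal_mul]
  rw [h2] at this
  exact (mul_eq_zero.1 this).resolve_left hs0

/-- a prime minimal over `ker αχ` has coheight at least `dim S`. -/
theorem twd_minimalPrimes_ker_dim [IsDomain S]
    (αχ : Rχ →+* Matrix (Fin d) (Fin d) S) (σχ : S →+* Rχ)
    (hασ : ∀ s, αχ (σχ s) = Matrix.scalar (Fin d) s)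
    {𝔭 : Ideal Rχ} (h𝔭 : 𝔭 ∈ (RingHom.ker αχ).minimalPrimes) :
    ringKrullDim S ≤ ringKrullDim (Rχ ⧸ 𝔭) := by
  have hinter := twd_minimalPrimes_ker_inter αχ σχ hασ h𝔭
  have hk𝔭 : RingHom.ker αχ ≤ 𝔭 := h𝔭.1.2
  refine twd_dim_le_of_integral ((Ideal.Quotient.mk 𝔭).comp σχ) ?_ ?_
  · rw [injective_iff_map_eq_zero]
    intro s hs
    rw [RingHom.comp_apply, Ideal.Quotient.eq_zero_iff_mem] at hs
    exact hinter s hs
  · intro y
    obtain ⟨f, rfl⟩ := Ideal.Quotient.mk_surjective y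
    obtain ⟨p, hp, hpk⟩ := twd_exists_monic_eval_mem_ker αχ σχ hασ f
    refine ⟨p, hp, ?_⟩
    rw [← Polynomial.eval_map, ← Polynomial.map_map, Polynomial.eval_map,
      Polynomial.eval₂_hom]
    exact Ideal.Quotient.eq_zero_iff_mem.2 (hk𝔭 hpk)

/-- **the generic points of the support of the patched module**: both properties. -/
theorem twd_minimalPrimes_ker_props [IsDomain S]
    (αχ : Rχ →+* Matrix (Fin d) (Fin d) S) (σχ : S →+* Rχ)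
    (hασ : ∀ s, αχ (σχ s) = Matrix.scalar (Fin d) s)
    {𝔭 : Ideal Rχ} (h𝔭 : 𝔭 ∈ (RingHom.ker αχ).minimalPrimes) :
    (∀ s : S, σχ s ∈ 𝔭 → s = 0) ∧ ringKrullDim S ≤ ringKrullDim (Rχ ⧸ 𝔭) :=
  ⟨twd_minimalPrimes_ker_inter αχ σχ hασ h𝔭, twd_minimalPrimes_ker_dim αχ σχ hασ h𝔭⟩

/-- there is a prime minimal over `ker αχ` (`d > 0`, `S` nontrivial). -/
theorem twd_exists_minimalPrimes_ker [Nontrivial S] (hd : 0 < d)
    (αχ : Rχ →+* Matrix (Fin d) (Fin d) S) :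
    ∃ 𝔭 : Ideal Rχ, 𝔭 ∈ (RingHom.ker αχ).minimalPrimes := by
  have hne : RingHom.ker αχ ≠ ⊤ := by
    intro h
    have h1 : (1 : Rχ) ∈ RingHom.ker αχ := by rw [h]; trivial
    rw [RingHom.mem_ker, map_one] at h1
    have h00 := congrFun (congrFun h1 ⟨0, hd⟩) ⟨0, hd⟩
    simp at h00
  obtain ⟨M, hM, hle⟩ := Ideal.exists_le_maximal _ hne
  haveI : M.IsPrime := hM.isPrime
  obtain ⟨𝔭, h𝔭, -⟩ := Ideal.exists_minimalPrimes_le hle
  exact ⟨𝔭, h𝔭⟩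

end props

variable {O : Type uO} [CommRing O] {lam : O}
  {S : Type uS} [CommRing S] [Algebra O S]
  {R1 : Type uR1} [CommRing R1] [Algebra O R1]
  {Rχ : Type uRχ} [CommRing Rχ] [Algebra O Rχ]
  {Rb : Type uRb} [CommRing Rb]
  {T0 : Type uT} [CommRing T0] [Algebra O T0]
  {d : ℕ}

/-- **the endgame, support form**: the local input is asked only at the primes of `Rχ` minimal over
`ker L.αχ`; for these `𝔭 ∩ S = 0` and `dim S ≤ dim (Rχ ⧸ 𝔭)` are provided.  No hypothesis on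
`Rχ`. -/
theorem twd_endgame_of_supp [IsDomain S] [Module.Finite O T0] (hd : 0 < d)
    (hlamS : algebraMap O S lam ≠ 0)
    {𝔞 : Ideal S} (h𝔞 : 𝔞.IsPrime) (hlam𝔞 : algebraMap O S lam ∉ 𝔞)
    {q1 : R1 →+* Rb} {qχ : Rχ →+* Rb} (hqχ : Function.Surjective qχ)
    (hkerχ : RingHom.ker qχ = Ideal.span {algebraMap O Rχ lam})
    {j : T0 →+* Matrix (Fin d) (Fin d) (S ⧸ 𝔞)}
    {ν : Fin 2 → Fin 2 → R1} {β : Fin 2 → Fin 2 → T0}
    (L : twd_Limit O lam S R1 Rχ Rb T0 d 𝔞 q1 qχ j ν β)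
    (τ : R1)
    (hU : ∀ 𝔭 : Ideal R1, 𝔭.IsPrime → algebraMap O R1 lam ∉ 𝔭 → (∃ i k, ν i k ∉ 𝔭) → τ ∈ 𝔭)
    (hη : ∀ 𝔭 : Ideal Rχ, 𝔭 ∈ (RingHom.ker L.αχ).minimalPrimes →
      (∀ s : S, L.σχ s ∈ 𝔭 → s = 0) → ringKrullDim S ≤ ringKrullDim (Rχ ⧸ 𝔭) →
      ∃ ηb : Ideal Rb, ηb.IsPrime ∧ 𝔭 ≤ ηb.comap qχ ∧ q1 τ ∉ ηb) :
    ∃ 𝔓 : Ideal T0, 𝔓.IsPrime ∧ algebraMap O T0 lam ∉ 𝔓 ∧ ∀ i k, β i k ∈ 𝔓 := by
  obtain ⟨𝔭, h𝔭⟩ := twd_exists_minimalPrimes_ker hd L.αχ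
  obtain ⟨h1, h2⟩ := twd_minimalPrimes_ker_props L.αχ L.σχ L.αχ_σχ h𝔭
  obtain ⟨ηb, hηb, h𝔭η, hτη⟩ := hη 𝔭 h𝔭 h1 h2
  exact twd_endgame_of_ker_le hlamS h𝔞 hlam𝔞 hqχ hkerχ L τ hU ηb hηb (h𝔭.1.2.trans h𝔭η) hτη

end Fermat.Agent.TW
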