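/-
ONE MACHINE / block [D] PATCH, auxiliary lemmas for D/Limit (helper25).  Prefix `twdl_`.
File `Patch/LiftMat.lean` (offered to D/Limit = helper28; no dependency on other [D] files).

* `twdl_ulim` : the limit of a sequence in a finite type along the hyperfilter of `ℕ`;
* `twdl_elim` : the limit in an `I`-adically complete ring of a compatible family in `S ⧸ I ^ k`;
* `twdl_liftMat` : compatible ring homs `R →+* Mat_d(S ⧸ I ^ k)` lift to `R →+* Mat_d(S)`;
* `twdl_mem_of_forall_mem_sup_pow` : ideals of a noetherian local ring are closed.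
-/
import Mathlib

set_option autoImplicit false
set_option linter.unusedSectionVars false

namespace Fermat.Agent.TW

open Filter

/-! ### limits along the hyperfilter -/

section ulim

variable {X : Type*} [Finite X] [Nonempty X]

/-- the limit along the hyperfilter of `ℕ` of a sequence in a finite type. -/
noncomputable def twdl_ulim (x : ℕ → X) : X :=
  Classical.choose (Ultrafilter.eq_pure_of_finite ((hyperfilter ℕ).map x))

theorem twdl_ulim_spec (x : ℕ → X) :
    ∀ᶠ n in (hyperfilter ℕ : Filter ℕ), x n = twdl_ulim x := by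
  have h := Classical.choose_spec (Ultrafilter.eq_pure_of_finite ((hyperfilter ℕ).map x))
  have h1 : ({twdl_ulim x} : Set X) ∈ ((hyperfilter ℕ).map x : Filter X) := by
    rw [Ultrafilter.coe_inj.2 h]
    exact mem_pure.2 rfl
  exact h1

/-- a property which holds for all large `n` holds for the limit. -/
theorem twdl_ulim_of_eventually (x : ℕ → X) {P : X → Prop} (k : ℕ) (h : ∀ n, k ≤ n → P (x n)) :
    P (twdl_ulim x) := by
  have h1 : ∀ᶠ n in (hyperfilter ℕ : Filter ℕ), k ≤ n :=
    Nat.hyperfilter_le_atTop (eventually_ge_atTop k)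
  obtain ⟨n, hn1, hn2⟩ := ((twdl_ulim_spec x).and h1).exists
  rw [← hn1]
  exact h n hn2

/-- for every `k` there is `n ≥ k` at which the sequence takes its limit value. -/
theorem twdl_ulim_exists_ge (x : ℕ → X) (k : ℕ) : ∃ n, k ≤ n ∧ x n = twdl_ulim x := by
  have h1 : ∀ᶠ n in (hyperfilter ℕ : Filter ℕ), k ≤ n :=
    Nat.hyperfilter_le_atTop (eventually_ge_atTop k)
  obtain ⟨n, hn1, hn2⟩ := ((twdl_ulim_spec x).and h1).exists
  exact ⟨n, hn2, hn1⟩

/-- two (or more) sequences take their limit values simultaneously at some `n ≥ k`. -/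
theorem twdl_ulim_exists_ge₂ {Y : Type*} [Finite Y] [Nonempty Y] (x : ℕ → X) (y : ℕ → Y)
    (k : ℕ) : ∃ n, k ≤ n ∧ x n = twdl_ulim x ∧ y n = twdl_ulim y := by
  have h1 : ∀ᶠ n in (hyperfilter ℕ : Filter ℕ), k ≤ n :=
    Nat.hyperfilter_le_atTop (eventually_ge_atTop k)
  obtain ⟨n, ⟨hn1, hn2⟩, hn3⟩ := (((twdl_ulim_spec x).and (twdl_ulim_spec y)).and h1).exists
  exact ⟨n, hn3, hn1, hn2⟩

theorem twdl_ulim_exists_ge₃ {Y Z : Type*} [Finite Y] [Nonempty Y] [Finite Z] [Nonempty Z]
    (x : ℕ → X) (y : ℕ → Y) (z : ℕ → Z) (k : ℕ) :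
    ∃ n, k ≤ n ∧ x n = twdl_ulim x ∧ y n = twdl_ulim y ∧ z n = twdl_ulim z := by
  have h1 : ∀ᶠ n in (hyperfilter ℕ : Filter ℕ), k ≤ n :=
    Nat.hyperfilter_le_atTop (eventually_ge_atTop k)
  obtain ⟨n, ⟨⟨hn1, hn2⟩, hn4⟩, hn3⟩ :=
    ((((twdl_ulim_spec x).and (twdl_ulim_spec y)).and (twdl_ulim_spec z)).and h1).exists
  exact ⟨n, hn3, hn1, hn2, hn4⟩

end ulim

/-! ### adic limits -/

section elim

variable {S : Type*} [CommRing S] (I : Ideal S)

/-- the transition map `S ⧸ I ^ (k+1) → S ⧸ I ^ k`. -/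
abbrev twdl_fac (k : ℕ) : S ⧸ I ^ (k + 1) →+* S ⧸ I ^ k :=
  Ideal.Quotient.factor (Ideal.pow_le_pow_right (Nat.le_succ k))

variable [IsAdicComplete I S]

/-- two elements of a Hausdorff ring which agree modulo all `I ^ k` are equal. -/
theorem twdl_ext {a b : S} (h : ∀ k, Ideal.Quotient.mk (I ^ k) a = Ideal.Quotient.mk (I ^ k) b) :
    a = b := by
  rw [IsHausdorff.eq_iff_smodEq (I := I)]
  intro n
  rw [SModEq.sub_mem, smul_eq_mul, Ideal.mul_top]
  exact Ideal.Quotient.eq.1 (h n)

/-- the limit of a compatible family. -/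
theorem twdl_exists_lim (y : ∀ k, S ⧸ I ^ k)
    (hy : ∀ k, twdl_fac I k (y (k + 1)) = y k) :
    ∃ s : S, ∀ k, Ideal.Quotient.mk (I ^ k) s = y k := by
  classical
  choose f hf using fun k => Ideal.Quotient.mk_surjective (y k)
  -- monotone compatibility
  have hcomp : ∀ m n, m ≤ n → Ideal.Quotient.mk (I ^ m) (f n) = y m := by
    intro m n hmn
    induction n, hmn using Nat.le_induction with
    | base => exact hf m
    | succ n hmn ih =>
      have h1 := hy n
      rw [← hf (n + 1), ← hf n, Ideal.Quotient.factor_mk] at h1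
      rw [← ih]
      have h2 : f (n + 1) - f n ∈ I ^ n := Ideal.Quotient.eq.1 h1
      exact Ideal.Quotient.eq.2 (Ideal.pow_le_pow_right hmn h2)
  obtain ⟨L, hL⟩ := IsPrecomplete.prec' (I := I) f (by
    intro m n hmn
    rw [SModEq.sub_mem, smul_eq_mul, Ideal.mul_top]
    apply Ideal.Quotient.eq.1
    rw [hf m, hcomp m n hmn])
  refine ⟨L, fun k => ?_⟩
  have := hL k
  rw [SModEq.sub_mem, smul_eq_mul, Ideal.mul_top] at this
  rw [← hf k]
  exact (Ideal.Quotient.eq.2 this).symm

/-- the limit of a compatible family. -/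
noncomputable def twdl_elim (y : ∀ k, S ⧸ I ^ k)
    (hy : ∀ k, twdl_fac I k (y (k + 1)) = y k) :
    S :=
  Classical.choose (twdl_exists_lim I y hy)

theorem twdl_elim_spec (y : ∀ k, S ⧸ I ^ k)
    (hy : ∀ k, twdl_fac I k (y (k + 1)) = y k)
    (k : ℕ) : Ideal.Quotient.mk (I ^ k) (twdl_elim I y hy) = y k :=
  Classical.choose_spec (twdl_exists_lim I y hy) k

end elim

/-! ### lifting ring homs into matrix rings -/

section liftMat

variable {R : Type*} [CommRing R] {S : Type*} [CommRing S] (I : Ideal S) [IsAdicComplete I S]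
  {d : ℕ}

/-- two matrices which agree modulo all `I ^ k` are equal. -/
theorem twdl_mat_ext {A B : Matrix (Fin d) (Fin d) S}
    (h : ∀ k, A.map (Ideal.Quotient.mk (I ^ k)) = B.map (Ideal.Quotient.mk (I ^ k))) : A = B := by
  ext i j
  refine twdl_ext I fun k => ?_
  have := congrFun (congrFun (h k) i) j
  simpa [Matrix.map_apply] using this

/-- the limit of a compatible family of matrices. -/
theorem twdl_exists_mat_lim (y : ∀ k, Matrix (Fin d) (Fin d) (S ⧸ I ^ k))
    (hy : ∀ k, (y (k + 1)).map (twdl_fac I k) = y k) :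
    ∃ A : Matrix (Fin d) (Fin d) S, ∀ k, A.map (Ideal.Quotient.mk (I ^ k)) = y k := by
  have hy' : ∀ i j k, twdl_fac I k (y (k + 1) i j) = y k i j := by
    intro i j k
    have := congrFun (congrFun (hy k) i) j
    simpa [Matrix.map_apply] using this
  refine ⟨Matrix.of fun i j => twdl_elim I (fun k => y k i j) (hy' i j), fun k => ?_⟩
  ext i j
  simp only [Matrix.map_apply, Matrix.of_apply]
  exact twdl_elim_spec I _ _ k

/-- compatible ring homs into the matrix rings over `S ⧸ I ^ k` lift to `Mat_d(S)`. -/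
theorem twdl_exists_liftMat (x : ∀ k, R →+* Matrix (Fin d) (Fin d) (S ⧸ I ^ k))
    (hx : ∀ k f, (x (k + 1) f).map (twdl_fac I k) = x k f) :
    ∃ α : R →+* Matrix (Fin d) (Fin d) S,
      ∀ k f, (α f).map (Ideal.Quotient.mk (I ^ k)) = x k f := by
  classical
  choose a ha using fun f => twdl_exists_mat_lim I (fun k => x k f) (fun k => hx k f)
  have hmap : ∀ k (A B : Matrix (Fin d) (Fin d) S),
      (A * B).map (Ideal.Quotient.mk (I ^ k)) =
        A.map (Ideal.Quotient.mk (I ^ k)) * B.map (Ideal.Quotient.mk (I ^ k)) :=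
    fun k A B => Matrix.map_mul
  refine ⟨{ toFun := a
            map_one' := ?_
            map_mul' := ?_
            map_zero' := ?_
            map_add' := ?_ }, fun k f => ha f k⟩
  · refine twdl_mat_ext I fun k => ?_
    rw [ha, map_one, Matrix.map_one _ (map_zero _) (map_one _)]
  · intro f g
    refine twdl_mat_ext I fun k => ?_
    rw [ha, map_mul, hmap, ha, ha]
  · refine twdl_mat_ext I fun k => ?_
    rw [ha, map_zero, Matrix.map_zero _ (map_zero _)]
  · intro f g
    refine twdl_mat_ext I fun k => ?_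
    rw [ha, map_add, Matrix.map_add _ (map_add _), ha, ha]

end liftMat

/-! ### ideals of a noetherian local ring are closed -/

section closed

variable {S : Type*} [CommRing S] [IsNoetherianRing S] [IsLocalRing S]

open IsLocalRing in
theorem twdl_mem_of_forall_mem_sup_pow (J : Ideal S) {x : S}
    (h : ∀ k, x ∈ J ⊔ maximalIdeal S ^ k) : x ∈ J := by
  have hK := Ideal.iInf_pow_smul_eq_bot_of_isLocalRing (R := S) (M := S ⧸ J)
    (maximalIdeal S) (Ideal.IsPrime.ne_top inferInstance)
  have hx : (Ideal.Quotient.mk J x : S ⧸ J) ∈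
      (⨅ i : ℕ, maximalIdeal S ^ i • ⊤ : Submodule S (S ⧸ J)) := by
    rw [Submodule.mem_iInf]
    intro k
    obtain ⟨a, ha, b, hb, hab⟩ := Submodule.mem_sup.1 (h k)
    have : (Ideal.Quotient.mk J x : S ⧸ J) = b • (1 : S ⧸ J) := by
      rw [← hab, map_add, Ideal.Quotient.eq_zero_iff_mem.2 ha, zero_add, Algebra.smul_def,
        mul_one]
      rfl
    rw [this]
    exact Submodule.smul_mem_smul hb Submodule.mem_top
  rw [hK, Submodule.mem_bot] at hx
  exact Ideal.Quotient.eq_zero_iff_mem.1 hx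

end closed

end Fermat.Agent.TW
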