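/-
ONE MACHINE / block [D] PATCH, leaf D/Limit, auxiliary lemmas (helper28).  Namespace
`Fermat.Agent.TW`, prefix `twd_`.  Mathlib only.

Separation (Krull intersection) lemmas used to pass identities to the patched limit:

* `twd_eq_of_forall_mk_eq`        : `I`-adically Hausdorff rings: equality may be tested modulo `I ^ k`;
* `twd_matrix_eq_of_forall_map_eq`: the same for matrices;
* `twd_mem_of_forall_mem_sup_pow` : ideals of a noetherian local ring are closed:
                                    `(∀ k, x ∈ J ⊔ 𝔪 ^ k) → x ∈ J`;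
* `twd_mem_span_of_forall_mk_mem` : the form used for congruences modulo `λ`;
* `twd_matCong_of_forall`         : entrywise version for `twd_MatCong`.
-/
import Mathlib
import Fermat.Agent.TW.Patch.Defs

set_option autoImplicit false

namespace Fermat.Agent.TW

open IsLocalRing

section Hausdorff

variable {A : Type*} [CommRing A] (I : Ideal A) [IsHausdorff I A]

theorem twd_eq_of_forall_mk_eq {x y : A}
    (h : ∀ k, Ideal.Quotient.mk (I ^ k) x = Ideal.Quotient.mk (I ^ k) y) : x = y := by
  have := IsHausdorff.funext' I (f := fun _ : Unit => x) (g := fun _ : Unit => y)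
    (fun n _ => h n)
  exact congrFun this ()

theorem twd_matrix_eq_of_forall_map_eq {d : ℕ} {X Y : Matrix (Fin d) (Fin d) A}
    (h : ∀ k, X.map (Ideal.Quotient.mk (I ^ k)) = Y.map (Ideal.Quotient.mk (I ^ k))) : X = Y := by
  ext i j
  apply twd_eq_of_forall_mk_eq I
  intro k
  have := congrFun (congrFun (h k) i) j
  simpa [Matrix.map_apply] using this

end Hausdorff

section Closed

variable {S : Type*} [CommRing S] [IsNoetherianRing S] [IsLocalRing S]

/-- ideals of a noetherian local ring are closed for the `𝔪`-adic topology. -/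
theorem twd_mem_of_forall_mem_sup_pow (J : Ideal S) {x : S}
    (h : ∀ k, x ∈ J ⊔ maximalIdeal S ^ k) : x ∈ J := by
  rw [← Ideal.Quotient.eq_zero_iff_mem]
  have hH : IsHausdorff (maximalIdeal S) (S ⧸ J) := inferInstance
  apply hH.haus
  intro k
  rw [SModEq.zero]
  obtain ⟨a, ha, b, hb, rfl⟩ := Submodule.mem_sup.1 (h k)
  have h1 : Ideal.Quotient.mk J (a + b) = b • (1 : S ⧸ J) := by
    rw [map_add, Ideal.Quotient.eq_zero_iff_mem.2 ha, zero_add, Algebra.smul_def, mul_one]
    rfl
  rw [h1]
  exact Submodule.smul_mem_smul hb Submodule.mem_top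

/-- membership in a principal ideal may be tested modulo all powers of the maximal ideal. -/
theorem twd_mem_span_of_forall_mk_mem (l : S) {x : S}
    (h : ∀ k, Ideal.Quotient.mk (maximalIdeal S ^ k) x ∈
      Ideal.span {Ideal.Quotient.mk (maximalIdeal S ^ k) l}) : x ∈ Ideal.span {l} := by
  apply twd_mem_of_forall_mem_sup_pow
  intro k
  obtain ⟨t, ht⟩ := Ideal.mem_span_singleton'.1 (h k)
  obtain ⟨t', rfl⟩ := Ideal.Quotient.mk_surjective t
  rw [← map_mul, Ideal.Quotient.eq] at ht
  have : x = t' * l + -(t' * l - x) := by ring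
  rw [this]
  exact Submodule.add_mem_sup (Ideal.mem_span_singleton'.2 ⟨t', rfl⟩) (neg_mem ht)

/-- entrywise version for `twd_MatCong`. -/
theorem twd_matCong_of_forall {d : ℕ} (l : S) {X Y : Matrix (Fin d) (Fin d) S}
    (h : ∀ k, twd_MatCong (Ideal.span {Ideal.Quotient.mk (maximalIdeal S ^ k) l})
      (X.map (Ideal.Quotient.mk (maximalIdeal S ^ k)))
      (Y.map (Ideal.Quotient.mk (maximalIdeal S ^ k)))) :
    twd_MatCong (Ideal.span {l}) X Y := by
  intro i j
  apply twd_mem_span_of_forall_mk_mem
  intro k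
  have := h k i j
  rwa [Matrix.map_apply, Matrix.map_apply, ← map_sub] at this

/-- quotients of a noetherian local ring are separated for the `𝔪`-adic topology. -/
theorem twd_quot_eq_of_forall (𝔞 : Ideal S) {x y : S ⧸ 𝔞}
    (h : ∀ k, ∃ z ∈ maximalIdeal S ^ k, x - y = Ideal.Quotient.mk 𝔞 z) : x = y := by
  rw [← sub_eq_zero]
  have hH : IsHausdorff (maximalIdeal S) (S ⧸ 𝔞) := inferInstance
  apply hH.haus
  intro k
  rw [SModEq.zero]
  obtain ⟨z, hz, hxy⟩ := h k
  have h1 : Ideal.Quotient.mk 𝔞 z = z • (1 : S ⧸ 𝔞) := by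
    rw [Algebra.smul_def, mul_one]
    rfl
  rw [hxy, h1]
  exact Submodule.smul_mem_smul hz Submodule.mem_top

end Closed

end Fermat.Agent.TW
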