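/-
ONE MACHINE / block [D] PATCH, leaf D/Limit, stage 2 (helper28).  Namespace `Fermat.Agent.TW`,
prefix `twd_`.  Mathlib only.

`twd_limit_of_approx`: from truncated data `D k` which are truncations of the level data `Lv n` at
common indices (any two depths at a time), and from lifts `α¹, α^χ, σ¹, σ^χ, P, P⁻¹, π` of the
`D k`, the patched datum `twd_Limit`.  All identities are checked modulo `𝔪 ^ k` for all `k`.
-/
import Mathlib
import Fermat.Agent.TW.Patch.LimitApprox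
import Fermat.Agent.TW.Patch.LimitAux

set_option autoImplicit false
set_option linter.style.haveILetI false
set_option linter.unusedSectionVars false
set_option linter.unusedVariables false

namespace Fermat.Agent.TW

open IsLocalRing

universe uO uS uR1 uRχ uRb uT

section MatAux

variable {A B : Type*} [CommRing A] [CommRing B] {d : ℕ}

theorem twd_matCong_map_aux (f : A →+* B) {I : Ideal A} {I' : Ideal B} (hI : I.map f ≤ I')
    {X Y : Matrix (Fin d) (Fin d) A} (h : twd_MatCong I X Y) :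
    twd_MatCong I' (X.map f) (Y.map f) := by
  intro i j
  rw [Matrix.map_apply, Matrix.map_apply, ← map_sub]
  exact hI (Ideal.mem_map_of_mem f (h i j))

theorem twd_scalar_map (f : A →+* B) (a : A) :
    (Matrix.scalar (Fin d) a).map f = Matrix.scalar (Fin d) (f a) := by
  ext i j
  by_cases hij : i = j
  · subst hij
    simp [Matrix.map_apply]
  · simp [Matrix.map_apply, Matrix.scalar_apply, Matrix.diagonal_apply_ne _ hij]

theorem twd_span_map_le (f : A →+* B) (a : A) :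
    (Ideal.span {a}).map f ≤ Ideal.span {f a} := by
  rw [Ideal.map_span, Set.image_singleton]

end MatAux

variable {O : Type uO} [CommRing O] {lam : O}
  {S : Type uS} [CommRing S] [Algebra O S] [IsLocalRing S]
  {R1 : Type uR1} [CommRing R1] [Algebra O R1] [IsLocalRing R1]
  {Rχ : Type uRχ} [CommRing Rχ] [Algebra O Rχ] [IsLocalRing Rχ]
  {Rb : Type uRb} [CommRing Rb]
  {T0 : Type uT} [CommRing T0] [Algebra O T0]
  {d : ℕ}
  {𝔞 : Ideal S} {q1 : R1 →+* Rb} {qχ : Rχ →+* Rb}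
  {j : T0 →+* Matrix (Fin d) (Fin d) (S ⧸ 𝔞)} {ν : Fin 2 → Fin 2 → R1} {β : Fin 2 → Fin 2 → T0}

section Verify

variable [IsNoetherianRing S]
  [IsHausdorff (maximalIdeal R1) R1] [IsHausdorff (maximalIdeal Rχ) Rχ]
  [IsHausdorff (Ideal.span {algebraMap O T0 lam}) T0]
  (hS : ∀ k, Finite (S ⧸ maximalIdeal S ^ k))
  (hlamS : algebraMap O S lam ∈ maximalIdeal S) (h𝔞 : 𝔞 ≠ ⊤)
  (𝔟 : ℕ → Ideal S) (h𝔟𝔞 : ∀ n, 𝔟 n ≤ 𝔞)
  (Lv : ∀ n, twd_Level O lam S R1 Rχ Rb T0 d 𝔞 (𝔟 n) (h𝔟𝔞 n) q1 qχ j ν β)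
  (D : ∀ k, twd_Approx O lam S R1 Rχ T0 d k)
  (hD : ∀ k k' : ℕ, ∃ n, (∃ h : 𝔟 n ≤ maximalIdeal S ^ k, D k = twd_red (Lv n) k h) ∧
    ∃ h' : 𝔟 n ≤ maximalIdeal S ^ k', D k' = twd_red (Lv n) k' h')
  (α1 : R1 →+* Matrix (Fin d) (Fin d) S)
  (hα1 : ∀ k, (Ideal.Quotient.mk (maximalIdeal S ^ k)).mapMatrix.comp α1 = (D k).a1)
  (αχ : Rχ →+* Matrix (Fin d) (Fin d) S)
  (hαχ : ∀ k, (Ideal.Quotient.mk (maximalIdeal S ^ k)).mapMatrix.comp αχ = (D k).aχ)
  (σ1 : S →+* R1) (hσ1 : ∀ k, (Ideal.Quotient.mk (maximalIdeal R1 ^ k)).comp σ1 = (D k).s1)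
  (σχ : S →+* Rχ) (hσχ : ∀ k, (Ideal.Quotient.mk (maximalIdeal Rχ ^ k)).comp σχ = (D k).sχ)
  (P : Matrix (Fin d) (Fin d) S)
  (hP : ∀ k, P.map (Ideal.Quotient.mk (maximalIdeal S ^ k)) = (D k).pp)
  (Pinv : Matrix (Fin d) (Fin d) S)
  (hPinv : ∀ k, Pinv.map (Ideal.Quotient.mk (maximalIdeal S ^ k)) = (D k).pi)
  (π : R1 →+* T0)
  (hπ : ∀ k, (Ideal.Quotient.mk ((Ideal.span {algebraMap O T0 lam}) ^ k)).comp π = (D k).p)

include hD hσ1 in
theorem twd_lv_σ1_algebraMap (a : O) : σ1 (algebraMap O S a) = algebraMap O R1 a := by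
  apply twd_eq_of_forall_mk_eq (maximalIdeal R1)
  intro k
  obtain ⟨n, ⟨h, hk⟩, -⟩ := hD k k
  have h1 := RingHom.congr_fun (hσ1 k) (algebraMap O S a)
  rw [RingHom.comp_apply] at h1
  rw [h1, hk]
  show Ideal.Quotient.mk _ ((Lv n).σ1 (algebraMap O S a)) = _
  rw [(Lv n).σ1_algebraMap]

include hD hσχ in
theorem twd_lv_σχ_algebraMap (a : O) : σχ (algebraMap O S a) = algebraMap O Rχ a := by
  apply twd_eq_of_forall_mk_eq (maximalIdeal Rχ)
  intro k
  obtain ⟨n, ⟨h, hk⟩, -⟩ := hD k k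
  have h1 := RingHom.congr_fun (hσχ k) (algebraMap O S a)
  rw [RingHom.comp_apply] at h1
  rw [h1, hk]
  show Ideal.Quotient.mk _ ((Lv n).σχ (algebraMap O S a)) = _
  rw [(Lv n).σχ_algebraMap]

include hD hπ in
theorem twd_lv_π_algebraMap (a : O) : π (algebraMap O R1 a) = algebraMap O T0 a := by
  apply twd_eq_of_forall_mk_eq (Ideal.span {algebraMap O T0 lam})
  intro k
  obtain ⟨n, ⟨h, hk⟩, -⟩ := hD k k
  have h1 := RingHom.congr_fun (hπ k) (algebraMap O R1 a)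
  rw [RingHom.comp_apply] at h1
  rw [h1, hk]
  show Ideal.Quotient.mk _ ((Lv n).π (algebraMap O R1 a)) = _
  rw [(Lv n).π_algebraMap]

include hD hπ in
theorem twd_lv_π_ν (i k : Fin 2) : π (ν i k) = β i k := by
  apply twd_eq_of_forall_mk_eq (Ideal.span {algebraMap O T0 lam})
  intro m
  obtain ⟨n, ⟨h, hk⟩, -⟩ := hD m m
  have h1 := RingHom.congr_fun (hπ m) (ν i k)
  rw [RingHom.comp_apply] at h1
  rw [h1, hk]
  show Ideal.Quotient.mk _ ((Lv n).π (ν i k)) = _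
  rw [(Lv n).π_ν]

include hS hD hα1 hσ1 in
theorem twd_lv_α1_σ1 (s : S) : α1 (σ1 s) = Matrix.scalar (Fin d) s := by
  apply twd_matrix_eq_of_forall_map_eq (maximalIdeal S)
  intro k
  haveI := hS k
  haveI : Finite (Matrix (Fin d) (Fin d) (S ⧸ maximalIdeal S ^ k)) := by
    unfold Matrix; infer_instance
  obtain ⟨n, ⟨h, hk⟩, ⟨h', hN⟩⟩ :=
    hD k (Nat.card (Matrix (Fin d) (Fin d) (S ⧸ maximalIdeal S ^ k)))
  have h1 := RingHom.congr_fun (hα1 k) (σ1 s)
  rw [RingHom.comp_apply, RingHom.mapMatrix_apply] at h1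
  rw [h1]
  -- `σ1 s` and `(Lv n).σ1 s` agree modulo `𝔪 ^ N`
  have h2 : σ1 s - (Lv n).σ1 s ∈
      maximalIdeal R1 ^ Nat.card (Matrix (Fin d) (Fin d) (S ⧸ maximalIdeal S ^ k)) := by
    rw [← Ideal.Quotient.eq]
    have h3 := RingHom.congr_fun
      (hσ1 (Nat.card (Matrix (Fin d) (Fin d) (S ⧸ maximalIdeal S ^ k)))) s
    rw [RingHom.comp_apply] at h3
    rw [h3, hN]
    rfl
  have h4 : (D k).a1 (σ1 s) = (D k).a1 ((Lv n).σ1 s) := by
    have := twd_maximalIdeal_pow_card_le_ker ((D k).a1) h2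
    rw [RingHom.mem_ker, map_sub, sub_eq_zero] at this
    exact this
  rw [h4, hk]
  show ((Lv n).α1 ((Lv n).σ1 s)).map (Ideal.Quotient.factor h) = _
  rw [(Lv n).α1_σ1, twd_scalar_map, twd_scalar_map, Ideal.Quotient.factor_mk]

include hS hD hαχ hσχ in
theorem twd_lv_αχ_σχ (s : S) : αχ (σχ s) = Matrix.scalar (Fin d) s := by
  apply twd_matrix_eq_of_forall_map_eq (maximalIdeal S)
  intro k
  haveI := hS k
  haveI : Finite (Matrix (Fin d) (Fin d) (S ⧸ maximalIdeal S ^ k)) := by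
    unfold Matrix; infer_instance
  obtain ⟨n, ⟨h, hk⟩, ⟨h', hN⟩⟩ :=
    hD k (Nat.card (Matrix (Fin d) (Fin d) (S ⧸ maximalIdeal S ^ k)))
  have h1 := RingHom.congr_fun (hαχ k) (σχ s)
  rw [RingHom.comp_apply, RingHom.mapMatrix_apply] at h1
  rw [h1]
  have h2 : σχ s - (Lv n).σχ s ∈
      maximalIdeal Rχ ^ Nat.card (Matrix (Fin d) (Fin d) (S ⧸ maximalIdeal S ^ k)) := by
    rw [← Ideal.Quotient.eq]
    have h3 := RingHom.congr_fun
      (hσχ (Nat.card (Matrix (Fin d) (Fin d) (S ⧸ maximalIdeal S ^ k)))) s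
    rw [RingHom.comp_apply] at h3
    rw [h3, hN]
    rfl
  have h4 : (D k).aχ (σχ s) = (D k).aχ ((Lv n).σχ s) := by
    have := twd_maximalIdeal_pow_card_le_ker ((D k).aχ) h2
    rw [RingHom.mem_ker, map_sub, sub_eq_zero] at this
    exact this
  rw [h4, hk]
  show ((Lv n).αχ ((Lv n).σχ s)).map (Ideal.Quotient.factor h) = _
  rw [(Lv n).αχ_σχ, twd_scalar_map, twd_scalar_map, Ideal.Quotient.factor_mk]

include hD hP hPinv in
theorem twd_lv_P_mul_Pinv :
    twd_MatCong (Ideal.span {algebraMap O S lam}) (P * Pinv) 1 := by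
  apply twd_matCong_of_forall
  intro k
  obtain ⟨n, ⟨h, hk⟩, -⟩ := hD k k
  have h1 : (P * Pinv).map (Ideal.Quotient.mk (maximalIdeal S ^ k)) =
      ((Lv n).P * (Lv n).Pinv).map (Ideal.Quotient.factor h) := by
    rw [Matrix.map_mul, Matrix.map_mul, hP k, hPinv k, hk]
    rfl
  have h2 : (1 : Matrix (Fin d) (Fin d) S).map (Ideal.Quotient.mk (maximalIdeal S ^ k)) =
      (1 : Matrix (Fin d) (Fin d) (S ⧸ 𝔟 n)).map (Ideal.Quotient.factor h) := by
    rw [Matrix.map_one _ (map_zero _) (map_one _), Matrix.map_one _ (map_zero _) (map_one _)]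
  rw [h1, h2]
  refine twd_matCong_map_aux (Ideal.Quotient.factor h) ?_ (Lv n).P_mul_Pinv
  refine (twd_span_map_le _ _).trans ?_
  rw [Ideal.Quotient.factor_mk]

include hD hP hPinv in
theorem twd_lv_Pinv_mul_P :
    twd_MatCong (Ideal.span {algebraMap O S lam}) (Pinv * P) 1 := by
  apply twd_matCong_of_forall
  intro k
  obtain ⟨n, ⟨h, hk⟩, -⟩ := hD k k
  have h1 : (Pinv * P).map (Ideal.Quotient.mk (maximalIdeal S ^ k)) =
      ((Lv n).Pinv * (Lv n).P).map (Ideal.Quotient.factor h) := by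
    rw [Matrix.map_mul, Matrix.map_mul, hP k, hPinv k, hk]
    rfl
  have h2 : (1 : Matrix (Fin d) (Fin d) S).map (Ideal.Quotient.mk (maximalIdeal S ^ k)) =
      (1 : Matrix (Fin d) (Fin d) (S ⧸ 𝔟 n)).map (Ideal.Quotient.factor h) := by
    rw [Matrix.map_one _ (map_zero _) (map_one _), Matrix.map_one _ (map_zero _) (map_one _)]
  rw [h1, h2]
  refine twd_matCong_map_aux (Ideal.Quotient.factor h) ?_ (Lv n).Pinv_mul_P
  refine (twd_span_map_le _ _).trans ?_
  rw [Ideal.Quotient.factor_mk]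

include hD hP hα1 hαχ in
theorem twd_lv_intertwine (f : R1) (g : Rχ) (hfg : q1 f = qχ g) :
    twd_MatCong (Ideal.span {algebraMap O S lam}) (P * α1 f) (αχ g * P) := by
  apply twd_matCong_of_forall
  intro k
  obtain ⟨n, ⟨h, hk⟩, -⟩ := hD k k
  have e1 : (α1 f).map (Ideal.Quotient.mk (maximalIdeal S ^ k)) =
      ((Lv n).α1 f).map (Ideal.Quotient.factor h) := by
    have h1 := RingHom.congr_fun (hα1 k) f
    rw [RingHom.comp_apply, RingHom.mapMatrix_apply] at h1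
    rw [h1, hk]
    rfl
  have e2 : (αχ g).map (Ideal.Quotient.mk (maximalIdeal S ^ k)) =
      ((Lv n).αχ g).map (Ideal.Quotient.factor h) := by
    have h1 := RingHom.congr_fun (hαχ k) g
    rw [RingHom.comp_apply, RingHom.mapMatrix_apply] at h1
    rw [h1, hk]
    rfl
  have e3 : P.map (Ideal.Quotient.mk (maximalIdeal S ^ k)) =
      (Lv n).P.map (Ideal.Quotient.factor h) := by
    rw [hP k, hk]
    rfl
  have h1 : (P * α1 f).map (Ideal.Quotient.mk (maximalIdeal S ^ k)) =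
      ((Lv n).P * (Lv n).α1 f).map (Ideal.Quotient.factor h) := by
    rw [Matrix.map_mul, Matrix.map_mul, e1, e3]
  have h2 : (αχ g * P).map (Ideal.Quotient.mk (maximalIdeal S ^ k)) =
      ((Lv n).αχ g * (Lv n).P).map (Ideal.Quotient.factor h) := by
    rw [Matrix.map_mul, Matrix.map_mul, e2, e3]
  rw [h1, h2]
  refine twd_matCong_map_aux (Ideal.Quotient.factor h) ?_ ((Lv n).intertwine f g hfg)
  refine (twd_span_map_le _ _).trans ?_
  rw [Ideal.Quotient.factor_mk]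

omit [IsNoetherianRing S] [IsHausdorff (maximalIdeal R1) R1] [IsHausdorff (maximalIdeal Rχ) Rχ]
  [IsHausdorff (Ideal.span {algebraMap O T0 lam}) T0] in
/-- `j` is `O`-linear (read off any level datum). -/
theorem twd_level_j_algebraMap {𝔟0 : Ideal S} {h0 : 𝔟0 ≤ 𝔞}
    (L : twd_Level O lam S R1 Rχ Rb T0 d 𝔞 𝔟0 h0 q1 qχ j ν β) (a : O) :
    j (algebraMap O T0 a) = Matrix.scalar (Fin d) (Ideal.Quotient.mk 𝔞 (algebraMap O S a)) := by
  rw [← L.π_algebraMap, ← L.α1_mod, ← L.σ1_algebraMap, L.α1_σ1, twd_scalar_map,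
    Ideal.Quotient.factor_mk]

include hlamS hD hα1 hπ in
theorem twd_lv_α1_mod (f : R1) : (α1 f).map (Ideal.Quotient.mk 𝔞) = j (π f) := by
  ext i l
  rw [Matrix.map_apply]
  apply twd_quot_eq_of_forall
  intro k
  obtain ⟨n, ⟨h, hk⟩, -⟩ := hD k k
  -- a lift of the `(i, l)` entry of `(Lv n).α1 f`
  obtain ⟨w, hw⟩ := Ideal.Quotient.mk_surjective (((Lv n).α1 f) i l)
  have ha : (α1 f) i l - w ∈ maximalIdeal S ^ k := by
    rw [← Ideal.Quotient.eq]
    have h1 := RingHom.congr_fun (hα1 k) f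
    rw [RingHom.comp_apply, RingHom.mapMatrix_apply] at h1
    have h2 := congrFun (congrFun h1 i) l
    rw [Matrix.map_apply] at h2
    rw [h2, hk]
    show (((Lv n).α1 f).map (Ideal.Quotient.factor h)) i l = _
    rw [Matrix.map_apply, ← hw, Ideal.Quotient.factor_mk]
  have hb : Ideal.Quotient.mk 𝔞 w = (j ((Lv n).π f)) i l := by
    rw [← (Lv n).α1_mod f, Matrix.map_apply, ← hw, Ideal.Quotient.factor_mk]
  -- `π f` and `(Lv n).π f` agree modulo `λ ^ k`
  have hc : π f - (Lv n).π f ∈ (Ideal.span {algebraMap O T0 lam}) ^ k := by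
    rw [← Ideal.Quotient.eq]
    have h3 := RingHom.congr_fun (hπ k) f
    rw [RingHom.comp_apply] at h3
    rw [h3, hk]
    rfl
  rw [Ideal.span_singleton_pow, Ideal.mem_span_singleton'] at hc
  obtain ⟨u, hu⟩ := hc
  obtain ⟨v, hv⟩ := Ideal.Quotient.mk_surjective ((j u) i l)
  have hd : (j (π f)) i l - (j ((Lv n).π f)) i l =
      Ideal.Quotient.mk 𝔞 (algebraMap O S lam ^ k * v) := by
    have h4 : j (π f) - j ((Lv n).π f) = j (u * algebraMap O T0 lam ^ k) := by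
      rw [hu, map_sub]
    have h5 : j (u * algebraMap O T0 lam ^ k) =
        Matrix.scalar (Fin d) (Ideal.Quotient.mk 𝔞 (algebraMap O S lam ^ k)) * j u := by
      rw [mul_comm, map_mul, map_pow, twd_level_j_algebraMap (Lv n) lam, ← map_pow, ← map_pow]
    have h6 := congrFun (congrFun h4 i) l
    rw [Matrix.sub_apply] at h6
    rw [h6, h5, Matrix.scalar_apply, Matrix.diagonal_mul, ← hv, ← map_mul]
  refine ⟨(α1 f) i l - w - algebraMap O S lam ^ k * v,
    Ideal.sub_mem _ ha (Ideal.mul_mem_right _ _ (Ideal.pow_mem_pow hlamS k)), ?_⟩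
  rw [map_sub, map_sub, ← hd, hb]
  ring

end Verify

end Fermat.Agent.TW
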