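/-
ONE MACHINE / block [D] PATCH, leaf D/Limit = theorem (D1) (helper28).  Namespace
`Fermat.Agent.TW`, prefix `twd_`.  Mathlib only.

`twd_exists_limit`: PATCHING.  From level data `Lv n` over `S ⧸ 𝔟 n` (`𝔟 n ≤ 𝔪 ^ n`) a patched datum
over `S` itself.  Route: the truncations of `Lv n` at depth `k` live in a finite type, hence are
constant along the hyperfilter of `ℕ` (`twd_exists_approx`); the constants `D k` are compatible in `k`
(joint indices); they lift by adic completeness (`LiftMat.lean` of helper25 for the matrix-valued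
ones, Mathlib's `IsAdicComplete.liftRingHom` for the others); every identity of `twd_Limit` holds
modulo `𝔪 ^ k` for all `k`, hence holds (`LimitVerify.lean`).
-/
import Mathlib
import Fermat.Agent.TW.Patch.LimitVerify
import Fermat.Agent.TW.Patch.LiftMat

set_option autoImplicit false
set_option linter.style.haveILetI false
set_option linter.unusedSectionVars false
set_option linter.unusedVariables false

namespace Fermat.Agent.TW

open IsLocalRing Filter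

universe uO uS uR1 uRχ uRb uT

variable {O : Type uO} [CommRing O] {lam : O}
  {S : Type uS} [CommRing S] [Algebra O S]
  {R1 : Type uR1} [CommRing R1] [Algebra O R1]
  {Rχ : Type uRχ} [CommRing Rχ] [Algebra O Rχ]
  {Rb : Type uRb} [CommRing Rb]
  {T0 : Type uT} [CommRing T0] [Algebra O T0]
  {d : ℕ}

/-- **(D1) PATCHING.** -/
theorem twd_exists_limit [IsNoetherianRing S] [IsLocalRing S] [IsAdicComplete (maximalIdeal S) S]
    [IsNoetherianRing R1] [IsLocalRing R1] [IsAdicComplete (maximalIdeal R1) R1]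
    [IsNoetherianRing Rχ] [IsLocalRing Rχ] [IsAdicComplete (maximalIdeal Rχ) Rχ]
    [Module.Finite O T0] [IsAdicComplete (Ideal.span {algebraMap O T0 lam}) T0]
    (hS : ∀ k, Finite (S ⧸ maximalIdeal S ^ k)) (hR1 : ∀ k, Finite (R1 ⧸ maximalIdeal R1 ^ k))
    (hRχ : ∀ k, Finite (Rχ ⧸ maximalIdeal Rχ ^ k))
    (hT0 : ∀ k, Finite (T0 ⧸ (Ideal.span {algebraMap O T0 lam}) ^ k))
    (hlamS : algebraMap O S lam ∈ maximalIdeal S) {𝔞 : Ideal S} (h𝔞 : 𝔞 ≠ ⊤)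
    (𝔟 : ℕ → Ideal S) (h𝔟𝔞 : ∀ n, 𝔟 n ≤ 𝔞) (h𝔟 : ∀ n, 𝔟 n ≤ maximalIdeal S ^ n)
    {q1 : R1 →+* Rb} {qχ : Rχ →+* Rb} {j : T0 →+* Matrix (Fin d) (Fin d) (S ⧸ 𝔞)}
    {ν : Fin 2 → Fin 2 → R1} {β : Fin 2 → Fin 2 → T0}
    (Lv : ∀ n, twd_Level O lam S R1 Rχ Rb T0 d 𝔞 (𝔟 n) (h𝔟𝔞 n) q1 qχ j ν β) :
    Nonempty (twd_Limit O lam S R1 Rχ Rb T0 d 𝔞 q1 qχ j ν β) := by
  classical
  -- stage 1: the truncated data
  obtain ⟨D, hD⟩ := twd_exists_approx hS hR1 hRχ hT0 𝔟 h𝔟𝔞 h𝔟 Lv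
  have hD2 : ∀ k k' : ℕ, ∃ n, (∃ h : 𝔟 n ≤ maximalIdeal S ^ k, D k = twd_red (Lv n) k h) ∧
      ∃ h' : 𝔟 n ≤ maximalIdeal S ^ k', D k' = twd_red (Lv n) k' h' :=
    fun k k' => ((hD k).and (hD k')).exists
  -- compatibility of the truncated data
  have hfac : ∀ (n k : ℕ) (h' : 𝔟 n ≤ maximalIdeal S ^ (k + 1)) (h : 𝔟 n ≤ maximalIdeal S ^ k)
      (X : Matrix (Fin d) (Fin d) (S ⧸ 𝔟 n)),
      (X.map (Ideal.Quotient.factor h')).map (twdl_fac (maximalIdeal S) k) =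
        X.map (Ideal.Quotient.factor h) := by
    intro n k h' h X
    ext i l
    simp only [Matrix.map_apply]
    exact Ideal.Quotient.factor_comp_apply _ _ _
  have ca1 : ∀ k f, ((D (k + 1)).a1 f).map (twdl_fac (maximalIdeal S) k) = (D k).a1 f := by
    intro k f
    obtain ⟨n, ⟨h', hk'⟩, ⟨h, hk⟩⟩ := hD2 (k + 1) k
    rw [hk', hk]
    exact hfac n k h' h _
  have caχ : ∀ k f, ((D (k + 1)).aχ f).map (twdl_fac (maximalIdeal S) k) = (D k).aχ f := by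
    intro k f
    obtain ⟨n, ⟨h', hk'⟩, ⟨h, hk⟩⟩ := hD2 (k + 1) k
    rw [hk', hk]
    exact hfac n k h' h _
  have cpp : ∀ k, ((D (k + 1)).pp).map (twdl_fac (maximalIdeal S) k) = (D k).pp := by
    intro k
    obtain ⟨n, ⟨h', hk'⟩, ⟨h, hk⟩⟩ := hD2 (k + 1) k
    rw [hk', hk]
    exact hfac n k h' h _
  have cpi : ∀ k, ((D (k + 1)).pi).map (twdl_fac (maximalIdeal S) k) = (D k).pi := by
    intro k
    obtain ⟨n, ⟨h', hk'⟩, ⟨h, hk⟩⟩ := hD2 (k + 1) k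
    rw [hk', hk]
    exact hfac n k h' h _
  have cs1 : ∀ {m n : ℕ} (hle : m ≤ n),
      (Ideal.Quotient.factorPow (maximalIdeal R1) hle).comp ((D n).s1) = (D m).s1 := by
    intro m n hle
    obtain ⟨N, ⟨h', hk'⟩, ⟨h, hk⟩⟩ := hD2 n m
    rw [hk', hk]
    show (Ideal.Quotient.factorPow (maximalIdeal R1) hle).comp
      ((Ideal.Quotient.mk _).comp (Lv N).σ1) = (Ideal.Quotient.mk _).comp (Lv N).σ1
    rw [← RingHom.comp_assoc, Ideal.Quotient.factor_comp_mk]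
  have csχ : ∀ {m n : ℕ} (hle : m ≤ n),
      (Ideal.Quotient.factorPow (maximalIdeal Rχ) hle).comp ((D n).sχ) = (D m).sχ := by
    intro m n hle
    obtain ⟨N, ⟨h', hk'⟩, ⟨h, hk⟩⟩ := hD2 n m
    rw [hk', hk]
    show (Ideal.Quotient.factorPow (maximalIdeal Rχ) hle).comp
      ((Ideal.Quotient.mk _).comp (Lv N).σχ) = (Ideal.Quotient.mk _).comp (Lv N).σχ
    rw [← RingHom.comp_assoc, Ideal.Quotient.factor_comp_mk]
  have cp : ∀ {m n : ℕ} (hle : m ≤ n),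
      (Ideal.Quotient.factorPow (Ideal.span {algebraMap O T0 lam}) hle).comp ((D n).p) =
        (D m).p := by
    intro m n hle
    obtain ⟨N, ⟨h', hk'⟩, ⟨h, hk⟩⟩ := hD2 n m
    rw [hk', hk]
    show (Ideal.Quotient.factorPow (Ideal.span {algebraMap O T0 lam}) hle).comp
      ((Ideal.Quotient.mk _).comp (Lv N).π) = (Ideal.Quotient.mk _).comp (Lv N).π
    rw [← RingHom.comp_assoc, Ideal.Quotient.factor_comp_mk]
  -- the lifts
  obtain ⟨α1, hα1'⟩ := twdl_exists_liftMat (maximalIdeal S) (fun k => (D k).a1) ca1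
  obtain ⟨αχ, hαχ'⟩ := twdl_exists_liftMat (maximalIdeal S) (fun k => (D k).aχ) caχ
  obtain ⟨P, hP⟩ := twdl_exists_mat_lim (maximalIdeal S) (fun k => (D k).pp) cpp
  obtain ⟨Pinv, hPinv⟩ := twdl_exists_mat_lim (maximalIdeal S) (fun k => (D k).pi) cpi
  have hα1 : ∀ k, (Ideal.Quotient.mk (maximalIdeal S ^ k)).mapMatrix.comp α1 = (D k).a1 :=
    fun k => RingHom.ext fun f => hα1' k f
  have hαχ : ∀ k, (Ideal.Quotient.mk (maximalIdeal S ^ k)).mapMatrix.comp αχ = (D k).aχ :=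
    fun k => RingHom.ext fun f => hαχ' k f
  have hσ1 : ∀ k, (Ideal.Quotient.mk (maximalIdeal R1 ^ k)).comp
      (IsAdicComplete.liftRingHom (maximalIdeal R1) (fun k => (D k).s1) cs1) = (D k).s1 :=
    fun k => IsAdicComplete.mk_comp_liftRingHom (maximalIdeal R1) (fun k => (D k).s1) cs1 k
  have hσχ : ∀ k, (Ideal.Quotient.mk (maximalIdeal Rχ ^ k)).comp
      (IsAdicComplete.liftRingHom (maximalIdeal Rχ) (fun k => (D k).sχ) csχ) = (D k).sχ :=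
    fun k => IsAdicComplete.mk_comp_liftRingHom (maximalIdeal Rχ) (fun k => (D k).sχ) csχ k
  have hπ : ∀ k, (Ideal.Quotient.mk ((Ideal.span {algebraMap O T0 lam}) ^ k)).comp
      (IsAdicComplete.liftRingHom (Ideal.span {algebraMap O T0 lam}) (fun k => (D k).p) cp) =
        (D k).p :=
    fun k => IsAdicComplete.mk_comp_liftRingHom (Ideal.span {algebraMap O T0 lam})
      (fun k => (D k).p) cp k
  exact ⟨{
    α1 := α1
    αχ := αχ
    σ1 := IsAdicComplete.liftRingHom (maximalIdeal R1) (fun k => (D k).s1) cs1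
    σχ := IsAdicComplete.liftRingHom (maximalIdeal Rχ) (fun k => (D k).sχ) csχ
    σ1_algebraMap := twd_lv_σ1_algebraMap 𝔟 h𝔟𝔞 Lv D hD2 _ hσ1
    σχ_algebraMap := twd_lv_σχ_algebraMap 𝔟 h𝔟𝔞 Lv D hD2 _ hσχ
    α1_σ1 := twd_lv_α1_σ1 hS 𝔟 h𝔟𝔞 Lv D hD2 α1 hα1 _ hσ1
    αχ_σχ := twd_lv_αχ_σχ hS 𝔟 h𝔟𝔞 Lv D hD2 αχ hαχ _ hσχ
    P := P
    Pinv := Pinv
    P_mul_Pinv := twd_lv_P_mul_Pinv 𝔟 h𝔟𝔞 Lv D hD2 P hP Pinv hPinv
    Pinv_mul_P := twd_lv_Pinv_mul_P 𝔟 h𝔟𝔞 Lv D hD2 P hP Pinv hPinv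
    intertwine := twd_lv_intertwine 𝔟 h𝔟𝔞 Lv D hD2 α1 hα1 αχ hαχ P hP
    π := IsAdicComplete.liftRingHom (Ideal.span {algebraMap O T0 lam}) (fun k => (D k).p) cp
    π_algebraMap := twd_lv_π_algebraMap 𝔟 h𝔟𝔞 Lv D hD2 _ hπ
    α1_mod := twd_lv_α1_mod hlamS 𝔟 h𝔟𝔞 Lv D hD2 α1 hα1 _ hπ
    π_ν := twd_lv_π_ν 𝔟 h𝔟𝔞 Lv D hD2 _ hπ }⟩

end Fermat.Agent.TW
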