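/-
ONE MACHINE / block [D] PATCH, node (M6) in its FINAL seam form (helper25).  Prefix `twd_`.

`twd_main_supp` = (D1) `twd_exists_limit` (helper28) + `twd_endgame_of_supp` (helper12): the local
input `hη` of block [B] is asked only at primes `𝔭` of `Rχ` of characteristic zero with
`dim S ≤ dim (Rχ ⧸ 𝔭)` (the generic points of the support of the patched `χ`-module are such primes)
and does NOT mention the patched datum.  No hypothesis on `Rχ` beyond the instances needed for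
patching (noetherian local complete with finite quotients): no irreducibility, no dimension bound.
-/
import Mathlib
import Fermat.Agent.TW.Patch.Defs
import Fermat.Agent.TW.Patch.Limit
import Fermat.Agent.TW.Patch.EndgameSupp

set_option autoImplicit false

namespace Fermat.Agent.TW

open IsLocalRing

universe uO uS uR1 uRχ uRb uT

variable {O : Type uO} [CommRing O] {lam : O}
  {S : Type uS} [CommRing S] [Algebra O S]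
  {R1 : Type uR1} [CommRing R1] [Algebra O R1]
  {Rχ : Type uRχ} [CommRing Rχ] [Algebra O Rχ]
  {Rb : Type uRb} [CommRing Rb]
  {T0 : Type uT} [CommRing T0] [Algebra O T0]
  {d : ℕ}

/-- the endgame with the `L`-free form of the local input `hη`. -/
theorem twd_endgame_of_supp' [IsDomain S] [Module.Finite O T0] (hd : 0 < d)
    (hlamS : algebraMap O S lam ≠ 0)
    {𝔞 : Ideal S} (h𝔞 : 𝔞.IsPrime) (hlam𝔞 : algebraMap O S lam ∉ 𝔞)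
    {q1 : R1 →+* Rb} {qχ : Rχ →+* Rb} (hqχ : Function.Surjective qχ)
    (hkerχ : RingHom.ker qχ = Ideal.span {algebraMap O Rχ lam})
    {j : T0 →+* Matrix (Fin d) (Fin d) (S ⧸ 𝔞)}
    {ν : Fin 2 → Fin 2 → R1} {β : Fin 2 → Fin 2 → T0}
    (L : twd_Limit O lam S R1 Rχ Rb T0 d 𝔞 q1 qχ j ν β)
    (τ : R1)
    (hU : ∀ 𝔭 : Ideal R1, 𝔭.IsPrime → algebraMap O R1 lam ∉ 𝔭 → (∃ i k, ν i k ∉ 𝔭) → τ ∈ 𝔭)
    (hη : ∀ 𝔭 : Ideal Rχ, 𝔭.IsPrime → algebraMap O Rχ lam ∉ 𝔭 →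
      ringKrullDim S ≤ ringKrullDim (Rχ ⧸ 𝔭) →
      ∃ ηb : Ideal Rb, ηb.IsPrime ∧ 𝔭 ≤ ηb.comap qχ ∧ q1 τ ∉ ηb) :
    ∃ 𝔓 : Ideal T0, 𝔓.IsPrime ∧ algebraMap O T0 lam ∉ 𝔓 ∧ ∀ i k, β i k ∈ 𝔓 := by
  refine twd_endgame_of_supp hd hlamS h𝔞 hlam𝔞 hqχ hkerχ L τ hU ?_
  intro 𝔭 h𝔭 h0 hdim
  refine hη 𝔭 h𝔭.1.1 ?_ hdim
  intro hmem
  rw [← L.σχ_algebraMap] at hmem
  exact hlamS (h0 _ hmem)

/-- **(M6) = [D] PATCH, main theorem, support form**: level data + the inputs of [B] give a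
characteristic-zero prime of `T₀` containing `β`. -/
theorem twd_main_supp [IsDomain S]
    [IsNoetherianRing S] [IsLocalRing S] [IsAdicComplete (maximalIdeal S) S]
    [IsNoetherianRing R1] [IsLocalRing R1] [IsAdicComplete (maximalIdeal R1) R1]
    [IsNoetherianRing Rχ] [IsLocalRing Rχ] [IsAdicComplete (maximalIdeal Rχ) Rχ]
    [Module.Finite O T0] [IsAdicComplete (Ideal.span {algebraMap O T0 lam}) T0]
    (hd : 0 < d)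
    (hS : ∀ k, Finite (S ⧸ maximalIdeal S ^ k)) (hR1 : ∀ k, Finite (R1 ⧸ maximalIdeal R1 ^ k))
    (hRχ : ∀ k, Finite (Rχ ⧸ maximalIdeal Rχ ^ k))
    (hT0 : ∀ k, Finite (T0 ⧸ (Ideal.span {algebraMap O T0 lam}) ^ k))
    (hlamS : algebraMap O S lam ∈ maximalIdeal S) (hlamS0 : algebraMap O S lam ≠ 0)
    {𝔞 : Ideal S} (h𝔞 : 𝔞.IsPrime) (hlam𝔞 : algebraMap O S lam ∉ 𝔞)
    (𝔟 : ℕ → Ideal S) (h𝔟𝔞 : ∀ n, 𝔟 n ≤ 𝔞) (h𝔟 : ∀ n, 𝔟 n ≤ maximalIdeal S ^ n)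
    {q1 : R1 →+* Rb} {qχ : Rχ →+* Rb} (hqχ : Function.Surjective qχ)
    (hkerχ : RingHom.ker qχ = Ideal.span {algebraMap O Rχ lam})
    {j : T0 →+* Matrix (Fin d) (Fin d) (S ⧸ 𝔞)}
    {ν : Fin 2 → Fin 2 → R1} {β : Fin 2 → Fin 2 → T0}
    (Lv : ∀ n, twd_Level O lam S R1 Rχ Rb T0 d 𝔞 (𝔟 n) (h𝔟𝔞 n) q1 qχ j ν β)
    (τ : R1)
    (hU : ∀ 𝔭 : Ideal R1, 𝔭.IsPrime → algebraMap O R1 lam ∉ 𝔭 → (∃ i k, ν i k ∉ 𝔭) → τ ∈ 𝔭)
    (hη : ∀ 𝔭 : Ideal Rχ, 𝔭.IsPrime → algebraMap O Rχ lam ∉ 𝔭 →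
      ringKrullDim S ≤ ringKrullDim (Rχ ⧸ 𝔭) →
      ∃ ηb : Ideal Rb, ηb.IsPrime ∧ 𝔭 ≤ ηb.comap qχ ∧ q1 τ ∉ ηb) :
    ∃ 𝔓 : Ideal T0, 𝔓.IsPrime ∧ algebraMap O T0 lam ∉ 𝔓 ∧ ∀ i k, β i k ∈ 𝔓 := by
  obtain ⟨L⟩ := twd_exists_limit hS hR1 hRχ hT0 hlamS h𝔞.ne_top 𝔟 h𝔟𝔞 h𝔟 Lv
  exact twd_endgame_of_supp' hd hlamS0 h𝔞 hlam𝔞 hqχ hkerχ L τ hU hη

end Fermat.Agent.TW
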