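/-
ONE MACHINE / block [D] PATCH: the `T₀`-side instance obligations of `twd_main_supp` (helper25).
Prefix `twd_t0_`.

* `twd_t0_isAdicComplete_of_le` : a noetherian local ring which is `𝔪`-adically complete is
  `J`-adically complete for every ideal `J ≤ 𝔪` (ideals are closed: Krull);
* `twd_t0_finite_of_killed` : a finitely generated module over a local ring `𝒪` with finite
  quotients `𝒪 ⧸ 𝔪 ^ k` which is killed by `𝔪 ^ k` is finite;
* `twd_t0_finite_quot` : for `T` module-finite over such an `𝒪` with `𝔪_𝒪 = (λ)`: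
  `T ⧸ (λ) ^ k` is finite;
* `twd_t0_isAdicComplete` : for `T` local noetherian `𝔪_T`-adically complete, `𝒪 → T` local:
  `T` is `(λ)`-adically complete.
-/
import Mathlib
import Fermat.Agent.TW.Patch.LiftMat

set_option autoImplicit false
set_option linter.style.haveILetI false

namespace Fermat.Agent.TW

open IsLocalRing

/-- a noetherian local ring which is `𝔪`-adically complete is `J`-adically complete for every
`J ≤ 𝔪`. -/
theorem twd_t0_isAdicComplete_of_le {T : Type*} [CommRing T] [IsNoetherianRing T] [IsLocalRing T]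
    [IsAdicComplete (maximalIdeal T) T] (J : Ideal T) (hJ : J ≤ maximalIdeal T) :
    IsAdicComplete J T := by
  have hH : IsHausdorff J T := by
    refine ⟨fun x hx => ?_⟩
    refine IsHausdorff.haus (inferInstance : IsHausdorff (maximalIdeal T) T) x fun n => ?_
    have h1 := hx n
    rw [SModEq.zero, smul_eq_mul, Ideal.mul_top] at h1 ⊢
    exact Ideal.pow_right_mono hJ n h1
  have hP : IsPrecomplete J T := by
    refine ⟨fun f hf => ?_⟩
    have hf' : ∀ {m n}, m ≤ n → f m ≡ f n [SMOD (maximalIdeal T ^ m • ⊤ : Submodule T T)] := by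
      intro m n hmn
      have h1 := hf hmn
      rw [SModEq.sub_mem, smul_eq_mul, Ideal.mul_top] at h1 ⊢
      exact Ideal.pow_right_mono hJ m h1
    obtain ⟨L, hL⟩ := IsPrecomplete.prec (inferInstance : IsPrecomplete (maximalIdeal T) T) hf'
    refine ⟨L, fun n => ?_⟩
    rw [SModEq.sub_mem, smul_eq_mul, Ideal.mul_top]
    apply twdl_mem_of_forall_mem_sup_pow (J ^ n)
    intro k
    have h1 := hf (le_max_left n k)
    have h2 := hL (max n k)
    rw [SModEq.sub_mem, smul_eq_mul, Ideal.mul_top] at h1 h2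
    have h3 : f n - L = (f n - f (max n k)) + (f (max n k) - L) := by ring
    rw [h3]
    exact Submodule.add_mem_sup h1 (Ideal.pow_le_pow_right (le_max_right n k) h2)
  exact { toIsHausdorff := hH, toIsPrecomplete := hP }

/-- a finitely generated `𝒪`-module killed by `I` is finite when `𝒪 ⧸ I` is finite. -/
theorem twd_t0_finite_of_killed {𝒪 M : Type*} [CommRing 𝒪] [AddCommGroup M] [Module 𝒪 M]
    [Module.Finite 𝒪 M] (I : Ideal 𝒪) [Finite (𝒪 ⧸ I)] (hI : ∀ a ∈ I, ∀ m : M, a • m = 0) :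
    Finite M := by
  obtain ⟨n, g, hg⟩ := Module.Finite.exists_fin' 𝒪 M
  let φ : (Fin n → 𝒪 ⧸ I) → M := fun y => g fun i => Quotient.out (y i)
  refine Finite.of_surjective φ fun m => ?_
  obtain ⟨x, rfl⟩ := hg m
  refine ⟨fun i => Ideal.Quotient.mk I (x i), ?_⟩
  change g (fun i => Quotient.out (Ideal.Quotient.mk I (x i))) = g x
  rw [← sub_eq_zero, ← map_sub]
  have hd : ∀ i, (Quotient.out (Ideal.Quotient.mk I (x i)) - x i) ∈ I := by
    intro i
    rw [← Ideal.Quotient.eq]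
    exact Quotient.out_eq _
  have hdecomp : ((fun i => Quotient.out (Ideal.Quotient.mk I (x i))) - x : Fin n → 𝒪) =
      ∑ i, (Quotient.out (Ideal.Quotient.mk I (x i)) - x i) • (Pi.single i (1 : 𝒪) : Fin n → 𝒪) := by
    ext j
    simp [Finset.sum_apply, Pi.single_apply]
  rw [hdecomp, map_sum]
  refine Finset.sum_eq_zero fun i _ => ?_
  rw [map_smul]
  exact hI _ (hd i) _

/-- `T ⧸ (λ) ^ k` is finite for `T` module-finite over `𝒪` with `𝔪_𝒪 = (λ)` and finite
residue field. -/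
theorem twd_t0_finite_quot {𝒪 T : Type*} [CommRing 𝒪] [IsLocalRing 𝒪] [IsNoetherianRing 𝒪]
    [Finite (ResidueField 𝒪)] [CommRing T] [Algebra 𝒪 T] [Module.Finite 𝒪 T] (lam : 𝒪)
    (hlam : maximalIdeal 𝒪 = Ideal.span {lam}) (k : ℕ) :
    Finite (T ⧸ (Ideal.span {algebraMap 𝒪 T lam}) ^ k) := by
  haveI : Finite (𝒪 ⧸ maximalIdeal 𝒪) := ‹Finite (ResidueField 𝒪)›
  haveI : Finite (𝒪 ⧸ maximalIdeal 𝒪 ^ k) :=
    Ideal.finite_quotient_pow (IsNoetherian.noetherian _) k
  haveI : Module.Finite 𝒪 (T ⧸ (Ideal.span {algebraMap 𝒪 T lam}) ^ k) :=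
    Module.Finite.of_surjective (Ideal.Quotient.mkₐ 𝒪 _).toLinearMap
      (Ideal.Quotient.mkₐ_surjective 𝒪 _)
  refine twd_t0_finite_of_killed (maximalIdeal 𝒪 ^ k) ?_
  intro a ha m
  obtain ⟨t, rfl⟩ := Ideal.Quotient.mk_surjective m
  rw [hlam, Ideal.span_singleton_pow, Ideal.mem_span_singleton] at ha
  obtain ⟨c, rfl⟩ := ha
  rw [Algebra.smul_def,
    IsScalarTower.algebraMap_apply 𝒪 T (T ⧸ (Ideal.span {algebraMap 𝒪 T lam}) ^ k),
    Ideal.Quotient.algebraMap_eq, ← map_mul, Ideal.Quotient.eq_zero_iff_mem,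
    Ideal.span_singleton_pow, Ideal.mem_span_singleton, map_mul, map_pow]
  exact ⟨algebraMap 𝒪 T c * t, by ring⟩

/-- `T` is `(λ)`-adically complete. -/
theorem twd_t0_isAdicComplete {𝒪 T : Type*} [CommRing 𝒪] [IsLocalRing 𝒪] [CommRing T]
    [IsNoetherianRing T] [IsLocalRing T] [IsAdicComplete (maximalIdeal T) T] [Algebra 𝒪 T]
    [IsLocalHom (algebraMap 𝒪 T)] {lam : 𝒪} (hlam : lam ∈ maximalIdeal 𝒪) :
    IsAdicComplete (Ideal.span {algebraMap 𝒪 T lam}) T := by
  refine twd_t0_isAdicComplete_of_le _ ?_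
  rw [Ideal.span_le, Set.singleton_subset_iff]
  exact map_nonunit (algebraMap 𝒪 T) lam hlam

end Fermat.Agent.TW
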