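/-
ONE MACHINE / block [D] PATCH, leaf D/FiniteHom (helper28).  Namespace `Fermat.Agent.TW`,
prefix `twd_`.  Mathlib only.

A local ring `R` all of whose quotients `R ⧸ 𝔪 ^ k` are finite has only finitely many ring
homomorphisms into a given finite ring `B` (not necessarily commutative): every homomorphism kills
`𝔪 ^ card B`.

* `twd_maximalIdeal_pow_card_eq_bot` : in a finite local ring `A`, `𝔪 ^ card A = ⊥`;
* `twd_maximalIdeal_pow_card_le_ker` : `𝔪 ^ card B ≤ ker f` for every `f : R →+* B`, `B` finite;
* `twd_finite_ringHom`               : `Finite (R →+* B)`.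
-/
import Mathlib

set_option autoImplicit false
set_option linter.style.haveILetI false

namespace Fermat.Agent.TW

open IsLocalRing

/-- in a finite local ring the `card`-th power of the maximal ideal vanishes. -/
theorem twd_maximalIdeal_pow_card_eq_bot (A : Type*) [CommRing A] [IsLocalRing A] [Finite A] :
    maximalIdeal A ^ Nat.card A = ⊥ := by
  classical
  -- strict decrease of the powers as long as they are nonzero
  have hstrict : ∀ k, maximalIdeal A ^ k ≠ ⊥ → maximalIdeal A ^ (k + 1) < maximalIdeal A ^ k := by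
    intro k hk
    refine lt_of_le_of_ne (Ideal.pow_le_pow_right (Nat.le_succ k)) fun heq => hk ?_
    have hfg : (maximalIdeal A ^ k : Submodule A A).FG := IsNoetherian.noetherian _
    refine Submodule.eq_bot_of_le_smul_of_le_jacobson_bot (maximalIdeal A) _ hfg ?_
      (IsLocalRing.jacobson_eq_maximalIdeal ⊥ bot_ne_top).ge
    rw [smul_eq_mul, ← pow_succ', heq]
  have hcount : ∀ k, maximalIdeal A ^ k ≠ ⊥ →
      Set.ncard ((maximalIdeal A ^ k : Ideal A) : Set A) + k ≤ Nat.card A := by
    intro k
    induction k with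
    | zero =>
      intro _
      rw [pow_zero, Ideal.one_eq_top, Submodule.top_coe, Set.ncard_univ, add_zero]
    | succ k ih =>
      intro hk
      have hk' : maximalIdeal A ^ k ≠ ⊥ := by
        intro h0
        apply hk
        rw [pow_succ, h0, Ideal.bot_mul]
      have h1 := ih hk'
      have h2 : Set.ncard ((maximalIdeal A ^ (k + 1) : Ideal A) : Set A) <
          Set.ncard ((maximalIdeal A ^ k : Ideal A) : Set A) :=
        Set.ncard_lt_ncard (SetLike.coe_ssubset_coe.2 (hstrict k hk')) (Set.toFinite _)
      omega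
  by_contra hne
  have h1 := hcount (Nat.card A) hne
  have h2 : 0 < Set.ncard ((maximalIdeal A ^ Nat.card A : Ideal A) : Set A) :=
    (Set.ncard_pos (Set.toFinite _)).2 ⟨0, Ideal.zero_mem _⟩
  omega

variable {R : Type*} [CommRing R] [IsLocalRing R]

/-- every ring homomorphism from a local ring to a finite ring kills `𝔪 ^ card B`. -/
theorem twd_maximalIdeal_pow_card_le_ker {B : Type*} [Ring B] [Finite B] (f : R →+* B) :
    maximalIdeal R ^ Nat.card B ≤ RingHom.ker f := by
  classical
  rcases subsingleton_or_nontrivial B with hB | hB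
  · intro x _
    rw [RingHom.mem_ker]
    exact Subsingleton.elim _ _
  set I := RingHom.ker f with hI
  have hItop : I ≠ ⊤ := RingHom.ker_ne_top f
  have hIm : I ≤ maximalIdeal R := IsLocalRing.le_maximalIdeal hItop
  haveI : Nontrivial (R ⧸ I) := Ideal.Quotient.nontrivial_iff.2 hItop
  haveI : IsLocalRing (R ⧸ I) :=
    IsLocalRing.of_surjective' (Ideal.Quotient.mk I) Ideal.Quotient.mk_surjective
  have hinj : Function.Injective (RingHom.kerLift f) := RingHom.kerLift_injective f
  haveI : Finite (R ⧸ I) := Finite.of_injective _ hinj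
  have hcard : Nat.card (R ⧸ I) ≤ Nat.card B := Nat.card_le_card_of_injective _ hinj
  -- the maximal ideal maps into the maximal ideal
  have hmap : (maximalIdeal R).map (Ideal.Quotient.mk I) ≤ maximalIdeal (R ⧸ I) := by
    rw [Ideal.map_le_iff_le_comap]
    intro x hx
    rw [Ideal.mem_comap, mem_maximalIdeal, mem_nonunits_iff]
    intro hu
    obtain ⟨y, hy⟩ := hu.exists_right_inv
    obtain ⟨y', rfl⟩ := Ideal.Quotient.mk_surjective y
    rw [← map_mul, ← map_one (Ideal.Quotient.mk I), Ideal.Quotient.eq] at hy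
    have h1 : x * y' - 1 ∈ maximalIdeal R := hIm hy
    have h2 : x * y' ∈ maximalIdeal R := Ideal.mul_mem_right _ _ hx
    have h3 : (1 : R) ∈ maximalIdeal R := by
      have := Ideal.sub_mem _ h2 h1
      rwa [sub_sub_cancel] at this
    exact (Ideal.ne_top_iff_one _).1 (maximalIdeal.isMaximal R).ne_top h3
  intro x hx
  have h1 : Ideal.Quotient.mk I x ∈ ((maximalIdeal R) ^ Nat.card B).map (Ideal.Quotient.mk I) :=
    Ideal.mem_map_of_mem _ hx
  rw [Ideal.map_pow] at h1
  have h2 : Ideal.Quotient.mk I x ∈ maximalIdeal (R ⧸ I) ^ Nat.card (R ⧸ I) :=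
    Ideal.pow_le_pow_right hcard (Ideal.pow_right_mono hmap _ h1)
  rw [twd_maximalIdeal_pow_card_eq_bot, Ideal.mem_bot, Ideal.Quotient.eq_zero_iff_mem] at h2
  exact h2

/-- **D/FiniteHom**: a local ring with finite quotients `R ⧸ 𝔪 ^ k` has only finitely many ring
homomorphisms into a finite ring. -/
theorem twd_finite_ringHom (h : ∀ k, Finite (R ⧸ maximalIdeal R ^ k)) (B : Type*) [Ring B]
    [Finite B] : Finite (R →+* B) := by
  classical
  haveI := h (Nat.card B)
  let Φ : (R →+* B) → (R ⧸ maximalIdeal R ^ Nat.card B → B) := fun f =>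
    ⇑(Ideal.Quotient.lift (maximalIdeal R ^ Nat.card B) f
      (fun x hx => twd_maximalIdeal_pow_card_le_ker f hx))
  refine Finite.of_injective Φ ?_
  intro f g hfg
  ext x
  have := congrFun hfg (Ideal.Quotient.mk _ x)
  simpa [Φ] using this

end Fermat.Agent.TW
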