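/-
ONE MACHINE / block [D] PATCH, cell D/AdicLimit (helper10): limits of compatible families modulo
`I ^ k` in an `I`-adically complete commutative ring `S`: elements, matrices, and ring homomorphisms
`R →+* Matrix (Fin d) (Fin d) S` (non-commutative target, so `IsAdicComplete.liftRingHom` does not
apply).  Mathlib only.  Prefix `twd_adic_`.

* `twd_adic_exists_unique`      : a compatible family `a k ∈ S ⧸ I ^ k` is the family of residues of a
  unique `s : S`;
* `twd_adic_ext`, `twd_adic_matrix_ext` : separatedness (elements, matrices);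
* `twd_adic_exists_unique_matrix` : the same for matrices;
* `twd_adic_exists_unique_ringHom` : a compatible family of ring homs
  `x k : R →+* Matrix (Fin d) (Fin d) (S ⧸ I ^ k)` lifts uniquely to `R →+* Matrix (Fin d) (Fin d) S`;
* `twd_adic_compat_of_succ*`    : compatibility for `k ↦ k + 1` implies compatibility for `m ≤ n`.
-/
import Mathlib

set_option autoImplicit false

namespace Fermat.Agent.TW

open Ideal

variable {S : Type*} [CommRing S] (I : Ideal S)

/-! ### separatedness -/

theorem twd_adic_smul_top (k : ℕ) : (I ^ k • ⊤ : Submodule S S) = I ^ k := by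
  rw [smul_eq_mul, Ideal.mul_top]

/-- two elements with the same residues modulo all `I ^ k` are equal. -/
theorem twd_adic_ext [IsHausdorff I S] {s s' : S}
    (h : ∀ k, Ideal.Quotient.mk (I ^ k) s = Ideal.Quotient.mk (I ^ k) s') : s = s' := by
  rw [← sub_eq_zero]
  apply IsHausdorff.haus ‹IsHausdorff I S›
  intro k
  rw [SModEq.sub_mem, sub_zero, twd_adic_smul_top]
  exact Ideal.Quotient.eq.1 (h k)

/-- two matrices with the same residues modulo all `I ^ k` are equal. -/
theorem twd_adic_matrix_ext [IsHausdorff I S] {m n : Type*} {X Y : Matrix m n S}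
    (h : ∀ k, X.map (Ideal.Quotient.mk (I ^ k)) = Y.map (Ideal.Quotient.mk (I ^ k))) : X = Y := by
  ext i j
  apply twd_adic_ext I
  intro k
  have := congrFun (congrFun (h k) i) j
  simpa only [Matrix.map_apply] using this

/-! ### compatibility from successive compatibility -/

/-- compatibility of a family of elements under `k + 1 → k` implies compatibility under `n → m`. -/
theorem twd_adic_compat_of_succ (a : ∀ k, S ⧸ I ^ k)
    (ha : ∀ k, Ideal.Quotient.factor (Ideal.pow_le_pow_right (Nat.le_add_right k 1)) (a (k + 1)) = a k)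
    {m n : ℕ} (hle : m ≤ n) :
    Ideal.Quotient.factor (Ideal.pow_le_pow_right hle) (a n) = a m := by
  induction n, hle using Nat.le_induction with
  | base =>
    obtain ⟨s, hs⟩ := Ideal.Quotient.mk_surjective (a m)
    rw [← hs, Ideal.Quotient.factor_mk]
  | succ n hmn ih =>
    rw [← ih, ← ha n]
    obtain ⟨s, hs⟩ := Ideal.Quotient.mk_surjective (a (n + 1))
    rw [← hs, Ideal.Quotient.factor_mk, Ideal.Quotient.factor_mk, Ideal.Quotient.factor_mk]

/-! ### limits of elements -/

/-- **limit of a compatible family of residues** in an adically complete ring. -/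
theorem twd_adic_exists_unique [IsAdicComplete I S] (a : ∀ k, S ⧸ I ^ k)
    (ha : ∀ {m n : ℕ} (hle : m ≤ n),
      Ideal.Quotient.factor (Ideal.pow_le_pow_right hle) (a n) = a m) :
    ∃! s : S, ∀ k, Ideal.Quotient.mk (I ^ k) s = a k := by
  choose r hr using fun k => Ideal.Quotient.mk_surjective (a k)
  have hcauchy : ∀ {m n : ℕ}, m ≤ n → r m ≡ r n [SMOD (I ^ m • ⊤ : Submodule S S)] := by
    intro m n hle
    rw [SModEq.sub_mem, twd_adic_smul_top]
    apply Ideal.Quotient.eq.1
    rw [hr m, ← ha hle, ← hr n, Ideal.Quotient.factor_mk]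
  obtain ⟨L, hL⟩ := IsPrecomplete.prec (IsAdicComplete.toIsPrecomplete (I := I) (M := S)) hcauchy
  have hLk : ∀ k, Ideal.Quotient.mk (I ^ k) L = a k := by
    intro k
    have := hL k
    rw [SModEq.sub_mem, twd_adic_smul_top] at this
    rw [← hr k]
    exact (Ideal.Quotient.eq.2 this).symm
  refine ⟨L, hLk, fun s hs => ?_⟩
  apply twd_adic_ext I
  intro k
  rw [hs k, hLk k]

/-! ### limits of matrices -/

/-- **limit of a compatible family of matrices.** -/
theorem twd_adic_exists_unique_matrix [IsAdicComplete I S] {m n : Type*}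
    (X : ∀ k, Matrix m n (S ⧸ I ^ k))
    (hX : ∀ {k l : ℕ} (hle : k ≤ l),
      (X l).map (Ideal.Quotient.factor (Ideal.pow_le_pow_right hle)) = X k) :
    ∃! Y : Matrix m n S, ∀ k, Y.map (Ideal.Quotient.mk (I ^ k)) = X k := by
  have hentry : ∀ i j, ∃! s : S, ∀ k, Ideal.Quotient.mk (I ^ k) s = X k i j := by
    intro i j
    apply twd_adic_exists_unique I (fun k => X k i j)
    intro k l hle
    have := congrFun (congrFun (hX hle) i) j
    simpa only [Matrix.map_apply] using this
  choose Y hY _ using hentry
  refine ⟨Matrix.of Y, fun k => ?_, fun Y' hY' => ?_⟩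
  · ext i j
    rw [Matrix.map_apply, Matrix.of_apply]
    exact hY i j k
  · apply twd_adic_matrix_ext I
    intro k
    rw [hY' k]
    ext i j
    rw [Matrix.map_apply, Matrix.of_apply]
    exact (hY i j k).symm

/-- successive compatibility for matrices. -/
theorem twd_adic_matrix_compat_of_succ {m n : Type*} (X : ∀ k, Matrix m n (S ⧸ I ^ k))
    (hX : ∀ k, (X (k + 1)).map
      (Ideal.Quotient.factor (Ideal.pow_le_pow_right (Nat.le_add_right k 1))) = X k)
    {k l : ℕ} (hle : k ≤ l) :
    (X l).map (Ideal.Quotient.factor (Ideal.pow_le_pow_right hle)) = X k := by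
  ext i j
  rw [Matrix.map_apply]
  refine twd_adic_compat_of_succ I (fun k => X k i j) (fun k => ?_) hle
  have := congrFun (congrFun (hX k) i) j
  simpa only [Matrix.map_apply] using this

/-! ### limits of ring homomorphisms into matrices -/

section ringHom

variable {R : Type*} [NonAssocSemiring R] {d : Type*} [Fintype d] [DecidableEq d]

/-- **limit of a compatible family of ring homomorphisms into matrix rings**: existence. -/
theorem twd_adic_exists_ringHom [IsAdicComplete I S]
    (x : ∀ k, R →+* Matrix d d (S ⧸ I ^ k))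
    (hx : ∀ {k l : ℕ} (hle : k ≤ l) (r : R),
      (x l r).map (Ideal.Quotient.factor (Ideal.pow_le_pow_right hle)) = x k r) :
    ∃ y : R →+* Matrix d d S, ∀ k r, (y r).map (Ideal.Quotient.mk (I ^ k)) = x k r := by
  have hex : ∀ r : R, ∃! Y : Matrix d d S, ∀ k, Y.map (Ideal.Quotient.mk (I ^ k)) = x k r :=
    fun r => twd_adic_exists_unique_matrix I (fun k => x k r) (fun hle => hx hle r)
  choose y hy _ using hex
  have hone : (1 : Matrix d d S) = y 1 := by
    apply twd_adic_matrix_ext I
    intro k
    rw [hy 1 k, map_one, Matrix.map_one _ (map_zero _) (map_one _)]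
  have hmul : ∀ r r', y (r * r') = y r * y r' := by
    intro r r'
    apply twd_adic_matrix_ext I
    intro k
    rw [hy _ k, map_mul, Matrix.map_mul, hy r k, hy r' k]
  have hzero : y 0 = 0 := by
    apply twd_adic_matrix_ext I
    intro k
    rw [hy 0 k, map_zero, Matrix.map_zero _ (map_zero _)]
  have hadd : ∀ r r', y (r + r') = y r + y r' := by
    intro r r'
    apply twd_adic_matrix_ext I
    intro k
    rw [hy _ k, map_add, Matrix.map_add _ (map_add _), hy r k, hy r' k]
  exact ⟨⟨⟨⟨y, hone.symm⟩, hmul⟩, hzero, hadd⟩, fun k r => hy r k⟩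

/-- uniqueness of the limit. -/
theorem twd_adic_ringHom_ext [IsHausdorff I S] {y y' : R →+* Matrix d d S}
    (h : ∀ k r, (y r).map (Ideal.Quotient.mk (I ^ k)) = (y' r).map (Ideal.Quotient.mk (I ^ k))) :
    y = y' := by
  ext r : 1
  exact twd_adic_matrix_ext I fun k => h k r

/-- **limit of a compatible family of ring homomorphisms into matrix rings.** -/
theorem twd_adic_exists_unique_ringHom [IsAdicComplete I S]
    (x : ∀ k, R →+* Matrix d d (S ⧸ I ^ k))
    (hx : ∀ {k l : ℕ} (hle : k ≤ l) (r : R),
      (x l r).map (Ideal.Quotient.factor (Ideal.pow_le_pow_right hle)) = x k r) :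
    ∃! y : R →+* Matrix d d S, ∀ k r, (y r).map (Ideal.Quotient.mk (I ^ k)) = x k r := by
  obtain ⟨y, hy⟩ := twd_adic_exists_ringHom I x hx
  refine ⟨y, hy, fun y' hy' => ?_⟩
  apply twd_adic_ringHom_ext I
  intro k r
  rw [hy k r, hy' k r]

/-- successive compatibility for ring homomorphisms into matrices. -/
theorem twd_adic_ringHom_compat_of_succ (x : ∀ k, R →+* Matrix d d (S ⧸ I ^ k))
    (hx : ∀ k (r : R), (x (k + 1) r).map
      (Ideal.Quotient.factor (Ideal.pow_le_pow_right (Nat.le_add_right k 1))) = x k r)
    {k l : ℕ} (hle : k ≤ l) (r : R) :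
    (x l r).map (Ideal.Quotient.factor (Ideal.pow_le_pow_right hle)) = x k r :=
  twd_adic_matrix_compat_of_succ I (fun k => x k r) (fun k => hx k r) hle

end ringHom

end Fermat.Agent.TW
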