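/-
ONE MACHINE / block [D] PATCH, leaf D/DimIntegral (helper14).  Prefix `twd_`.

An injective integral ring homomorphism does not lower the Krull dimension
(lying over + going up lift chains of primes).
-/
import Mathlib

set_option autoImplicit false

namespace Fermat.Agent.TW

/-- **D/DimIntegral.** -/
theorem twd_dim_le_of_integral {A B : Type*} [CommRing A] [CommRing B] (f : A →+* B)
    (hf : Function.Injective f) (hint : f.IsIntegral) : ringKrullDim A ≤ ringKrullDim B := by
  let _ : Algebra A B := f.toAlgebra
  have : Algebra.IsIntegral A B := ⟨hint⟩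
  unfold ringKrullDim
  rw [Order.krullDim]
  refine iSup_le fun l => ?_
  have hker : (⊥ : Ideal B).comap (algebraMap A B) ≤ l.head.asIdeal := by
    intro x hx
    have hx0 : algebraMap A B x = 0 := hx
    have : x = 0 := hf (by rw [map_zero]; exact hx0)
    rw [this]
    exact Ideal.zero_mem _
  obtain ⟨Q, -, hQ, hQc⟩ :=
    Ideal.exists_ideal_over_prime_of_isIntegral l.head.asIdeal (⊥ : Ideal B) hker
  have := hQ
  have : Q.LiesOver l.head.asIdeal := ⟨hQc.symm⟩
  obtain ⟨L, hlen, -, -⟩ := Ideal.exists_ltSeries_of_hasGoingUp l Q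
  rw [← hlen]
  exact Order.LTSeries.length_le_krullDim L

end Fermat.Agent.TW
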