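/-
ONE MACHINE / block [D] PATCH, theorem (D4) (helper25).  Prefix `twd_`.

`twd_endgame` = `twd_endgame_of` (leaf D/Endgame) + `twd_ker_le_nilradical` (theorem (D2), helper14):
from a patched two-system datum `L : twd_Limit …`, irreducibility of `Spec Rχ` (`hirr`), the
numerology `dim Rχ ≤ dim S` (`hdim`), the local input `hU` and one prime `ηb` of the common special
fibre on which `τ` does not vanish, there is a characteristic-zero prime of `T₀` containing `β`.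
-/
import Mathlib
import Fermat.Agent.TW.Patch.Defs
import Fermat.Agent.TW.Patch.Endgame
import Fermat.Agent.TW.Patch.FullSupport

set_option autoImplicit false

namespace Fermat.Agent.TW

open IsLocalRing

universe uO uS uR1 uRχ uRb uT

variable {O : Type uO} [CommRing O] {lam : O}
  {S : Type uS} [CommRing S] [Algebra O S]
  {R1 : Type uR1} [CommRing R1] [Algebra O R1]
  {Rχ : Type uRχ} [CommRing Rχ] [Algebra O Rχ]
  {Rb : Type uRb} [CommRing Rb]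
  {T0 : Type uT} [CommRing T0] [Algebra O T0]
  {d : ℕ}

/-- **(D4) the endgame**: Ihara avoidance from irreducibility and the dimension count. -/
theorem twd_endgame [IsDomain S] [IsNoetherianRing S] [IsLocalRing S]
    [IsNoetherianRing Rχ] [IsLocalRing Rχ] [Module.Finite O T0]
    (hd : 0 < d) (hlamS : algebraMap O S lam ≠ 0)
    {𝔞 : Ideal S} (h𝔞 : 𝔞.IsPrime) (hlam𝔞 : algebraMap O S lam ∉ 𝔞)
    {q1 : R1 →+* Rb} {qχ : Rχ →+* Rb} (hqχ : Function.Surjective qχ)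
    (hkerχ : RingHom.ker qχ = Ideal.span {algebraMap O Rχ lam})
    {j : T0 →+* Matrix (Fin d) (Fin d) (S ⧸ 𝔞)}
    {ν : Fin 2 → Fin 2 → R1} {β : Fin 2 → Fin 2 → T0}
    (L : twd_Limit O lam S R1 Rχ Rb T0 d 𝔞 q1 qχ j ν β)
    (hirr : (nilradical Rχ).IsPrime) (hdim : ringKrullDim Rχ ≤ ringKrullDim S)
    (τ : R1)
    (hU : ∀ 𝔭 : Ideal R1, 𝔭.IsPrime → algebraMap O R1 lam ∉ 𝔭 → (∃ i k, ν i k ∉ 𝔭) → τ ∈ 𝔭)
    (ηb : Ideal Rb) (hηb : ηb.IsPrime) (hτη : q1 τ ∉ ηb) :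
    ∃ 𝔓 : Ideal T0, 𝔓.IsPrime ∧ algebraMap O T0 lam ∉ 𝔓 ∧ ∀ i k, β i k ∈ 𝔓 :=
  twd_endgame_of hlamS h𝔞 hlam𝔞 hqχ hkerχ L
    (twd_ker_le_nilradical hd L.αχ L.σχ L.αχ_σχ hirr hdim) τ hU ηb hηb hτη

/-- the same with `τ̄` non-nilpotent in `Rb` in place of the prime `ηb`. -/
theorem twd_endgame' [IsDomain S] [IsNoetherianRing S] [IsLocalRing S]
    [IsNoetherianRing Rχ] [IsLocalRing Rχ] [Module.Finite O T0]
    (hd : 0 < d) (hlamS : algebraMap O S lam ≠ 0)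
    {𝔞 : Ideal S} (h𝔞 : 𝔞.IsPrime) (hlam𝔞 : algebraMap O S lam ∉ 𝔞)
    {q1 : R1 →+* Rb} {qχ : Rχ →+* Rb} (hqχ : Function.Surjective qχ)
    (hkerχ : RingHom.ker qχ = Ideal.span {algebraMap O Rχ lam})
    {j : T0 →+* Matrix (Fin d) (Fin d) (S ⧸ 𝔞)}
    {ν : Fin 2 → Fin 2 → R1} {β : Fin 2 → Fin 2 → T0}
    (L : twd_Limit O lam S R1 Rχ Rb T0 d 𝔞 q1 qχ j ν β)
    (hirr : (nilradical Rχ).IsPrime) (hdim : ringKrullDim Rχ ≤ ringKrullDim S)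
    (τ : R1)
    (hU : ∀ 𝔭 : Ideal R1, 𝔭.IsPrime → algebraMap O R1 lam ∉ 𝔭 → (∃ i k, ν i k ∉ 𝔭) → τ ∈ 𝔭)
    (hτ : ¬ IsNilpotent (q1 τ)) :
    ∃ 𝔓 : Ideal T0, 𝔓.IsPrime ∧ algebraMap O T0 lam ∉ 𝔓 ∧ ∀ i k, β i k ∈ 𝔓 := by
  have h : q1 τ ∉ nilradical Rb := fun h => hτ (mem_nilradical.1 h)
  rw [nilradical_eq_sInf, Ideal.mem_sInf] at h
  push Not at h
  obtain ⟨ηb, hηb, hτη⟩ := h
  exact twd_endgame hd hlamS h𝔞 hlam𝔞 hqχ hkerχ L hirr hdim τ hU ηb hηb hτη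

end Fermat.Agent.TW
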