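/-
ONE MACHINE / block [D] PATCH: `modules ⟹ twd_Level` (helper25).  Prefix `twdm_`.

The level datum `twd_Level` of `TW/Patch/Defs.lean` is in MATRIX form.  This file builds it from
MODULES WITH BASES over `A = S ⧸ 𝔟`:

* `twdm_level`   : input (A) — free `A`-modules `M¹`, `M^χ` with bases indexed by `Fin d`, the actions
  `ρ¹ : R¹ → End_A M¹`, `ρ^χ : R^χ → End_A M^χ`, the structure maps `σ¹`, `σ^χ` with
  `ρ^? (σ^? s) = s`, linear maps `e : M¹ → M^χ`, `e' : M^χ → M¹` inverse to each other and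
  intertwining the actions MODULO `λ`, `π : R¹ → T₀` and the matrix identity `α¹ mod 𝔞 = j ∘ π`;
* `twdm_level_of_quot` : input (B) — instead of `e`, `e'` a COMMON QUOTIENT
  `p¹ : M¹ ↠ M̄ ↞ M^χ : p^χ` with kernels `λ M¹`, `λ M^χ`, compatible with an action of `R̄` on `M̄`
  (`e`, `e'` are produced by the projectivity of free modules).
-/
import Mathlib
import Fermat.Agent.TW.Patch.Defs

set_option autoImplicit false
set_option linter.unusedSectionVars false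
set_option linter.style.haveILetI false

namespace Fermat.Agent.TW

open IsLocalRing

section aux

variable {A : Type*} [CommRing A] {M M' M'' : Type*} [AddCommGroup M] [Module A M]
  [AddCommGroup M'] [Module A M'] [AddCommGroup M''] [Module A M''] {d : ℕ}

/-- the coordinates of an element of `I • ⊤` lie in `I`. -/
theorem twdm_repr_mem {ι : Type*} (b : Module.Basis ι A M) (I : Ideal A) {x : M}
    (hx : x ∈ I • (⊤ : Submodule A M)) (i : ι) : b.repr x i ∈ I := by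
  refine Submodule.smul_induction_on (p := fun x => b.repr x i ∈ I) hx ?_ ?_
  · intro a ha m _
    rw [map_smul, Finsupp.smul_apply, smul_eq_mul]
    exact Ideal.mul_mem_right _ _ ha
  · intro x y hx hy
    rw [map_add, Finsupp.add_apply]
    exact Ideal.add_mem _ hx hy

/-- linear maps congruent modulo `I • ⊤` have matrices congruent modulo `I`. -/
theorem twdm_toMatrix_cong (b : Module.Basis (Fin d) A M) (b' : Module.Basis (Fin d) A M')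
    (I : Ideal A) (φ ψ : M →ₗ[A] M')
    (h : ∀ m, φ m - ψ m ∈ I • (⊤ : Submodule A M')) :
    twd_MatCong I (LinearMap.toMatrix b b' φ) (LinearMap.toMatrix b b' ψ) := by
  intro i k
  rw [LinearMap.toMatrix_apply, LinearMap.toMatrix_apply, ← Finsupp.sub_apply, ← map_sub]
  exact twdm_repr_mem b' I (h (b k)) i

end aux

universe uO uS uR1 uRχ uRb uT

variable {O : Type uO} [CommRing O] {lam : O}
  {S : Type uS} [CommRing S] [Algebra O S]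
  {R1 : Type uR1} [CommRing R1] [Algebra O R1]
  {Rχ : Type uRχ} [CommRing Rχ] [Algebra O Rχ]
  {Rb : Type uRb} [CommRing Rb]
  {T0 : Type uT} [CommRing T0] [Algebra O T0]
  {d : ℕ}

/-- **modules ⟹ level datum**, input (A). -/
noncomputable def twdm_level {𝔞 𝔟 : Ideal S} (h𝔟𝔞 : 𝔟 ≤ 𝔞) {q1 : R1 →+* Rb} {qχ : Rχ →+* Rb}
    {j : T0 →+* Matrix (Fin d) (Fin d) (S ⧸ 𝔞)} {ν : Fin 2 → Fin 2 → R1}
    {β : Fin 2 → Fin 2 → T0}
    {M1 : Type*} [AddCommGroup M1] [Module (S ⧸ 𝔟) M1]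
    {Mχ : Type*} [AddCommGroup Mχ] [Module (S ⧸ 𝔟) Mχ]
    (b1 : Module.Basis (Fin d) (S ⧸ 𝔟) M1) (bχ : Module.Basis (Fin d) (S ⧸ 𝔟) Mχ)
    (ρ1 : R1 →+* Module.End (S ⧸ 𝔟) M1) (ρχ : Rχ →+* Module.End (S ⧸ 𝔟) Mχ)
    (σ1 : S →+* R1) (σχ : S →+* Rχ)
    (hσ1 : ∀ a : O, σ1 (algebraMap O S a) = algebraMap O R1 a)
    (hσχ : ∀ a : O, σχ (algebraMap O S a) = algebraMap O Rχ a)
    (hρσ1 : ∀ (s : S) (m : M1), ρ1 (σ1 s) m = Ideal.Quotient.mk 𝔟 s • m)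
    (hρσχ : ∀ (s : S) (m : Mχ), ρχ (σχ s) m = Ideal.Quotient.mk 𝔟 s • m)
    (e : M1 →ₗ[S ⧸ 𝔟] Mχ) (e' : Mχ →ₗ[S ⧸ 𝔟] M1)
    (he : ∀ m, e' (e m) - m ∈
      (Ideal.span {Ideal.Quotient.mk 𝔟 (algebraMap O S lam)}) • (⊤ : Submodule (S ⧸ 𝔟) M1))
    (he' : ∀ m, e (e' m) - m ∈
      (Ideal.span {Ideal.Quotient.mk 𝔟 (algebraMap O S lam)}) • (⊤ : Submodule (S ⧸ 𝔟) Mχ))
    (hint : ∀ (f : R1) (g : Rχ), q1 f = qχ g → ∀ m, e (ρ1 f m) - ρχ g (e m) ∈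
      (Ideal.span {Ideal.Quotient.mk 𝔟 (algebraMap O S lam)}) • (⊤ : Submodule (S ⧸ 𝔟) Mχ))
    (π : R1 →+* T0) (hπ : ∀ a : O, π (algebraMap O R1 a) = algebraMap O T0 a)
    (hmod : ∀ f : R1,
      (LinearMap.toMatrix b1 b1 (ρ1 f)).map (Ideal.Quotient.factor h𝔟𝔞) = j (π f))
    (hπν : ∀ i k, π (ν i k) = β i k) :
    twd_Level O lam S R1 Rχ Rb T0 d 𝔞 𝔟 h𝔟𝔞 q1 qχ j ν β where
  α1 := ((LinearMap.toMatrixAlgEquiv b1 : Module.End (S ⧸ 𝔟) M1 ≃ₐ[S ⧸ 𝔟] _) :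
    Module.End (S ⧸ 𝔟) M1 →+* Matrix (Fin d) (Fin d) (S ⧸ 𝔟)).comp ρ1
  αχ := ((LinearMap.toMatrixAlgEquiv bχ : Module.End (S ⧸ 𝔟) Mχ ≃ₐ[S ⧸ 𝔟] _) :
    Module.End (S ⧸ 𝔟) Mχ →+* Matrix (Fin d) (Fin d) (S ⧸ 𝔟)).comp ρχ
  σ1 := σ1
  σχ := σχ
  σ1_algebraMap := hσ1
  σχ_algebraMap := hσχ
  α1_σ1 := by
    intro s
    have h : ρ1 (σ1 s) = Ideal.Quotient.mk 𝔟 s • (1 : Module.End (S ⧸ 𝔟) M1) :=
      LinearMap.ext fun m => hρσ1 s m
    change LinearMap.toMatrixAlgEquiv b1 (ρ1 (σ1 s)) = _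
    rw [h, map_smul, map_one]
    ext i k
    simp [Matrix.one_apply, Matrix.diagonal_apply]
  αχ_σχ := by
    intro s
    have h : ρχ (σχ s) = Ideal.Quotient.mk 𝔟 s • (1 : Module.End (S ⧸ 𝔟) Mχ) :=
      LinearMap.ext fun m => hρσχ s m
    change LinearMap.toMatrixAlgEquiv bχ (ρχ (σχ s)) = _
    rw [h, map_smul, map_one]
    ext i k
    simp [Matrix.one_apply, Matrix.diagonal_apply]
  P := LinearMap.toMatrix b1 bχ e
  Pinv := LinearMap.toMatrix bχ b1 e'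
  P_mul_Pinv := by
    rw [← LinearMap.toMatrix_comp bχ b1 bχ e e', ← LinearMap.toMatrix_id bχ]
    exact twdm_toMatrix_cong bχ bχ _ _ _ fun m => he' m
  Pinv_mul_P := by
    rw [← LinearMap.toMatrix_comp b1 bχ b1 e' e, ← LinearMap.toMatrix_id b1]
    exact twdm_toMatrix_cong b1 b1 _ _ _ fun m => he m
  intertwine := by
    intro f g hfg
    change twd_MatCong _ (LinearMap.toMatrix b1 bχ e * LinearMap.toMatrixAlgEquiv b1 (ρ1 f))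
      (LinearMap.toMatrixAlgEquiv bχ (ρχ g) * LinearMap.toMatrix b1 bχ e)
    rw [LinearMap.toMatrixAlgEquiv, LinearMap.toMatrixAlgEquiv]
    change twd_MatCong _ (LinearMap.toMatrix b1 bχ e * LinearMap.toMatrix b1 b1 (ρ1 f))
      (LinearMap.toMatrix bχ bχ (ρχ g) * LinearMap.toMatrix b1 bχ e)
    rw [← LinearMap.toMatrix_comp b1 b1 bχ e (ρ1 f), ← LinearMap.toMatrix_comp b1 bχ bχ (ρχ g) e]
    exact twdm_toMatrix_cong b1 bχ _ _ _ fun m => hint f g hfg m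
  π := π
  π_algebraMap := hπ
  α1_mod := by
    intro f
    exact hmod f
  π_ν := hπν

/-- **modules ⟹ level datum**, input (B): a common quotient `p¹ : M¹ ↠ M̄ ↞ M^χ : p^χ` with kernels
`λ M¹`, `λ M^χ` on which the two actions agree along `q¹`, `q^χ`. -/
theorem twdm_level_of_quot {𝔞 𝔟 : Ideal S} (h𝔟𝔞 : 𝔟 ≤ 𝔞) {q1 : R1 →+* Rb} {qχ : Rχ →+* Rb}
    {j : T0 →+* Matrix (Fin d) (Fin d) (S ⧸ 𝔞)} {ν : Fin 2 → Fin 2 → R1}
    {β : Fin 2 → Fin 2 → T0}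
    {M1 : Type*} [AddCommGroup M1] [Module (S ⧸ 𝔟) M1]
    {Mχ : Type*} [AddCommGroup Mχ] [Module (S ⧸ 𝔟) Mχ]
    {Mbar : Type*} [AddCommGroup Mbar] [Module (S ⧸ 𝔟) Mbar]
    (b1 : Module.Basis (Fin d) (S ⧸ 𝔟) M1) (bχ : Module.Basis (Fin d) (S ⧸ 𝔟) Mχ)
    (ρ1 : R1 →+* Module.End (S ⧸ 𝔟) M1) (ρχ : Rχ →+* Module.End (S ⧸ 𝔟) Mχ)
    (σ1 : S →+* R1) (σχ : S →+* Rχ)
    (hσ1 : ∀ a : O, σ1 (algebraMap O S a) = algebraMap O R1 a)
    (hσχ : ∀ a : O, σχ (algebraMap O S a) = algebraMap O Rχ a)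
    (hρσ1 : ∀ (s : S) (m : M1), ρ1 (σ1 s) m = Ideal.Quotient.mk 𝔟 s • m)
    (hρσχ : ∀ (s : S) (m : Mχ), ρχ (σχ s) m = Ideal.Quotient.mk 𝔟 s • m)
    (p1 : M1 →ₗ[S ⧸ 𝔟] Mbar) (pχ : Mχ →ₗ[S ⧸ 𝔟] Mbar)
    (hp1 : Function.Surjective p1) (hpχ : Function.Surjective pχ)
    (hk1 : LinearMap.ker p1 =
      (Ideal.span {Ideal.Quotient.mk 𝔟 (algebraMap O S lam)}) • (⊤ : Submodule (S ⧸ 𝔟) M1))
    (hkχ : LinearMap.ker pχ =
      (Ideal.span {Ideal.Quotient.mk 𝔟 (algebraMap O S lam)}) • (⊤ : Submodule (S ⧸ 𝔟) Mχ))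
    (hcompat : ∀ (f : R1) (g : Rχ), q1 f = qχ g → ∀ (m : M1) (m' : Mχ), p1 m = pχ m' →
      p1 (ρ1 f m) = pχ (ρχ g m'))
    (π : R1 →+* T0) (hπ : ∀ a : O, π (algebraMap O R1 a) = algebraMap O T0 a)
    (hmod : ∀ f : R1,
      (LinearMap.toMatrix b1 b1 (ρ1 f)).map (Ideal.Quotient.factor h𝔟𝔞) = j (π f))
    (hπν : ∀ i k, π (ν i k) = β i k) :
    Nonempty (twd_Level O lam S R1 Rχ Rb T0 d 𝔞 𝔟 h𝔟𝔞 q1 qχ j ν β) := by
  haveI : Module.Projective (S ⧸ 𝔟) M1 := Module.Projective.of_basis b1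
  haveI : Module.Projective (S ⧸ 𝔟) Mχ := Module.Projective.of_basis bχ
  obtain ⟨e, he⟩ := Module.projective_lifting_property pχ p1 hpχ
  obtain ⟨e', he'⟩ := Module.projective_lifting_property p1 pχ hp1
  have hE : ∀ m, pχ (e m) = p1 m := fun m => LinearMap.congr_fun he m
  have hE' : ∀ m, p1 (e' m) = pχ m := fun m => LinearMap.congr_fun he' m
  refine ⟨twdm_level h𝔟𝔞 b1 bχ ρ1 ρχ σ1 σχ hσ1 hσχ hρσ1 hρσχ e e' ?_ ?_ ?_ π hπ hmod hπν⟩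
  · intro m
    rw [← hk1, LinearMap.mem_ker, map_sub, hE', hE, sub_self]
  · intro m
    rw [← hkχ, LinearMap.mem_ker, map_sub, hE, hE', sub_self]
  · intro f g hfg m
    rw [← hkχ, LinearMap.mem_ker, map_sub, hE, hcompat f g hfg m (e m) (hE m).symm, sub_self]

/-- the identity `α¹ mod 𝔞 = j ∘ π` from a map `c : M¹ → (S ⧸ 𝔞)^d` (the reduction modulo `𝔞`)
which sends the basis `b1` to the standard basis, is semilinear along `S ⧸ 𝔟 → S ⧸ 𝔞` and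
intertwines `ρ¹ f` with `j (π f)`. -/
theorem twdm_hmod_of_c {𝔞 𝔟 : Ideal S} (h𝔟𝔞 : 𝔟 ≤ 𝔞)
    {j : T0 →+* Matrix (Fin d) (Fin d) (S ⧸ 𝔞)}
    {M1 : Type*} [AddCommGroup M1] [Module (S ⧸ 𝔟) M1]
    (b1 : Module.Basis (Fin d) (S ⧸ 𝔟) M1) (ρ1 : R1 →+* Module.End (S ⧸ 𝔟) M1) (π : R1 →+* T0)
    (c : M1 →+ (Fin d → S ⧸ 𝔞))
    (hc_smul : ∀ (a : S ⧸ 𝔟) (m : M1), c (a • m) = Ideal.Quotient.factor h𝔟𝔞 a • c m)
    (hc_basis : ∀ i, c (b1 i) = Pi.single i 1)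
    (hc_hecke : ∀ (f : R1) (m : M1), c (ρ1 f m) = (j (π f)).mulVec (c m)) (f : R1) :
    (LinearMap.toMatrix b1 b1 (ρ1 f)).map (Ideal.Quotient.factor h𝔟𝔞) = j (π f) := by
  classical
  ext i k
  rw [Matrix.map_apply, LinearMap.toMatrix_apply]
  have h1 : c (ρ1 f (b1 k)) = fun i => (j (π f)) i k := by
    rw [hc_hecke, hc_basis]
    ext i
    simp [Matrix.mulVec_single]
  have h2 : c (ρ1 f (b1 k)) =
      fun i => Ideal.Quotient.factor h𝔟𝔞 (b1.repr (ρ1 f (b1 k)) i) := by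
    conv_lhs => rw [← b1.sum_repr (ρ1 f (b1 k))]
    rw [map_sum]
    ext i
    simp only [hc_smul, hc_basis, Finset.sum_apply, Pi.smul_apply, Pi.single_apply, smul_eq_mul,
      mul_ite, mul_one, mul_zero, Finset.sum_ite_eq, Finset.mem_univ, if_true]
  have := congrFun (h2.symm.trans h1) i
  exact this

end Fermat.Agent.TW
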