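/-
ONE MACHINE / block [D] PATCH, leaf D/UltraLimit (helper28).  Namespace `Fermat.Agent.TW`,
prefix `twd_`.  Mathlib only.

The limit of a sequence in a FINITE type along the (fixed) non-principal ultrafilter
`hyperfilter ℕ`: the sequence is eventually constant along it.

* `twd_ulim x`                : the limit;
* `twd_ulim_spec`             : `∀ᶠ n in hyperfilter ℕ, x n = twd_ulim x`;
* `twd_ulim_eq_of_eventually` : uniqueness;
* `twd_ulim_comp`             : functoriality `twd_ulim (g ∘ x) = g (twd_ulim x)`;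
* `twd_ulim_of_eventually`, `twd_ulim_of_forall_ge`, `twd_ulim_of_forall` : a property true for
  `hyperfilter`-almost all / all large / all `n` holds for the limit;
* `twd_ulim_rel`, `twd_ulim_prod` : two sequences at once;
* `twd_ulim_exists_ge`        : the limit value is attained at arbitrarily large indices.
-/
import Mathlib

set_option autoImplicit false

namespace Fermat.Agent.TW

open Filter

section

variable {X : Type*} [Finite X]

/-- the limit of a sequence in a finite type along `hyperfilter ℕ`. -/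
noncomputable def twd_ulim (x : ℕ → X) : X :=
  Classical.choose (Ultrafilter.eq_pure_of_finite ((hyperfilter ℕ).map x))

theorem twd_ulim_spec (x : ℕ → X) :
    ∀ᶠ n in (hyperfilter ℕ : Filter ℕ), x n = twd_ulim x := by
  have h := Classical.choose_spec (Ultrafilter.eq_pure_of_finite ((hyperfilter ℕ).map x))
  have h1 : ({twd_ulim x} : Set X) ∈ (pure (twd_ulim x) : Ultrafilter X) := mem_pure.2 rfl
  have h2 : ({twd_ulim x} : Set X) ∈ ((hyperfilter ℕ).map x : Ultrafilter X) := by
    have h3 : ((hyperfilter ℕ).map x : Ultrafilter X) = pure (twd_ulim x) := h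
    rw [h3]
    exact h1
  exact h2

/-- a property which holds `hyperfilter`-eventually along the sequence holds for the limit. -/
theorem twd_ulim_of_eventually (x : ℕ → X) {p : X → Prop}
    (h : ∀ᶠ n in (hyperfilter ℕ : Filter ℕ), p (x n)) : p (twd_ulim x) := by
  obtain ⟨n, hn1, hn2⟩ := ((twd_ulim_spec x).and h).exists
  rwa [← hn1]

theorem twd_ulim_eq_of_eventually (x : ℕ → X) {a : X}
    (h : ∀ᶠ n in (hyperfilter ℕ : Filter ℕ), x n = a) : twd_ulim x = a :=
  twd_ulim_of_eventually x (p := fun y => y = a) h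

/-- a property true for all large `n` holds for the limit. -/
theorem twd_ulim_of_forall_ge (x : ℕ → X) {p : X → Prop} (N : ℕ) (h : ∀ n, N ≤ n → p (x n)) :
    p (twd_ulim x) := by
  apply twd_ulim_of_eventually
  have h1 : ∀ᶠ n in (atTop : Filter ℕ), p (x n) := eventually_atTop.2 ⟨N, h⟩
  rw [← Nat.cofinite_eq_atTop] at h1
  exact hyperfilter_le_cofinite h1

theorem twd_ulim_of_forall (x : ℕ → X) {p : X → Prop} (h : ∀ n, p (x n)) : p (twd_ulim x) :=
  twd_ulim_of_forall_ge x 0 fun n _ => h n

theorem twd_ulim_const (a : X) : twd_ulim (fun _ : ℕ => a) = a :=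
  twd_ulim_of_forall (fun _ : ℕ => a) (p := fun y => y = a) fun _ => rfl

/-- functoriality. -/
theorem twd_ulim_comp {Y : Type*} [Finite Y] (g : X → Y) (x : ℕ → X) :
    twd_ulim (g ∘ x) = g (twd_ulim x) := by
  apply twd_ulim_eq_of_eventually
  filter_upwards [twd_ulim_spec x] with n hn
  rw [Function.comp_apply, hn]

/-- a relation which holds `hyperfilter`-eventually between two sequences holds between their
limits. -/
theorem twd_ulim_rel {Y : Type*} [Finite Y] (x : ℕ → X) (y : ℕ → Y)
    {r : X → Y → Prop} (h : ∀ᶠ n in (hyperfilter ℕ : Filter ℕ), r (x n) (y n)) :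
    r (twd_ulim x) (twd_ulim y) := by
  obtain ⟨n, ⟨hn1, hn2⟩, hn3⟩ := (((twd_ulim_spec x).and (twd_ulim_spec y)).and h).exists
  rwa [← hn1, ← hn2]

theorem twd_ulim_prod {Y : Type*} [Finite Y] (x : ℕ → X) (y : ℕ → Y) :
    twd_ulim (fun n => (x n, y n)) = (twd_ulim x, twd_ulim y) := by
  apply twd_ulim_eq_of_eventually
  filter_upwards [twd_ulim_spec x, twd_ulim_spec y] with n h1 h2
  rw [h1, h2]

/-- the limit is attained at arbitrarily large indices, simultaneously with any
`hyperfilter`-eventual property. -/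
theorem twd_ulim_exists_ge (x : ℕ → X) {p : ℕ → Prop}
    (h : ∀ᶠ n in (hyperfilter ℕ : Filter ℕ), p n) (N : ℕ) :
    ∃ n, N ≤ n ∧ x n = twd_ulim x ∧ p n := by
  have h1 : ∀ᶠ n in (hyperfilter ℕ : Filter ℕ), N ≤ n := by
    have h2 : ∀ᶠ n in (atTop : Filter ℕ), N ≤ n := eventually_ge_atTop N
    rw [← Nat.cofinite_eq_atTop] at h2
    exact hyperfilter_le_cofinite h2
  obtain ⟨n, ⟨hn1, hn2⟩, hn3⟩ := ((h1.and (twd_ulim_spec x)).and h).exists
  exact ⟨n, hn1, hn2, hn3⟩

end

end Fermat.Agent.TW
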