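/-
ONE MACHINE / block [D] PATCH, leaf D/Limit, stage 1 (helper28).  Namespace `Fermat.Agent.TW`,
prefix `twd_`.  Mathlib only.

* `twd_Approx … k`  : a level datum truncated at depth `k` (everything modulo `𝔪_S ^ k`, `𝔪_R ^ k`,
                      `λ ^ k`): a FINITE type under the finiteness hypotheses of (D1);
* `twd_red L k h`   : the truncation of a level datum `L` over `S ⧸ 𝔟` when `𝔟 ≤ 𝔪_S ^ k`;
* `twd_exists_approx` : along `hyperfilter ℕ` the truncations at depth `k` of the level data `Lv n`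
                      are eventually constant: there are `D k : twd_Approx k` such that for
                      `hyperfilter`-almost all `n`, `D k = twd_red (Lv n) k _`.
-/
import Mathlib
import Fermat.Agent.TW.Patch.Defs
import Fermat.Agent.TW.Patch.FiniteHom
import Fermat.Agent.TW.Patch.UltraLimit

set_option autoImplicit false
set_option linter.style.haveILetI false
set_option linter.unusedSectionVars false

namespace Fermat.Agent.TW

open IsLocalRing Filter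

universe uO uS uR1 uRχ uRb uT

variable (O : Type uO) [CommRing O] (lam : O)
  (S : Type uS) [CommRing S] [Algebra O S] [IsLocalRing S]
  (R1 : Type uR1) [CommRing R1] [Algebra O R1] [IsLocalRing R1]
  (Rχ : Type uRχ) [CommRing Rχ] [Algebra O Rχ] [IsLocalRing Rχ]
  (Rb : Type uRb) [CommRing Rb]
  (T0 : Type uT) [CommRing T0] [Algebra O T0]
  (d : ℕ)

/-- a level datum truncated at depth `k`. -/
structure twd_Approx (k : ℕ) where
  a1 : R1 →+* Matrix (Fin d) (Fin d) (S ⧸ maximalIdeal S ^ k)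
  aχ : Rχ →+* Matrix (Fin d) (Fin d) (S ⧸ maximalIdeal S ^ k)
  s1 : S →+* R1 ⧸ maximalIdeal R1 ^ k
  sχ : S →+* Rχ ⧸ maximalIdeal Rχ ^ k
  pp : Matrix (Fin d) (Fin d) (S ⧸ maximalIdeal S ^ k)
  pi : Matrix (Fin d) (Fin d) (S ⧸ maximalIdeal S ^ k)
  p : R1 →+* T0 ⧸ (Ideal.span {algebraMap O T0 lam}) ^ k

variable {O lam S R1 Rχ Rb T0 d}

theorem twd_Approx.ext' {k : ℕ} {D D' : twd_Approx O lam S R1 Rχ T0 d k}
    (h1 : D.a1 = D'.a1) (h2 : D.aχ = D'.aχ) (h3 : D.s1 = D'.s1) (h4 : D.sχ = D'.sχ)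
    (h5 : D.pp = D'.pp) (h6 : D.pi = D'.pi) (h7 : D.p = D'.p) : D = D' := by
  cases D; cases D'
  simp only at h1 h2 h3 h4 h5 h6 h7
  subst h1 h2 h3 h4 h5 h6 h7
  rfl

/-- finiteness of the type of truncated data. -/
theorem twd_Approx.finite (hS : ∀ k, Finite (S ⧸ maximalIdeal S ^ k))
    (hR1 : ∀ k, Finite (R1 ⧸ maximalIdeal R1 ^ k))
    (hRχ : ∀ k, Finite (Rχ ⧸ maximalIdeal Rχ ^ k))
    (hT0 : ∀ k, Finite (T0 ⧸ (Ideal.span {algebraMap O T0 lam}) ^ k)) (k : ℕ) :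
    Finite (twd_Approx O lam S R1 Rχ T0 d k) := by
  haveI := hS k
  haveI := hR1 k
  haveI := hRχ k
  haveI := hT0 k
  haveI : Finite (Matrix (Fin d) (Fin d) (S ⧸ maximalIdeal S ^ k)) := by
    unfold Matrix; infer_instance
  haveI := twd_finite_ringHom hR1 (Matrix (Fin d) (Fin d) (S ⧸ maximalIdeal S ^ k))
  haveI := twd_finite_ringHom hRχ (Matrix (Fin d) (Fin d) (S ⧸ maximalIdeal S ^ k))
  haveI := twd_finite_ringHom hS (R1 ⧸ maximalIdeal R1 ^ k)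
  haveI := twd_finite_ringHom hS (Rχ ⧸ maximalIdeal Rχ ^ k)
  haveI := twd_finite_ringHom hR1 (T0 ⧸ (Ideal.span {algebraMap O T0 lam}) ^ k)
  refine Finite.of_injective
    (fun D : twd_Approx O lam S R1 Rχ T0 d k => (D.a1, D.aχ, D.s1, D.sχ, D.pp, D.pi, D.p)) ?_
  intro D D' h
  simp only [Prod.mk.injEq] at h
  exact twd_Approx.ext' h.1 h.2.1 h.2.2.1 h.2.2.2.1 h.2.2.2.2.1 h.2.2.2.2.2.1 h.2.2.2.2.2.2

variable {𝔞 : Ideal S} {q1 : R1 →+* Rb} {qχ : Rχ →+* Rb}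
  {j : T0 →+* Matrix (Fin d) (Fin d) (S ⧸ 𝔞)} {ν : Fin 2 → Fin 2 → R1} {β : Fin 2 → Fin 2 → T0}

/-- the truncation at depth `k` of a level datum over `S ⧸ 𝔟`, `𝔟 ≤ 𝔪 ^ k`. -/
def twd_red {𝔟 : Ideal S} {h𝔟𝔞 : 𝔟 ≤ 𝔞}
    (L : twd_Level O lam S R1 Rχ Rb T0 d 𝔞 𝔟 h𝔟𝔞 q1 qχ j ν β) (k : ℕ)
    (h : 𝔟 ≤ maximalIdeal S ^ k) : twd_Approx O lam S R1 Rχ T0 d k where
  a1 := (Ideal.Quotient.factor h).mapMatrix.comp L.α1
  aχ := (Ideal.Quotient.factor h).mapMatrix.comp L.αχ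
  s1 := (Ideal.Quotient.mk _).comp L.σ1
  sχ := (Ideal.Quotient.mk _).comp L.σχ
  pp := L.P.map (Ideal.Quotient.factor h)
  pi := L.Pinv.map (Ideal.Quotient.factor h)
  p := (Ideal.Quotient.mk _).comp L.π

/-- **stage 1 of (D1)**: the truncations are eventually constant along `hyperfilter ℕ`. -/
theorem twd_exists_approx (hS : ∀ k, Finite (S ⧸ maximalIdeal S ^ k))
    (hR1 : ∀ k, Finite (R1 ⧸ maximalIdeal R1 ^ k))
    (hRχ : ∀ k, Finite (Rχ ⧸ maximalIdeal Rχ ^ k))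
    (hT0 : ∀ k, Finite (T0 ⧸ (Ideal.span {algebraMap O T0 lam}) ^ k))
    (𝔟 : ℕ → Ideal S) (h𝔟𝔞 : ∀ n, 𝔟 n ≤ 𝔞) (h𝔟 : ∀ n, 𝔟 n ≤ maximalIdeal S ^ n)
    (Lv : ∀ n, twd_Level O lam S R1 Rχ Rb T0 d 𝔞 (𝔟 n) (h𝔟𝔞 n) q1 qχ j ν β) :
    ∃ D : ∀ k, twd_Approx O lam S R1 Rχ T0 d k,
      ∀ k, ∀ᶠ n in (hyperfilter ℕ : Filter ℕ),
        ∃ h : 𝔟 n ≤ maximalIdeal S ^ k, D k = twd_red (Lv n) k h := by
  have hle : ∀ {n k : ℕ}, k ≤ n → 𝔟 n ≤ maximalIdeal S ^ k := fun {n k} hkn =>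
    (h𝔟 n).trans (Ideal.pow_le_pow_right hkn)
  have key : ∀ k, ∃ D : twd_Approx O lam S R1 Rχ T0 d k,
      ∀ᶠ n in (hyperfilter ℕ : Filter ℕ),
        ∃ h : 𝔟 n ≤ maximalIdeal S ^ k, D = twd_red (Lv n) k h := by
    intro k
    haveI := twd_Approx.finite (d := d) hS hR1 hRχ hT0 k
    let x : ℕ → twd_Approx O lam S R1 Rχ T0 d k := fun n =>
      if hkn : k ≤ n then twd_red (Lv n) k (hle hkn) else twd_red (Lv k) k (hle le_rfl)
    refine ⟨twd_ulim x, ?_⟩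
    have h1 : ∀ᶠ n in (hyperfilter ℕ : Filter ℕ), k ≤ n := by
      have h2 : ∀ᶠ n in (atTop : Filter ℕ), k ≤ n := eventually_ge_atTop k
      rw [← Nat.cofinite_eq_atTop] at h2
      exact hyperfilter_le_cofinite h2
    filter_upwards [h1, twd_ulim_spec x] with n hkn hn
    refine ⟨hle hkn, ?_⟩
    rw [← hn]
    simp only [x, dif_pos hkn]
  choose D hD using key
  exact ⟨D, hD⟩

end Fermat.Agent.TW
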